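import Mathlib

/-!
# Case I of Fermat's Last Theorem for small primes via Sophie Germain's theorem

Elementary: if `q` is an auxiliary prime such that
(1) `x^p + y^p + z^p = 0` in `ZMod q` forces `x*y*z = 0`, and
(2) `p` is not a `p`-th power in `ZMod q`,
then any pairwise coprime integer solution of `x^p + y^p + z^p = 0` has `p ∣ x*y*z`.
-/

set_option autoImplicit false

namespace Fermat.Agent.FLTSmall

open Finset

/-- The cofactor `(y^p + z^p)/(y+z)` as a geometric sum. -/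
def sgPhi {R : Type*} [CommRing R] (p : ℕ) (y z : R) : R :=
  ∑ i ∈ range p, y ^ i * (-z) ^ (p - 1 - i)

lemma sgPhi_mul {R : Type*} [CommRing R] {p : ℕ} (hp : Odd p) (y z : R) :
    (y + z) * sgPhi p y z = y ^ p + z ^ p := by
  have h := geom_sum₂_mul y (-z) p
  rw [hp.neg_pow] at h
  unfold sgPhi
  rw [mul_comm]
  linear_combination h

lemma map_sgPhi {R S : Type*} [CommRing R] [CommRing S] (f : R →+* S) (p : ℕ) (y z : R) :
    f (sgPhi p y z) = sgPhi p (f y) (f z) := by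
  simp [sgPhi, map_sum]

/-- If `y + z = 0` then the cofactor equals `p * y^(p-1)`. -/
lemma sgPhi_of_add_eq_zero {R : Type*} [CommRing R] (p : ℕ) {y z : R} (h : y + z = 0) :
    sgPhi p y z = p * y ^ (p - 1) := by
  have hz : -z = y := by linear_combination -h
  unfold sgPhi
  rw [hz]
  have : ∀ i ∈ range p, y ^ i * y ^ (p - 1 - i) = y ^ (p - 1) := by
    intro i hi
    rw [← pow_add]
    congr 1
    have := mem_range.mp hi
    omega
  rw [sum_congr rfl this]
  simp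

/-- If `y = 0` then the cofactor equals `(-z)^(p-1)`. -/
lemma sgPhi_of_eq_zero {R : Type*} [CommRing R] {p : ℕ} (hp : 0 < p) {y : R} (z : R) (h : y = 0) :
    sgPhi p y z = (-z) ^ (p - 1) := by
  unfold sgPhi
  rw [h, sum_eq_single 0]
  · simp
  · intro i _ hi
    rw [zero_pow hi, zero_mul]
  · intro h0
    exact absurd (mem_range.mpr hp) h0

section core

variable {p q : ℕ}

/-- the sum `y+z` is prime to `p` when `p ∤ x`. -/
lemma sg_not_dvd_add (hp : p.Prime) {x y z : ℤ} (h : x ^ p + y ^ p + z ^ p = 0)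
    (hpx : ¬ (p : ℤ) ∣ x) : ¬ (p : ℤ) ∣ y + z := by
  intro hd
  have : Fact p.Prime := ⟨hp⟩
  have h1 : ((y + z : ℤ) : ZMod p) = 0 := (ZMod.intCast_zmod_eq_zero_iff_dvd _ _).mpr hd
  have h2 : ((x ^ p + y ^ p + z ^ p : ℤ) : ZMod p) = 0 := by rw [h]; simp
  push_cast at h1 h2
  have h3 : ((y : ZMod p) + (z : ZMod p)) ^ p = (y : ZMod p) ^ p + (z : ZMod p) ^ p :=
    add_pow_char _ _ _
  rw [h1, zero_pow hp.ne_zero] at h3
  have h4 : (x : ZMod p) ^ p = 0 := by linear_combination h2 + h3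
  have h5 : (x : ZMod p) = 0 := pow_eq_zero_iff hp.ne_zero |>.mp h4
  exact hpx ((ZMod.intCast_zmod_eq_zero_iff_dvd _ _).mp h5)

/-- `y+z` and the cofactor are coprime. -/
lemma sg_isCoprime (hp : p.Prime) {y z : ℤ} (hyz : IsCoprime y z)
    (hpyz : ¬ (p : ℤ) ∣ y + z) : IsCoprime (y + z) (sgPhi p y z) := by
  apply isCoprime_of_prime_dvd
  · rintro ⟨h1, -⟩
    exact hpyz (h1 ▸ dvd_zero _)
  · intro r hr hr1 hr2
    -- pass to a natural prime
    obtain ⟨n, hn⟩ : ∃ n : ℕ, (n : ℤ) = r ∨ (n : ℤ) = -r := ⟨r.natAbs, by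
      rcases Int.natAbs_eq r with h | h
      · left; omega
      · right; omega⟩
    have hnr : Associated (n : ℤ) r := by
      rcases hn with h | h
      · rw [h]
      · rw [h]; exact Associated.neg_left (Associated.refl r)
    have hnprime : Prime (n : ℤ) := hnr.symm.prime hr
    have hnp : n.Prime := Nat.prime_iff_prime_int.mpr hnprime
    have : Fact n.Prime := ⟨hnp⟩
    have hn1 : (n : ℤ) ∣ y + z := hnr.dvd.trans hr1
    have hn2 : (n : ℤ) ∣ sgPhi p y z := hnr.dvd.trans hr2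
    have e1 : ((y : ZMod n) + (z : ZMod n)) = 0 := by
      have := (ZMod.intCast_zmod_eq_zero_iff_dvd _ _).mpr hn1
      push_cast at this; exact this
    have e2 : sgPhi p (y : ZMod n) (z : ZMod n) = 0 := by
      have := (ZMod.intCast_zmod_eq_zero_iff_dvd _ _).mpr hn2
      rw [← this]
      exact (map_sgPhi (Int.castRingHom (ZMod n)) p y z).symm
    rw [sgPhi_of_add_eq_zero p e1] at e2
    rcases mul_eq_zero.mp e2 with h | h
    · -- n ∣ p so n = p
      have : n ∣ p := (ZMod.natCast_eq_zero_iff _ _).mp h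
      have hnp' : n = p := (Nat.prime_dvd_prime_iff_eq hnp hp).mp this
      exact hpyz (hnp' ▸ hn1)
    · have hy0 : (y : ZMod n) = 0 := pow_eq_zero_iff (by
        have := hp.two_le; omega) |>.mp h
      have hz0 : (z : ZMod n) = 0 := by linear_combination e1 - hy0
      have hy : (n : ℤ) ∣ y := (ZMod.intCast_zmod_eq_zero_iff_dvd _ _).mp hy0
      have hz : (n : ℤ) ∣ z := (ZMod.intCast_zmod_eq_zero_iff_dvd _ _).mp hz0
      exact hnprime.not_isUnit (hyz.isUnit_of_dvd' hy hz)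

/-- both factors are `p`-th powers -/
lemma sg_factor (hp : p.Prime) (hodd : Odd p) {x y z : ℤ} (hyz : IsCoprime y z)
    (h : x ^ p + y ^ p + z ^ p = 0) (hpx : ¬ (p : ℤ) ∣ x) :
    (∃ a : ℤ, y + z = a ^ p) ∧ ∃ α : ℤ, sgPhi p y z = α ^ p := by
  have hcop := sg_isCoprime hp hyz (sg_not_dvd_add hp h hpx)
  have hmul : (y + z) * sgPhi p y z = (-x) ^ p := by
    rw [sgPhi_mul hodd, hodd.neg_pow]; linear_combination h
  exact ⟨Int.eq_pow_of_mul_eq_pow_odd_left hcop hodd hmul,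
    Int.eq_pow_of_mul_eq_pow_odd_right hcop hodd hmul⟩


lemma sg_not_both (hq : q.Prime) {u v : ℤ} (hcop : IsCoprime u v)
    (hu : (u : ZMod q) = 0) (hv : (v : ZMod q) = 0) : False := by
  have hu' : (q : ℤ) ∣ u := (ZMod.intCast_zmod_eq_zero_iff_dvd _ _).mp hu
  have hv' : (q : ℤ) ∣ v := (ZMod.intCast_zmod_eq_zero_iff_dvd _ _).mp hv
  exact (Nat.prime_iff_prime_int.mp hq).not_isUnit (hcop.isUnit_of_dvd' hu' hv')

/-- core: with the auxiliary prime dividing `x` we get a contradiction -/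
lemma sg_core (hp : p.Prime) (hodd : Odd p) (hq : q.Prime)
    (h1 : ∀ u v w : ZMod q, u ^ p + v ^ p + w ^ p = 0 → u * v * w = 0)
    (h2 : ∀ t : ZMod q, t ^ p ≠ (p : ZMod q))
    {x y z : ℤ} (hxy : IsCoprime x y) (hyz : IsCoprime y z) (hxz : IsCoprime x z)
    (h : x ^ p + y ^ p + z ^ p = 0)
    (hpx : ¬ (p : ℤ) ∣ x) (hpy : ¬ (p : ℤ) ∣ y) (hpz : ¬ (p : ℤ) ∣ z)
    (hqx : (q : ℤ) ∣ x) : False := by
  have : Fact q.Prime := ⟨hq⟩
  obtain ⟨⟨a, ha⟩, ⟨α, hα⟩⟩ := sg_factor hp hodd hyz h hpx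
  have h' : y ^ p + z ^ p + x ^ p = 0 := by linear_combination h
  obtain ⟨⟨b, hb⟩, -⟩ := sg_factor hp hodd hxz.symm h' hpy
  have h'' : z ^ p + x ^ p + y ^ p = 0 := by linear_combination h
  obtain ⟨⟨c, hc⟩, ⟨γ, hγ⟩⟩ := sg_factor hp hodd hxy h'' hpz
  have hx0 : (x : ZMod q) = 0 := (ZMod.intCast_zmod_eq_zero_iff_dvd _ _).mpr hqx
  have hA : (y : ZMod q) + z = (a : ZMod q) ^ p := by
    have := congrArg (Int.cast : ℤ → ZMod q) ha
    push_cast at this; exact this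
  have hB : (z : ZMod q) + x = (b : ZMod q) ^ p := by
    have := congrArg (Int.cast : ℤ → ZMod q) hb
    push_cast at this; exact this
  have hC : (x : ZMod q) + y = (c : ZMod q) ^ p := by
    have := congrArg (Int.cast : ℤ → ZMod q) hc
    push_cast at this; exact this
  have hAl : sgPhi p (y : ZMod q) (z : ZMod q) = (α : ZMod q) ^ p := by
    have := congrArg (Int.castRingHom (ZMod q)) hα
    rw [map_sgPhi, map_pow] at this
    exact this
  have hGa : sgPhi p (x : ZMod q) (y : ZMod q) = (γ : ZMod q) ^ p := by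
    have := congrArg (Int.castRingHom (ZMod q)) hγ
    rw [map_sgPhi, map_pow] at this
    exact this
  have hy0 : (y : ZMod q) ≠ 0 := fun hy0 => sg_not_both hq hxy hx0 hy0
  have hz0 : (z : ZMod q) ≠ 0 := fun hz0 => sg_not_both hq hxz hx0 hz0
  have hsum : (b : ZMod q) ^ p + (c : ZMod q) ^ p + (-(a : ZMod q)) ^ p = 0 := by
    rw [hodd.neg_pow, ← hA, ← hB, ← hC, hx0]; ring
  have h3 := h1 _ _ _ hsum
  have hppos : p ≠ 0 := hp.ne_zero
  rcases mul_eq_zero.mp h3 with h4 | h4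
  · rcases mul_eq_zero.mp h4 with h5 | h5
    · -- b = 0
      rw [h5, zero_pow hppos, hx0, add_zero] at hB
      exact hz0 hB
    · rw [h5, zero_pow hppos, hx0, zero_add] at hC
      exact hy0 hC
  · have ha0 : (a : ZMod q) = 0 := neg_eq_zero.mp h4
    rw [ha0, zero_pow hppos] at hA
    rw [sgPhi_of_add_eq_zero p hA] at hAl
    rw [sgPhi_of_eq_zero hp.pos _ hx0] at hGa
    have heven : Even (p - 1) := by
      rcases hodd with ⟨k, hk⟩
      exact ⟨k, by omega⟩
    rw [heven.neg_pow] at hGa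
    have hypow : (y : ZMod q) ^ (p - 1) ≠ 0 := pow_ne_zero _ hy0
    have hγ0 : (γ : ZMod q) ≠ 0 := by
      intro h0
      rw [h0, zero_pow hppos] at hGa
      exact hypow hGa
    apply h2 ((α : ZMod q) / γ)
    rw [div_pow, ← hAl, ← hGa]
    field_simp

/-- **Sophie Germain's theorem.** -/
theorem sophieGermain (hp : p.Prime) (hp2 : p ≠ 2) (hq : q.Prime)
    (h1 : ∀ u v w : ZMod q, u ^ p + v ^ p + w ^ p = 0 → u * v * w = 0)
    (h2 : ∀ t : ZMod q, t ^ p ≠ (p : ZMod q)) :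
    ∀ x y z : ℤ, IsCoprime x y → IsCoprime y z → IsCoprime x z →
      x ^ p + y ^ p + z ^ p = 0 → (p : ℤ) ∣ x * y * z := by
  intro x y z hxy hyz hxz h
  have hodd : Odd p := hp.odd_of_ne_two hp2
  by_contra hnd
  have hpx : ¬ (p : ℤ) ∣ x := fun hd => hnd ((hd.mul_right y).mul_right z)
  have hpy : ¬ (p : ℤ) ∣ y := fun hd => hnd ((hd.mul_left x).mul_right z)
  have hpz : ¬ (p : ℤ) ∣ z := fun hd => hnd (hd.mul_left (x * y))
  have hmod : (x : ZMod q) ^ p + (y : ZMod q) ^ p + (z : ZMod q) ^ p = 0 := by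
    have := congrArg (Int.cast : ℤ → ZMod q) h
    push_cast at this; exact this
  have : Fact q.Prime := ⟨hq⟩
  rcases mul_eq_zero.mp (h1 _ _ _ hmod) with h3 | h3
  · rcases mul_eq_zero.mp h3 with h4 | h4
    · exact sg_core hp hodd hq h1 h2 hxy hyz hxz h hpx hpy hpz
        ((ZMod.intCast_zmod_eq_zero_iff_dvd _ _).mp h4)
    · exact sg_core hp hodd hq h1 h2 hyz hxz.symm hxy.symm (by linear_combination h) hpy hpz hpx
        ((ZMod.intCast_zmod_eq_zero_iff_dvd _ _).mp h4)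
  · exact sg_core hp hodd hq h1 h2 hxz.symm hxy hyz.symm (by linear_combination h) hpz hpx hpy
      ((ZMod.intCast_zmod_eq_zero_iff_dvd _ _).mp h3)

/-- Version for `a^p + b^p = c^p` with only `IsCoprime a b` assumed. -/
theorem sophieGermain' (hp : p.Prime) (hp2 : p ≠ 2) (hq : q.Prime)
    (h1 : ∀ u v w : ZMod q, u ^ p + v ^ p + w ^ p = 0 → u * v * w = 0)
    (h2 : ∀ t : ZMod q, t ^ p ≠ (p : ZMod q)) :
    ∀ a b c : ℤ, IsCoprime a b → a ^ p + b ^ p = c ^ p → (p : ℤ) ∣ a * b * c := by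
  intro a b c hab h
  have hodd : Odd p := hp.odd_of_ne_two hp2
  have hac : IsCoprime a c := by
    have h3 : IsCoprime a (b ^ p + a * a ^ (p - 1)) :=
      (IsCoprime.pow_right (n := p) hab).add_mul_left_right _
    have h4 : b ^ p + a * a ^ (p - 1) = c ^ p := by
      rw [← h, ← pow_succ', Nat.sub_add_cancel hp.one_le]; ring
    rw [h4] at h3
    exact (IsCoprime.pow_right_iff hp.pos).mp h3
  have hbc : IsCoprime b c := by
    have h3 : IsCoprime b (a ^ p + b * b ^ (p - 1)) :=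
      (IsCoprime.pow_right (n := p) hab.symm).add_mul_left_right _
    have h4 : a ^ p + b * b ^ (p - 1) = c ^ p := by
      rw [← h, ← pow_succ', Nat.sub_add_cancel hp.one_le]
    rw [h4] at h3
    exact (IsCoprime.pow_right_iff hp.pos).mp h3
  have h5 := sophieGermain hp hp2 hq h1 h2 a b (-c) hab hbc.neg_right hac.neg_right
    (by rw [hodd.neg_pow]; linear_combination h)
  have h6 : a * b * -c = -(a * b * c) := by ring
  rw [h6, dvd_neg] at h5
  exact h5

/-- Reduce condition (1) to a check on the finite set of `p`-th powers. -/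
lemma sg_cond_of_finset [Fact q.Prime] (S : Finset (ZMod q)) (hS : ∀ u : ZMod q, u ^ p ∈ S)
    (hsum : ∀ s ∈ S, ∀ t ∈ S, ∀ r ∈ S, s + t + r = 0 → s = 0 ∨ t = 0 ∨ r = 0) :
    ∀ u v w : ZMod q, u ^ p + v ^ p + w ^ p = 0 → u * v * w = 0 := by
  intro u v w h
  rcases hsum _ (hS u) _ (hS v) _ (hS w) h with h0 | h0 | h0
  · rw [eq_zero_of_pow_eq_zero h0]; ring
  · rw [eq_zero_of_pow_eq_zero h0]; ring
  · rw [eq_zero_of_pow_eq_zero h0]; ring

end core

section instances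

lemma sg_pow_five : ∀ u : ZMod 11, u ^ 5 ∈ ({0, 1, -1} : Finset (ZMod 11)) := by decide

set_option maxRecDepth 100000 in
lemma sg_sum_five : ∀ s ∈ ({0, 1, -1} : Finset (ZMod 11)), ∀ t ∈ ({0, 1, -1} : Finset (ZMod 11)),
    ∀ r ∈ ({0, 1, -1} : Finset (ZMod 11)), s + t + r = 0 → s = 0 ∨ t = 0 ∨ r = 0 := by decide

lemma sg_ne_five : ∀ t : ZMod 11, t ^ 5 ≠ ((5 : ℕ) : ZMod 11) := by decide

/-- Case I of FLT for exponent 5 (auxiliary prime 11). -/
theorem caseI_five : ∀ a b c : ℤ, IsCoprime a b → a ^ 5 + b ^ 5 = c ^ 5 →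
    (5 : ℤ) ∣ a * b * c := by
  have : Fact (Nat.Prime 11) := ⟨by norm_num⟩
  have h := sophieGermain' (p := 5) (q := 11) (by norm_num) (by norm_num) (by norm_num)
    (sg_cond_of_finset _ sg_pow_five sg_sum_five) sg_ne_five
  exact_mod_cast h

lemma sg_pow_seven : ∀ u : ZMod 29, u ^ 7 ∈ ({0, 1, -1, 12, -12} : Finset (ZMod 29)) := by decide

set_option maxRecDepth 100000 in
lemma sg_sum_seven : ∀ s ∈ ({0, 1, -1, 12, -12} : Finset (ZMod 29)), ∀ t ∈ ({0, 1, -1, 12, -12} : Finset (ZMod 29)),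
    ∀ r ∈ ({0, 1, -1, 12, -12} : Finset (ZMod 29)), s + t + r = 0 → s = 0 ∨ t = 0 ∨ r = 0 := by decide

lemma sg_ne_seven : ∀ t : ZMod 29, t ^ 7 ≠ ((7 : ℕ) : ZMod 29) := by decide

/-- Case I of FLT for exponent 7 (auxiliary prime 29). -/
theorem caseI_seven : ∀ a b c : ℤ, IsCoprime a b → a ^ 7 + b ^ 7 = c ^ 7 →
    (7 : ℤ) ∣ a * b * c := by
  have : Fact (Nat.Prime 29) := ⟨by norm_num⟩
  have h := sophieGermain' (p := 7) (q := 29) (by norm_num) (by norm_num) (by norm_num)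
    (sg_cond_of_finset _ sg_pow_seven sg_sum_seven) sg_ne_seven
  exact_mod_cast h

lemma sg_pow_eleven : ∀ u : ZMod 23, u ^ 11 ∈ ({0, 1, -1} : Finset (ZMod 23)) := by decide

set_option maxRecDepth 100000 in
lemma sg_sum_eleven : ∀ s ∈ ({0, 1, -1} : Finset (ZMod 23)), ∀ t ∈ ({0, 1, -1} : Finset (ZMod 23)),
    ∀ r ∈ ({0, 1, -1} : Finset (ZMod 23)), s + t + r = 0 → s = 0 ∨ t = 0 ∨ r = 0 := by decide

lemma sg_ne_eleven : ∀ t : ZMod 23, t ^ 11 ≠ ((11 : ℕ) : ZMod 23) := by decide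

/-- Case I of FLT for exponent 11 (auxiliary prime 23). -/
theorem caseI_eleven : ∀ a b c : ℤ, IsCoprime a b → a ^ 11 + b ^ 11 = c ^ 11 →
    (11 : ℤ) ∣ a * b * c := by
  have : Fact (Nat.Prime 23) := ⟨by norm_num⟩
  have h := sophieGermain' (p := 11) (q := 23) (by norm_num) (by norm_num) (by norm_num)
    (sg_cond_of_finset _ sg_pow_eleven sg_sum_eleven) sg_ne_eleven
  exact_mod_cast h

lemma sg_pow_thirteen : ∀ u : ZMod 53, u ^ 13 ∈ ({0, 1, -1, 23, -23} : Finset (ZMod 53)) := by decide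

set_option maxRecDepth 100000 in
lemma sg_sum_thirteen : ∀ s ∈ ({0, 1, -1, 23, -23} : Finset (ZMod 53)), ∀ t ∈ ({0, 1, -1, 23, -23} : Finset (ZMod 53)),
    ∀ r ∈ ({0, 1, -1, 23, -23} : Finset (ZMod 53)), s + t + r = 0 → s = 0 ∨ t = 0 ∨ r = 0 := by decide

lemma sg_ne_thirteen : ∀ t : ZMod 53, t ^ 13 ≠ ((13 : ℕ) : ZMod 53) := by decide

/-- Case I of FLT for exponent 13 (auxiliary prime 53). -/
theorem caseI_thirteen : ∀ a b c : ℤ, IsCoprime a b → a ^ 13 + b ^ 13 = c ^ 13 →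
    (13 : ℤ) ∣ a * b * c := by
  have : Fact (Nat.Prime 53) := ⟨by norm_num⟩
  have h := sophieGermain' (p := 13) (q := 53) (by norm_num) (by norm_num) (by norm_num)
    (sg_cond_of_finset _ sg_pow_thirteen sg_sum_thirteen) sg_ne_thirteen
  exact_mod_cast h

end instances

end Fermat.Agent.FLTSmall
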