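/-
FLTSmall project (towards S10, S11).
Kummer's descent for the second case of Fermat's Last Theorem, in an abstract principal ideal
domain `O` containing a primitive `p`-th root of unity `η` such that `η - 1` is a prime element
with residue ring of cardinality `p`, and satisfying Kummer's lemma on units.
-/
import Mathlib

set_option autoImplicit false

namespace Fermat.Agent.FLTSmall

open Finset Polynomial

section Abstract

variable {O : Type*} [CommRing O]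

/-- Pigeonhole in a finite quotient: `card` many pairwise incongruent elements hit every class. -/
lemma exists_mem_sub_mem_of_card_eq {ι : Type*} (I : Ideal O) (s : Finset ι) (f : ι → O)
    (hcard : s.card = Nat.card (O ⧸ I)) (hpos : 0 < s.card)
    (hinj : ∀ i ∈ s, ∀ j ∈ s, i ≠ j → f i - f j ∉ I) (y : O) : ∃ i ∈ s, f i - y ∈ I := by
  classical
  have hfin : Finite (O ⧸ I) := Nat.finite_of_card_ne_zero (by rw [← hcard]; exact hpos.ne')
  let _ := Fintype.ofFinite (O ⧸ I)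
  have hinj' : Set.InjOn (fun i => Ideal.Quotient.mk I (f i)) s := by
    intro i hi j hj hij
    by_contra hne
    exact hinj i hi j hj hne ((Ideal.Quotient.eq).1 hij)
  have himg : s.image (fun i => Ideal.Quotient.mk I (f i)) = Finset.univ := by
    apply Finset.eq_univ_of_card
    rw [Finset.card_image_of_injOn hinj', hcard, Nat.card_eq_fintype_card]
  have : Ideal.Quotient.mk I y ∈ s.image (fun i => Ideal.Quotient.mk I (f i)) := by
    rw [himg]; exact Finset.mem_univ _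
  obtain ⟨i, hi, hiy⟩ := Finset.mem_image.1 this
  exact ⟨i, hi, (Ideal.Quotient.eq).1 hiy⟩

variable [IsDomain O]

/-- The abstract setting of Kummer's descent. -/
structure KSetup (O : Type*) [CommRing O] [IsDomain O] (p : ℕ) (η : O) : Prop where
  hp : p.Prime
  hodd : p ≠ 2
  hη : IsPrimitiveRoot η p
  hl : Prime (η - 1)
  hlp : Associated ((η - 1) ^ (p - 1)) (p : O)
  hcard : Nat.card (O ⧸ Ideal.span {η - 1}) = p

namespace KSetup

variable {p : ℕ} {η : O} (S : KSetup O p η)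

include S

lemma l_dvd_p : (η - 1) ∣ (p : O) := by
  have h1 : (η - 1) ∣ (η - 1) ^ (p - 1) :=
    dvd_pow_self _ (Nat.sub_ne_zero_of_lt S.hp.one_lt)
  exact h1.trans S.hlp.dvd

lemma p_dvd_l_pow : (p : O) ∣ (η - 1) ^ p := by
  have h1 : (η - 1) ^ (p - 1) ∣ (η - 1) ^ p := pow_dvd_pow _ (Nat.sub_le _ _)
  exact S.hlp.symm.dvd.trans h1

lemma p_dvd_of_l_dvd_intCast {n : ℤ} (h : (η - 1) ∣ (n : O)) : (p : ℤ) ∣ n := by
  by_contra hn
  have hcop : IsCoprime n (p : ℤ) :=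
    ((Nat.prime_iff_prime_int.1 S.hp).coprime_iff_not_dvd.2 hn).symm
  obtain ⟨r, s, hrs⟩ := hcop
  have h1 : (η - 1) ∣ ((r * n + s * p : ℤ) : O) := by
    push_cast
    exact dvd_add (Dvd.dvd.mul_left h _) (Dvd.dvd.mul_left S.l_dvd_p _)
  rw [hrs, Int.cast_one] at h1
  exact S.hl.not_isUnit (isUnit_of_dvd_one h1)

/-- Every element of `O` is congruent to a rational integer modulo `η - 1`. -/
lemma exists_int_sub_dvd (x : O) : ∃ n : ℤ, (η - 1) ∣ x - n := by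
  obtain ⟨i, -, hi⟩ := exists_mem_sub_mem_of_card_eq (Ideal.span {η - 1}) (Finset.range p)
    (fun i => (i : O)) (by rw [Finset.card_range, S.hcard])
    (by rw [Finset.card_range]; exact S.hp.pos)
    (fun i hi j hj hij hmem => by
      rw [Ideal.mem_span_singleton] at hmem
      have h1 : (η - 1) ∣ (((i : ℤ) - (j : ℤ) : ℤ) : O) := by
        push_cast; exact hmem
      have h2 := S.p_dvd_of_l_dvd_intCast h1
      rw [Finset.mem_range] at hi hj
      have h3 : (i : ℤ) % p = (j : ℤ) % p := Int.emod_eq_emod_iff_emod_sub_eq_zero.2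
        (Int.emod_eq_zero_of_dvd h2)
      rw [Int.emod_eq_of_lt (by positivity) (by exact_mod_cast hi),
        Int.emod_eq_of_lt (by positivity) (by exact_mod_cast hj)] at h3
      exact hij (by exact_mod_cast h3)) x
  refine ⟨i, ?_⟩
  rw [Ideal.mem_span_singleton] at hi
  have : x - ((i : ℤ) : O) = -((i : O) - x) := by push_cast; ring
  rw [this]
  exact (dvd_neg).2 hi

/-- `p`-th powers are congruent to rational integers modulo `p`. -/
lemma p_dvd_pow_sub_intCast_pow {d : O} {n : ℤ} (h : (η - 1) ∣ d - n) :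
    (p : O) ∣ d ^ p - (n : O) ^ p := by
  have := S.hp
  have hfact : Fact p.Prime := ⟨S.hp⟩
  obtain ⟨r, hr⟩ := exists_add_pow_prime_eq S.hp (n : O) (d - n)
  have h1 : d ^ p - (n : O) ^ p = (d - n) ^ p + p * (n * (d - n) * r) := by
    have : d = (n : O) + (d - n) := by ring
    conv_lhs => rw [this, hr]
    ring
  rw [h1]
  refine dvd_add ?_ (dvd_mul_right _ _)
  exact S.p_dvd_l_pow.trans (pow_dvd_pow_of_dvd h p)


/-- The key descent step of Kummer's argument. -/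
theorem descent [IsPrincipalIdealRing O]
    (hKL : ∀ u : Oˣ, (∃ n : ℤ, (p : O) ∣ (u : O) - n) → ∃ v : Oˣ, u = v ^ p)
    {m : ℕ} (hm : 1 ≤ m) {a b c : O} {u : Oˣ} (hb : ¬ (η - 1) ∣ b)
    (hc : ¬ (η - 1) ∣ c) (hab : IsCoprime a b)
    (H : a ^ p + b ^ p = u * ((η - 1) ^ m * c) ^ p) :
    2 ≤ m ∧ ∃ (a' b' c' : O) (u' : Oˣ), ¬ (η - 1) ∣ b' ∧ ¬ (η - 1) ∣ c' ∧
      IsCoprime a' b' ∧ a' ^ p + b' ^ p = u' * ((η - 1) ^ (m - 1) * c') ^ p := by
  classical
  have hpodd : Odd p := S.hp.odd_of_ne_two S.hodd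
  have hp3 : 3 ≤ p := by
    have := S.hp.two_le
    have := S.hodd
    omega
  have hl := S.hl
  have hl0 : (η - 1) ≠ 0 := hl.ne_zero
  set Ω := nthRootsFinset p (1 : O) with hΩ
  have hΩcard : Ω.card = p := S.hη.card_nthRootsFinset
  have hmemΩ : ∀ μ : O, μ ∈ Ω ↔ μ ^ p = 1 := fun μ => mem_nthRootsFinset S.hp.pos 1
  -- Step 1: factorization
  have hprod : ∏ μ ∈ Ω, (a + μ * b) = u * ((η - 1) ^ m * c) ^ p := by
    rw [← H]; exact (S.hη.pow_add_pow_eq_prod_add_mul a b hpodd).symm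
  -- Step 2: `η - 1` divides all factors
  have hdvd : ∀ μ ∈ Ω, (η - 1) ∣ a + μ * b := by
    have h1 : (η - 1) ∣ ∏ μ ∈ Ω, (a + μ * b) := by
      rw [hprod, mul_pow, ← pow_mul]
      exact Dvd.dvd.mul_left (Dvd.dvd.mul_right (dvd_pow_self _ (by positivity)) _) _
    obtain ⟨μ₀, hμ₀, h0⟩ := (Prime.dvd_finsetProd_iff hl _).1 h1
    intro μ hμ
    have : a + μ * b = (a + μ₀ * b) + (μ - μ₀) * b := by ring
    rw [this]
    exact dvd_add h0 (Dvd.dvd.mul_right (S.hη.sub_one_dvd_sub S.hp hμ hμ₀) _)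
  -- Step 3: choose the quotients
  choose! x hx using hdvd
  -- Step 4: differences
  have hdiff : ∀ μ ∈ Ω, ∀ ν ∈ Ω, μ ≠ ν → ∃ w : Oˣ, x μ - x ν = w * b ∧
      ν * x μ - μ * x ν = - (w * a) := by
    intro μ hμ ν hν hne
    obtain ⟨w, hw⟩ :=
      S.hη.nthRootsFinset_pairwise_associated_sub_one_sub_of_prime S.hp hμ hν hne
    refine ⟨w, ?_, ?_⟩
    · apply mul_left_cancel₀ hl0
      calc (η - 1) * (x μ - x ν) = (a + μ * b) - (a + ν * b) := by
            rw [hx μ hμ, hx ν hν]; ring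
        _ = (μ - ν) * b := by ring
        _ = (η - 1) * (w * b) := by rw [← hw]; ring
    · apply mul_left_cancel₀ hl0
      calc (η - 1) * (ν * x μ - μ * x ν) = ν * (a + μ * b) - μ * (a + ν * b) := by
            rw [hx μ hμ, hx ν hν]; ring
        _ = -((μ - ν) * a) := by ring
        _ = (η - 1) * (-(w * a)) := by rw [← hw]; ring
  have hndvd_diff : ∀ μ ∈ Ω, ∀ ν ∈ Ω, μ ≠ ν → ¬ (η - 1) ∣ x μ - x ν := by
    intro μ hμ ν hν hne hd
    obtain ⟨w, hw, -⟩ := hdiff μ hμ ν hν hne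
    rw [hw] at hd
    exact hb ((hl.dvd_or_dvd hd).resolve_left
      (fun h' => hl.not_isUnit (isUnit_of_dvd_unit h' w.isUnit)))
  have hcop : ∀ μ ∈ Ω, ∀ ν ∈ Ω, μ ≠ ν → IsCoprime (x μ) (x ν) := by
    intro μ hμ ν hν hne
    obtain ⟨w, h1, h2⟩ := hdiff μ hμ ν hν hne
    obtain ⟨r, s, hrs⟩ := hab
    have key : (s - r * ν) * x μ + (r * μ - s) * x ν = w := by
      linear_combination s * h1 - r * h2 + (w : O) * hrs
    refine ⟨↑w⁻¹ * (s - r * ν), ↑w⁻¹ * (r * μ - s), ?_⟩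
    rw [mul_assoc, mul_assoc, ← mul_add, key, Units.inv_mul]
  -- Step 5: pigeonhole
  obtain ⟨μ₀, hμ₀, hμ₀dvd⟩ : ∃ μ₀ ∈ Ω, (η - 1) ∣ x μ₀ := by
    obtain ⟨μ₀, hμ₀, h⟩ := exists_mem_sub_mem_of_card_eq (Ideal.span {η - 1}) Ω x
      (by rw [hΩcard, S.hcard]) (by rw [hΩcard]; exact S.hp.pos)
      (fun μ hμ ν hν hne hmem =>
        hndvd_diff μ hμ ν hν hne (Ideal.mem_span_singleton.1 hmem)) 0
    exact ⟨μ₀, hμ₀, by simpa [Ideal.mem_span_singleton] using h⟩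
  -- Step 6
  have hndvd : ∀ μ ∈ Ω, μ ≠ μ₀ → ¬ (η - 1) ∣ x μ := by
    intro μ hμ hne hd
    exact hndvd_diff μ hμ μ₀ hμ₀ hne (dvd_sub hd hμ₀dvd)
  -- Step 7: the product of the quotients
  have hm' : m = (m - 1) + 1 := by omega
  have hprodx : ∏ μ ∈ Ω, x μ = u * ((η - 1) ^ (m - 1) * c) ^ p := by
    apply mul_left_cancel₀ (pow_ne_zero p hl0)
    calc (η - 1) ^ p * ∏ μ ∈ Ω, x μ = ∏ μ ∈ Ω, ((η - 1) * x μ) := by
          rw [Finset.prod_mul_distrib, Finset.prod_const, hΩcard]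
      _ = ∏ μ ∈ Ω, (a + μ * b) := Finset.prod_congr rfl (fun μ hμ => (hx μ hμ).symm)
      _ = u * ((η - 1) ^ m * c) ^ p := hprod
      _ = (η - 1) ^ p * (u * ((η - 1) ^ (m - 1) * c) ^ p) := by
          have hpm : (η - 1) ^ m = (η - 1) ^ (m - 1) * (η - 1) := by rw [← pow_succ, ← hm']
          rw [hpm]
          generalize (η - 1) = l
          ring
  -- Step 8
  set R := ∏ μ ∈ Ω.erase μ₀, x μ with hR
  have hxR : x μ₀ * R = u * ((η - 1) ^ (m - 1) * c) ^ p := by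
    rw [hR, Finset.mul_prod_erase Ω x hμ₀, hprodx]
  have hRndvd : ¬ (η - 1) ∣ R := by
    intro hd
    obtain ⟨μ, hμ, h⟩ := (Prime.dvd_finsetProd_iff hl _).1 hd
    exact hndvd μ (Finset.mem_of_mem_erase hμ) (Finset.ne_of_mem_erase hμ) h
  have hm2 : 2 ≤ m := by
    by_contra hlt
    have hm1 : m = 1 := by omega
    have h1 : (η - 1) ∣ (u : O) * ((η - 1) ^ (m - 1) * c) ^ p := by
      rw [← hxR]; exact Dvd.dvd.mul_right hμ₀dvd _
    rw [hm1] at h1
    simp only [Nat.sub_self, pow_zero, one_mul] at h1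
    have h2 : (η - 1) ∣ c ^ p := (hl.dvd_or_dvd h1).resolve_left
      (fun h' => hl.not_isUnit (isUnit_of_dvd_unit h' u.isUnit))
    exact hc (hl.dvd_of_dvd_pow h2)
  refine ⟨hm2, ?_⟩
  obtain ⟨y₀, hy₀⟩ : (η - 1) ^ ((m - 1) * p) ∣ x μ₀ := by
    apply Prime.pow_dvd_of_dvd_mul_right hl _ hRndvd
    rw [hxR, mul_pow, ← pow_mul]
    exact Dvd.dvd.mul_left (Dvd.dvd.mul_right dvd_rfl _) _
  have hy₀R : y₀ * R = u * c ^ p := by
    apply mul_left_cancel₀ (pow_ne_zero ((m - 1) * p) hl0)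
    rw [← mul_assoc, ← hy₀, hxR, mul_pow, ← pow_mul]
    ring
  have hy₀ndvd : ¬ (η - 1) ∣ y₀ := by
    intro hd
    have h1 : (η - 1) ∣ (u : O) * c ^ p := by
      rw [← hy₀R]; exact Dvd.dvd.mul_right hd _
    have h2 : (η - 1) ∣ c ^ p := (hl.dvd_or_dvd h1).resolve_left
      (fun h' => hl.not_isUnit (isUnit_of_dvd_unit h' u.isUnit))
    exact hc (hl.dvd_of_dvd_pow h2)
  -- Step 9: p-th powers
  obtain ⟨d₀, v₀, hd₀⟩ : ∃ d₀ : O, Associated (d₀ ^ p) y₀ := by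
    apply exists_associated_pow_of_associated_pow_mul (b := R) (c := c)
    · apply IsCoprime.prod_right
      intro μ hμ
      have h1 := hcop μ₀ hμ₀ μ (Finset.mem_of_mem_erase hμ) (Finset.ne_of_mem_erase hμ).symm
      rw [hy₀] at h1
      exact h1.of_mul_left_right
    · exact ⟨u, by rw [hy₀R]; ring⟩
  have hpow : ∀ μ ∈ Ω, ∃ d : O, Associated (d ^ p) (x μ) := by
    intro μ hμ
    apply exists_associated_pow_of_associated_pow_mul (b := ∏ ν ∈ Ω.erase μ, x ν)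
      (c := (η - 1) ^ (m - 1) * c)
    · apply IsCoprime.prod_right
      intro ν hν
      exact hcop μ hμ ν (Finset.mem_of_mem_erase hν) (Finset.ne_of_mem_erase hν).symm
    · exact ⟨u, by rw [Finset.mul_prod_erase Ω x hμ, hprodx]; ring⟩
  -- the two auxiliary roots
  have hη1 : η ≠ 1 := S.hη.ne_one S.hp.one_lt
  have hη2 : η ^ 2 ≠ 1 := S.hη.pow_ne_one_of_pos_of_lt (by norm_num) (by omega)
  have hηp : η ^ p = 1 := S.hη.pow_eq_one
  have hμ₀p : μ₀ ^ p = 1 := (hmemΩ μ₀).1 hμ₀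
  have hμ₀0 : μ₀ ≠ 0 := by
    intro h
    rw [h, zero_pow S.hp.ne_zero] at hμ₀p
    exact zero_ne_one hμ₀p
  have hμ₁ : μ₀ * η ∈ Ω := by rw [hmemΩ, mul_pow, hμ₀p, hηp, one_mul]
  have hμ₂ : μ₀ * η ^ 2 ∈ Ω := by rw [hmemΩ, mul_pow, hμ₀p, ← pow_mul, mul_comm 2, pow_mul, hηp,
    one_pow, one_mul]
  have hne₁ : μ₀ * η ≠ μ₀ := by
    intro h
    exact hη1 (mul_left_cancel₀ hμ₀0 (by rw [h, mul_one]))
  have hne₂ : μ₀ * η ^ 2 ≠ μ₀ := by
    intro h
    exact hη2 (mul_left_cancel₀ hμ₀0 (by rw [h, mul_one]))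
  have hne₁₂ : μ₀ * η ≠ μ₀ * η ^ 2 := by
    intro h
    have h1 : η = η ^ 2 := mul_left_cancel₀ hμ₀0 h
    have hη0 : η ≠ 0 := by
      intro h0
      rw [h0, zero_pow S.hp.ne_zero] at hηp
      exact zero_ne_one hηp
    exact hη1 (mul_left_cancel₀ hη0 (by rw [mul_one, ← pow_two]; exact h1)).symm
  obtain ⟨d₁, v₁, hd₁⟩ := hpow _ hμ₁
  obtain ⟨d₂, v₂, hd₂⟩ := hpow _ hμ₂
  -- the linear relation
  have hrel : (1 + η) * x (μ₀ * η) - x (μ₀ * η ^ 2) = η * x μ₀ := by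
    apply mul_left_cancel₀ hl0
    calc (η - 1) * ((1 + η) * x (μ₀ * η) - x (μ₀ * η ^ 2))
        = (1 + η) * (a + μ₀ * η * b) - (a + μ₀ * η ^ 2 * b) := by
          rw [hx _ hμ₁, hx _ hμ₂]; ring
      _ = η * (a + μ₀ * b) := by ring
      _ = (η - 1) * (η * x μ₀) := by rw [hx _ hμ₀]; ring
  -- `1 + η` is a unit
  obtain ⟨e, he⟩ : IsUnit (1 + η) := by
    have := S.hη.geom_sum_isUnit S.hp.two_le (j := 2)
      ((Nat.coprime_primes Nat.prime_two S.hp).2 (Ne.symm S.hodd))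
    simpa [Finset.sum_range_succ] using this
  have hηunit : IsUnit η := S.hη.isUnit S.hp.ne_zero
  obtain ⟨ηu, hηu⟩ := hηunit
  -- non-divisibility of the d's
  have hd₂ndvd : ¬ (η - 1) ∣ d₂ := by
    intro hd
    apply hndvd _ hμ₂ hne₂
    rw [← hd₂]
    exact Dvd.dvd.mul_right (dvd_pow hd S.hp.ne_zero) _
  have hd₀ndvd : ¬ (η - 1) ∣ d₀ := by
    intro hd
    apply hy₀ndvd
    rw [← hd₀]
    exact Dvd.dvd.mul_right (dvd_pow hd S.hp.ne_zero) _
  have hcop₁₂ : IsCoprime d₁ d₂ := by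
    have h1 := hcop _ hμ₁ _ hμ₂ hne₁₂
    rw [← hd₁, ← hd₂] at h1
    have h2 : IsCoprime (d₁ ^ p) (d₂ ^ p) := h1.of_mul_left_left.of_mul_right_left
    exact (IsCoprime.pow_iff S.hp.pos S.hp.pos).1 h2
  -- the new equation
  set ε : Oˣ := -(v₂ * e⁻¹ * v₁⁻¹) with hε
  set ε' : Oˣ := ηu * v₀ * e⁻¹ * v₁⁻¹ with hε'
  have hnew : d₁ ^ p + ε * d₂ ^ p = ε' * ((η - 1) ^ (m - 1) * d₀) ^ p := by
    have h1 : (e : O) * (d₁ ^ p * v₁) - d₂ ^ p * v₂ =
        ηu * ((η - 1) ^ ((m - 1) * p) * (d₀ ^ p * v₀)) := by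
      rw [hd₁, hd₂, hd₀, he, hηu, ← hy₀, hrel]
    have h2 : (↑(e⁻¹ * v₁⁻¹) : O) * ((e : O) * (d₁ ^ p * v₁) - d₂ ^ p * v₂) =
        d₁ ^ p + ε * d₂ ^ p := by
      have h3 : (↑(e⁻¹ * v₁⁻¹) : O) * ((e : O) * (d₁ ^ p * v₁)) = d₁ ^ p := by
        have : (↑(e⁻¹ * v₁⁻¹) : O) * ((e : O) * (d₁ ^ p * v₁)) =
            d₁ ^ p * (↑(e⁻¹ * v₁⁻¹ * (e * v₁)) : O) := by push_cast; ring
        rw [this]
        have : e⁻¹ * v₁⁻¹ * (e * v₁) = 1 := by
          rw [mul_comm e v₁, mul_assoc, ← mul_assoc v₁⁻¹, inv_mul_cancel, one_mul, inv_mul_cancel]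
        rw [this, Units.val_one, mul_one]
      rw [mul_sub, h3, hε]
      push_cast
      ring
    rw [← h2, h1, hε', mul_pow, ← pow_mul]
    push_cast
    ring
  -- Kummer's lemma applies to ε
  obtain ⟨ε₁, hε₁⟩ : ∃ ε₁ : Oˣ, ε = ε₁ ^ p := by
    apply hKL
    obtain ⟨n₁, hn₁⟩ := S.exists_int_sub_dvd d₁
    obtain ⟨n₂, hn₂⟩ := S.exists_int_sub_dvd d₂
    have hn₂p : ¬ (p : ℤ) ∣ n₂ := by
      intro hd
      apply hd₂ndvd
      have h1 : (η - 1) ∣ (n₂ : O) :=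
        S.l_dvd_p.trans (by exact_mod_cast (Int.cast_dvd_cast (α := O) _ _ hd))
      have : d₂ = (d₂ - n₂) + n₂ := by ring
      rw [this]
      exact dvd_add hn₂ h1
    have hcop2 : IsCoprime n₂ (p : ℤ) :=
      ((Nat.prime_iff_prime_int.1 S.hp).coprime_iff_not_dvd.2 hn₂p).symm
    obtain ⟨k, s, hks⟩ := hcop2
    -- (k * n₂)^p ≡ 1 mod p
    have h1 : (p : O) ∣ ((k * n₂ : ℤ) : O) ^ p - 1 := by
      have h2 : (p : O) ∣ ((k * n₂ : ℤ) : O) - 1 := by
        have : ((k * n₂ : ℤ) : O) - 1 = -((s : O) * (p : O)) := by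
          have h3 : ((k * n₂ + s * p : ℤ) : O) = 1 := by rw [hks, Int.cast_one]
          push_cast at h3 ⊢
          linear_combination h3
        rw [this]
        exact (dvd_neg).2 (dvd_mul_left _ _)
      have h3 := sub_dvd_pow_sub_pow (((k * n₂ : ℤ) : O)) 1 p
      rw [one_pow] at h3
      exact h2.trans h3
    have h4 : (p : O) ∣ d₁ ^ p + ε * d₂ ^ p := by
      rw [hnew, mul_pow, ← pow_mul]
      have h5 : (η - 1) ^ p ∣ (η - 1) ^ ((m - 1) * p) := by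
        apply pow_dvd_pow
        nlinarith
      exact Dvd.dvd.mul_left (Dvd.dvd.mul_right (S.p_dvd_l_pow.trans h5) _) _
    have h6 := S.p_dvd_pow_sub_intCast_pow hn₁
    have h7 := S.p_dvd_pow_sub_intCast_pow hn₂
    refine ⟨-(k * n₁) ^ p, ?_⟩
    -- ε - (-(k n₁)^p) = ε (1 - (k n₂)^p) + k^p (ε n₂^p + n₁^p)
    have h8 : (ε : O) - ((-(k * n₁) ^ p : ℤ) : O) =
        -(ε : O) * (((k * n₂ : ℤ) : O) ^ p - 1)
        + (k : O) ^ p * ((d₁ ^ p + ε * d₂ ^ p) - (d₁ ^ p - (n₁ : O) ^ p)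
          - ε * (d₂ ^ p - (n₂ : O) ^ p)) := by
      push_cast
      ring
    rw [h8]
    exact dvd_add (Dvd.dvd.mul_left h1 _)
      (Dvd.dvd.mul_left (dvd_sub (dvd_sub h4 h6) (Dvd.dvd.mul_left h7 _)) _)
  refine ⟨d₁, ε₁ * d₂, d₀, ε', ?_, hd₀ndvd, ?_, ?_⟩
  · intro hd
    exact hd₂ndvd ((hl.dvd_or_dvd hd).resolve_left
      (fun h' => hl.not_isUnit (isUnit_of_dvd_unit h' ε₁.isUnit)))
  · exact (isCoprime_mul_unit_left_right ε₁.isUnit _ _).2 hcop₁₂
  · rw [mul_pow, ← Units.val_pow_eq_pow_val, ← hε₁, hnew]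


/-- Kummer's descent: the generalized Fermat equation has no solution in the second case. -/
theorem no_solution_pow [IsPrincipalIdealRing O]
    (hKL : ∀ u : Oˣ, (∃ n : ℤ, (p : O) ∣ (u : O) - n) → ∃ v : Oˣ, u = v ^ p) :
    ∀ m : ℕ, 1 ≤ m → ∀ (a b c : O) (u : Oˣ), ¬ (η - 1) ∣ b → ¬ (η - 1) ∣ c → IsCoprime a b →
      a ^ p + b ^ p ≠ u * ((η - 1) ^ m * c) ^ p := by
  intro m
  induction m with
  | zero => intro h; omega
  | succ k ih =>
    intro _ a b c u hb hc hab H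
    obtain ⟨h2, a', b', c', u', hb', hc', hab', H'⟩ := S.descent hKL (by omega) hb hc hab H
    exact ih (by omega) a' b' c' u' hb' hc' hab' (by simpa using H')

/-- Kummer's descent: the generalized Fermat equation `a ^ p + b ^ p = u * c ^ p` has no solution
with `η - 1 ∣ c`, `c ≠ 0`, `η - 1 ∤ b`, `a` and `b` coprime. -/
theorem no_solution [IsPrincipalIdealRing O]
    (hKL : ∀ u : Oˣ, (∃ n : ℤ, (p : O) ∣ (u : O) - n) → ∃ v : Oˣ, u = v ^ p)
    (a b c : O) (u : Oˣ) (hb : ¬ (η - 1) ∣ b) (hc0 : c ≠ 0) (hc : (η - 1) ∣ c)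
    (hab : IsCoprime a b) : a ^ p + b ^ p ≠ u * c ^ p := by
  obtain ⟨m, c', hc', rfl⟩ := WfDvdMonoid.max_power_factor hc0 S.hl.irreducible
  have hm : 1 ≤ m := by
    by_contra h
    have : m = 0 := by omega
    rw [this, pow_zero, one_mul] at hc
    exact hc' hc
  exact S.no_solution_pow hKL m hm a b c' u hb hc' hab

end KSetup

end Abstract

end Fermat.Agent.FLTSmall
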