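/-
FLTSmall project (towards S10, S11): Fermat's Last Theorem for the exponents 5, 7, 11, 13,
following Kummer (all four primes have class number one).
Shared definitions.
-/
import Mathlib

set_option autoImplicit false

namespace Fermat.Agent.FLTSmall

open NumberField

/-- Kummer's lemma for the prime `p` and the number field `K` (meant for `K = ℚ(ζ_p)`):
a unit of `𝓞 K` that is congruent to a rational integer modulo `p` is a `p`-th power of a unit. -/
def KummerLemma (p : ℕ) (K : Type*) [Field K] [NumberField K] : Prop :=
  ∀ u : (𝓞 K)ˣ, (∃ n : ℤ, (p : 𝓞 K) ∣ (u : 𝓞 K) - n) → ∃ v : (𝓞 K)ˣ, u = v ^ p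

end Fermat.Agent.FLTSmall
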