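/-
FLTSmall project (towards S10, S11).
The second case of Fermat's Last Theorem for a prime exponent `p ≥ 3` such that the ring of
integers of `ℚ(ζ_p)` is a principal ideal domain and Kummer's lemma holds for `p`.
-/
import Mathlib
import Fermat.Agent.FLTSmall.Defs
import Fermat.Agent.FLTSmall.CaseIIAbstract

set_option autoImplicit false

namespace Fermat.Agent.FLTSmall

open NumberField IsCyclotomicExtension.Rat Ideal

section

variable {p : ℕ} [hp : Fact p.Prime] {K : Type*} [Field K] [NumberField K]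
  [hK : IsCyclotomicExtension {p} ℚ K] {ζ : K} (hζ : IsPrimitiveRoot ζ p)

lemma card_quot_zeta_sub_one :
    Nat.card (𝓞 K ⧸ Ideal.span {hζ.toInteger - 1}) = p := by
  rw [← Submodule.cardQuot_apply, ← Ideal.absNorm_apply]
  rw [← pow_one p] at hK hζ
  exact absNorm_span_zeta_sub_one p 0 hζ

lemma kSetup_ringOfIntegers (hodd : p ≠ 2) : KSetup (𝓞 K) p hζ.toInteger where
  hp := hp.out
  hodd := hodd
  hη := hζ.toInteger_isPrimitiveRoot
  hl := hζ.zeta_sub_one_prime'
  hlp := associated_zeta_sub_one_pow_prime p hζ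
  hcard := card_quot_zeta_sub_one hζ

end

/-- Second case with `p ∣ c`. -/
theorem caseII_of_dvd_c {p : ℕ} [hp : Fact p.Prime] (hodd : p ≠ 2) (K : Type*) [Field K]
    [NumberField K] [hK : IsCyclotomicExtension {p} ℚ K] [IsPrincipalIdealRing (𝓞 K)]
    (hKL : KummerLemma p K) (a b c : ℤ) (hc0 : c ≠ 0) (hb : ¬ (p : ℤ) ∣ b) (hc : (p : ℤ) ∣ c)
    (hab : IsCoprime a b) : a ^ p + b ^ p ≠ c ^ p := by
  intro h
  have hζ := IsCyclotomicExtension.zeta_spec p ℚ K
  refine (kSetup_ringOfIntegers hζ hodd).no_solution hKL (a : 𝓞 K) (b : 𝓞 K) (c : 𝓞 K) 1 ?_ ?_ ?_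
    ?_ ?_
  · rwa [zeta_sub_one_dvd_intCast_iff' p hζ]
  · exact_mod_cast hc0
  · rwa [zeta_sub_one_dvd_intCast_iff' p hζ]
  · exact hab.intCast
  · rw [Units.val_one, one_mul]
    exact_mod_cast h

/-- Second case of Fermat's Last Theorem for the exponent `p`, under the assumptions that
`𝓞 ℚ(ζ_p)` is a PID and Kummer's lemma holds. -/
theorem caseII {p : ℕ} [hp : Fact p.Prime] (hodd : p ≠ 2) (K : Type*) [Field K]
    [NumberField K] [hK : IsCyclotomicExtension {p} ℚ K] [IsPrincipalIdealRing (𝓞 K)]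
    (hKL : KummerLemma p K) (a b c : ℤ) (h0 : a * b * c ≠ 0) (hab : IsCoprime a b)
    (hdvd : (p : ℤ) ∣ a * b * c) : a ^ p + b ^ p ≠ c ^ p := by
  intro h
  have hpp : Prime (p : ℤ) := Nat.prime_iff_prime_int.1 hp.out
  have hpodd : Odd p := hp.out.odd_of_ne_two hodd
  have ha0 : a ≠ 0 := fun h' => h0 (by simp [h'])
  have hb0 : b ≠ 0 := fun h' => h0 (by simp [h'])
  have hc0 : c ≠ 0 := fun h' => h0 (by simp [h'])
  have habp : IsCoprime (a ^ p) (b ^ p) := hab.pow
  -- coprimality of the other pairs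
  have hcb : IsCoprime c b := by
    have h1 : IsCoprime (c ^ p) (b ^ p) := by
      rw [← h]
      have := habp.add_mul_left_left 1
      simpa using this
    exact (IsCoprime.pow_iff hp.out.pos hp.out.pos).1 h1
  have hca : IsCoprime c a := by
    have h1 : IsCoprime (c ^ p) (a ^ p) := by
      rw [← h]
      have := habp.symm.add_mul_left_left 1
      simpa [add_comm] using this
    exact (IsCoprime.pow_iff hp.out.pos hp.out.pos).1 h1
  have hndvd : ∀ {x y : ℤ}, IsCoprime x y → (p : ℤ) ∣ x → ¬ (p : ℤ) ∣ y := by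
    intro x y hxy hx hy
    exact hpp.not_isUnit (hxy.isUnit_of_dvd' hx hy)
  rcases (hpp.dvd_or_dvd hdvd) with hd | hd
  · rcases (hpp.dvd_or_dvd hd) with hd | hd
    · -- p ∣ a : c^p + (-b)^p = a^p
      refine caseII_of_dvd_c hodd K hKL c (-b) a ha0 ?_ hd hcb.neg_right ?_
      · rw [dvd_neg]; exact hndvd hab hd
      · rw [hpodd.neg_pow, ← h]; ring
    · -- p ∣ b : c^p + (-a)^p = b^p
      refine caseII_of_dvd_c hodd K hKL c (-a) b hb0 ?_ hd hca.neg_right ?_
      · rw [dvd_neg]; exact hndvd hab.symm hd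
      · rw [hpodd.neg_pow, ← h]; ring
  · exact caseII_of_dvd_c hodd K hKL a b c hc0 (hndvd hcb hd) hd hab h

end Fermat.Agent.FLTSmall
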