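import Mathlib

set_option autoImplicit false
set_option linter.unusedSectionVars false

/-!
Generic local facts about the ring of integers of the `p`-th cyclotomic field (`p` prime),
used by the descent for small exponents.
-/

namespace Fermat.Agent.FLTSmall

open NumberField Polynomial

variable {p : ℕ} [hp : Fact p.Prime] {K : Type*} [Field K] [NumberField K]
  [IsCyclotomicExtension {p} ℚ K] {ζ : K} (hζ : IsPrimitiveRoot ζ p)

/-- `𝓞 K` is generated over `ℤ` by `ζ`. -/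
theorem adjoin_toInteger_eq_top :
    Algebra.adjoin ℤ {hζ.toInteger} = (⊤ : Subalgebra ℤ (𝓞 K)) := by
  have h := hζ.integralPowerBasis.adjoin_gen_eq_top
  rwa [hζ.integralPowerBasis_gen] at h

/-- Every element of `𝓞 K` is congruent to a rational integer modulo `ζ - 1`. -/
theorem exists_int_sub_dvd (α : 𝓞 K) : ∃ n : ℤ, hζ.toInteger - 1 ∣ α - (n : 𝓞 K) := by
  have hα : α ∈ Algebra.adjoin ℤ {hζ.toInteger} := by
    rw [adjoin_toInteger_eq_top hζ]; exact Algebra.mem_top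
  induction hα using Algebra.adjoin_induction with
  | mem x hx =>
    rw [Set.mem_singleton_iff] at hx
    subst hx
    exact ⟨1, by simp⟩
  | algebraMap r =>
    exact ⟨r, by simp⟩
  | add x y _ _ hx hy =>
    obtain ⟨n, hn⟩ := hx
    obtain ⟨m, hm⟩ := hy
    refine ⟨n + m, ?_⟩
    have : x + y - ((n + m : ℤ) : 𝓞 K) = (x - n) + (y - m) := by push_cast; ring
    rw [this]
    exact dvd_add hn hm
  | mul x y _ _ hx hy =>
    obtain ⟨n, hn⟩ := hx
    obtain ⟨m, hm⟩ := hy
    refine ⟨n * m, ?_⟩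
    have : x * y - ((n * m : ℤ) : 𝓞 K) = (x - n) * y + n * (y - m) := by push_cast; ring
    rw [this]
    exact dvd_add (Dvd.dvd.mul_right hn _) (Dvd.dvd.mul_left hm _)

/-- Every element of `𝓞 K` is congruent to one of `0, …, p - 1` modulo `ζ - 1`. -/
theorem exists_nat_lt_sub_dvd (α : 𝓞 K) :
    ∃ n : ℕ, n < p ∧ hζ.toInteger - 1 ∣ α - (n : 𝓞 K) := by
  obtain ⟨n, hn⟩ := exists_int_sub_dvd hζ α
  have hp0 : (0 : ℤ) < p := by exact_mod_cast hp.out.pos
  refine ⟨(n % p).toNat, ?_, ?_⟩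
  · have h1 : n % (p : ℤ) < p := Int.emod_lt_of_pos _ hp0
    have h2 : 0 ≤ n % (p : ℤ) := Int.emod_nonneg _ hp0.ne'
    omega
  · have h2 : 0 ≤ n % (p : ℤ) := Int.emod_nonneg _ hp0.ne'
    have hcast : (((n % p).toNat : ℕ) : 𝓞 K) = ((n % p : ℤ) : 𝓞 K) := by
      rw [← Int.cast_natCast, Int.toNat_of_nonneg h2]
    rw [hcast]
    have hdecomp : α - ((n % p : ℤ) : 𝓞 K) = (α - n) + ((p : ℤ) : 𝓞 K) * ((n / p : ℤ) : 𝓞 K) := by
      have := Int.emod_add_mul_ediv n p
      have h3 : ((n : ℤ) : 𝓞 K) = ((n % p : ℤ) : 𝓞 K) + ((p : ℤ) : 𝓞 K) * ((n / p : ℤ) : 𝓞 K) := by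
        rw [← Int.cast_mul, ← Int.cast_add, this]
      rw [h3]; ring
    rw [hdecomp]
    refine dvd_add hn (Dvd.dvd.mul_right ?_ _)
    simpa using hζ.toInteger_sub_one_dvd_prime'

/-- Pigeonhole: `p` elements of `𝓞 K` that are pairwise incongruent modulo `ζ - 1` contain one
divisible by `ζ - 1`. -/
theorem exists_dvd_of_pairwise_not_dvd_sub (f : Fin p → 𝓞 K)
    (hf : ∀ i j, i ≠ j → ¬ hζ.toInteger - 1 ∣ f i - f j) :
    ∃ i, hζ.toInteger - 1 ∣ f i := by
  classical
  choose g hg using fun i => exists_nat_lt_sub_dvd hζ (f i)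
  let G : Fin p → Fin p := fun i => ⟨g i, (hg i).1⟩
  have hinj : Function.Injective G := by
    intro i j hij
    by_contra hne
    apply hf i j hne
    have hgij : g i = g j := by simpa [G] using congrArg Fin.val hij
    have : f i - f j = (f i - (g i : 𝓞 K)) - (f j - (g j : 𝓞 K)) := by rw [hgij]; ring
    rw [this]
    exact dvd_sub (hg i).2 (hg j).2
  have hsurj : Function.Surjective G := Finite.surjective_of_injective hinj
  obtain ⟨i, hi⟩ := hsurj ⟨0, hp.out.pos⟩
  refine ⟨i, ?_⟩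
  have hgi : g i = 0 := by simpa [G] using congrArg Fin.val hi
  have := (hg i).2
  simpa [hgi] using this

include hζ in
/-- The `p`-th power of any element of `𝓞 K` is congruent to a rational integer modulo `p`. -/
theorem exists_int_dvd_pow_sub (α : 𝓞 K) : ∃ n : ℤ, (p : 𝓞 K) ∣ α ^ p - (n : 𝓞 K) := by
  have hα : α ∈ Algebra.adjoin ℤ {hζ.toInteger} := by
    rw [adjoin_toInteger_eq_top hζ]; exact Algebra.mem_top
  induction hα using Algebra.adjoin_induction with
  | mem x hx =>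
    rw [Set.mem_singleton_iff] at hx
    subst hx
    refine ⟨1, ?_⟩
    rw [hζ.toInteger_isPrimitiveRoot.pow_eq_one]
    simp
  | algebraMap r =>
    refine ⟨r ^ p, ?_⟩
    simp
  | add x y _ _ hx hy =>
    obtain ⟨n, hn⟩ := hx
    obtain ⟨m, hm⟩ := hy
    obtain ⟨r, hr⟩ := exists_add_pow_prime_eq hp.out x y
    refine ⟨n + m, ?_⟩
    have : (x + y) ^ p - ((n + m : ℤ) : 𝓞 K) =
        (x ^ p - n) + (y ^ p - m) + (p : 𝓞 K) * (x * y * r) := by
      rw [hr]; push_cast; ring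
    rw [this]
    exact dvd_add (dvd_add hn hm) (dvd_mul_right _ _)
  | mul x y _ _ hx hy =>
    obtain ⟨n, hn⟩ := hx
    obtain ⟨m, hm⟩ := hy
    refine ⟨n * m, ?_⟩
    have : (x * y) ^ p - ((n * m : ℤ) : 𝓞 K) = (x ^ p - n) * y ^ p + n * (y ^ p - m) := by
      push_cast; ring
    rw [this]
    exact dvd_add (Dvd.dvd.mul_right hn _) (Dvd.dvd.mul_left hm _)

/-- `ζ - 1` is prime in `𝓞 K`. -/
theorem prime_toInteger_sub_one : Prime (hζ.toInteger - 1) := hζ.zeta_sub_one_prime'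

/-- `ζ ^ a - 1` is associated to `ζ - 1` when `p ∤ a`. -/
theorem associated_sub_one_pow_sub_one {a : ℕ} (ha : ¬ p ∣ a) :
    Associated (hζ.toInteger - 1) (hζ.toInteger ^ a - 1) :=
  hζ.toInteger_isPrimitiveRoot.associated_sub_one_pow_sub_one_of_coprime
    ((Nat.Prime.coprime_iff_not_dvd hp.out).mpr ha).symm

/-- `ζ ^ a - ζ ^ b` is associated to `ζ - 1` for distinct `a, b < p`. -/
theorem associated_sub_one_pow_sub_pow {a b : ℕ} (ha : a < p) (hb : b < p) (hab : a ≠ b) :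
    Associated (hζ.toInteger - 1) (hζ.toInteger ^ a - hζ.toInteger ^ b) := by
  have hz := hζ.toInteger_isPrimitiveRoot
  have hmem : ∀ c : ℕ, hζ.toInteger ^ c ∈ nthRootsFinset p (1 : 𝓞 K) := fun c => by
    rw [mem_nthRootsFinset hp.out.pos, ← pow_mul, mul_comm, pow_mul, hz.pow_eq_one, one_pow]
  refine hz.nthRootsFinset_pairwise_associated_sub_one_sub_of_prime hp.out (hmem a) (hmem b) ?_
  intro h
  exact hab (hz.pow_inj ha hb h)

/-- `1 + ζ` is a unit for odd `p`. -/
theorem isUnit_one_add_toInteger (hp2 : p ≠ 2) : IsUnit (1 + hζ.toInteger) := by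
  have h2 : ¬ p ∣ 2 := fun h => hp2 ((Nat.prime_dvd_prime_iff_eq hp.out Nat.prime_two).mp h)
  obtain ⟨u, hu⟩ := associated_sub_one_pow_sub_one hζ h2
  have hne : hζ.toInteger - 1 ≠ 0 := (prime_toInteger_sub_one hζ).ne_zero
  have : (hζ.toInteger - 1) * (1 + hζ.toInteger) = (hζ.toInteger - 1) * u := by
    rw [hu]; ring
  have h3 := mul_left_cancel₀ hne this
  rw [h3]
  exact u.isUnit

/-- `(ζ - 1) ^ (p - 1)` divides `p`. -/
theorem toInteger_sub_one_pow_dvd_prime : (hζ.toInteger - 1) ^ (p - 1) ∣ (p : 𝓞 K) :=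
  (IsCyclotomicExtension.Rat.associated_zeta_sub_one_pow_prime p hζ).dvd

/-- `p` divides `(ζ - 1) ^ (p - 1)`. -/
theorem prime_dvd_toInteger_sub_one_pow : (p : 𝓞 K) ∣ (hζ.toInteger - 1) ^ (p - 1) :=
  (IsCyclotomicExtension.Rat.associated_zeta_sub_one_pow_prime p hζ).symm.dvd

/-- `p` divides `(ζ - 1) ^ n` as soon as `p - 1 ≤ n`. -/
theorem prime_dvd_toInteger_sub_one_pow_of_le {n : ℕ} (hn : p - 1 ≤ n) :
    (p : 𝓞 K) ∣ (hζ.toInteger - 1) ^ n :=
  (prime_dvd_toInteger_sub_one_pow hζ).trans (pow_dvd_pow _ hn)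

/-- In a PID, if a finite pairwise coprime family has product associated to an `n`-th power,
then every member is associated to an `n`-th power. -/
theorem exists_associated_pow_of_prod_associated_pow {R ι : Type*} [CommRing R] [IsDomain R]
    [IsPrincipalIdealRing R] [DecidableEq ι] {s : Finset ι} {f : ι → R} {c : R} {n : ℕ}
    (hcop : ∀ i ∈ s, ∀ j ∈ s, i ≠ j → IsCoprime (f i) (f j))
    (hprod : Associated (c ^ n) (∏ i ∈ s, f i)) :
    ∀ i ∈ s, ∃ d : R, Associated (d ^ n) (f i) := by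
  intro i hi
  have hsplit : ∏ j ∈ s, f j = f i * ∏ j ∈ s.erase i, f j := (Finset.mul_prod_erase s f hi).symm
  rw [hsplit] at hprod
  refine exists_associated_pow_of_associated_pow_mul ?_ hprod
  refine IsCoprime.prod_right fun j hj => ?_
  exact hcop i hi j (Finset.mem_of_mem_erase hj) (Finset.ne_of_mem_erase hj).symm

end Fermat.Agent.FLTSmall
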