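/-
FLTSmall project, WP3b: the "logarithmic derivative modulo p" homomorphism on the units of
`ℤ[ζ_p]`, used to verify Kummer's lemma for small primes.
-/
import Mathlib

set_option autoImplicit false

namespace Fermat.Agent.FLTSmall

open Polynomial NumberField TrivSqZeroExt

noncomputable section

/-! ### The truncated polynomial ring `𝔽_p[X] / (X ^ (p - 2))` and its dual numbers -/

/-- The truncated polynomial ring `𝔽_p[X] / (X ^ (p - 2))`. -/
abbrev TruncRing (p : ℕ) : Type :=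
  (ZMod p)[X] ⧸ Ideal.span {(X : (ZMod p)[X]) ^ (p - 2)}

/-- The quotient map `𝔽_p[X] → 𝔽_p[X] / (X ^ (p - 2))`. -/
abbrev truncMk (p : ℕ) : (ZMod p)[X] →+* TruncRing p :=
  Ideal.Quotient.mk (Ideal.span {(X : (ZMod p)[X]) ^ (p - 2)})

lemma truncMk_eq_zero_iff {p : ℕ} (f : (ZMod p)[X]) :
    truncMk p f = 0 ↔ (X : (ZMod p)[X]) ^ (p - 2) ∣ f := by
  rw [Ideal.Quotient.eq_zero_iff_mem, Ideal.mem_span_singleton]

lemma truncMk_X_pow (p : ℕ) {n : ℕ} (hn : p - 2 ≤ n) : truncMk p (X ^ n) = 0 :=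
  (truncMk_eq_zero_iff _).mpr (pow_dvd_pow _ hn)

/-- The `k`-th coefficient as a linear functional on the truncated polynomial ring
(only meaningful for `k < p - 2`). -/
def truncCoeff (p k : ℕ) (hk : k < p - 2) : TruncRing p →ₗ[ZMod p] ZMod p :=
  ((Ideal.span {(X : (ZMod p)[X]) ^ (p - 2)}).restrictScalars (ZMod p)).liftQ
      (lcoeff (ZMod p) k) (by
        intro f hf
        rw [Submodule.restrictScalars_mem, Ideal.mem_span_singleton] at hf
        obtain ⟨g, rfl⟩ := hf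
        rw [LinearMap.mem_ker, lcoeff_apply, coeff_X_pow_mul', if_neg (by omega)]) ∘ₗ
    (Submodule.Quotient.restrictScalarsEquiv (ZMod p)
      (Ideal.span {(X : (ZMod p)[X]) ^ (p - 2)})).symm.toLinearMap

@[simp]
lemma truncCoeff_mk (p k : ℕ) (hk : k < p - 2) (f : (ZMod p)[X]) :
    truncCoeff p k hk (truncMk p f) = f.coeff k := by
  unfold truncCoeff
  simp only [LinearMap.coe_comp, LinearEquiv.coe_coe, Function.comp_apply]
  change (Submodule.liftQ _ (lcoeff (ZMod p) k) _)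
    ((Submodule.Quotient.restrictScalarsEquiv (ZMod p) _).symm (Submodule.Quotient.mk f)) = _
  rw [Submodule.Quotient.restrictScalarsEquiv_symm_mk, Submodule.liftQ_apply, lcoeff_apply]


/-! ### Dual numbers over the truncated ring -/

/-- Evaluating an integer polynomial at `a + bε` in the dual numbers. -/
lemma aeval_inl_add_inr {R : Type*} [CommRing R] (a b : R) (f : ℤ[X]) :
    aeval (inl a + inr b : DualNumber R) f =
      inl (aeval a f) + inr (b * aeval a (derivative f)) := by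
  have hsq : (inr b : DualNumber R) ^ 2 = 0 := by rw [pow_two, inr_mul_inr]
  rw [aeval_add_of_sq_eq_zero f _ _ hsq]
  have h1 : ∀ g : ℤ[X], aeval (inl a : DualNumber R) g = inl (aeval a g) := by
    intro g
    exact (aeval_algHom_apply (inlAlgHom ℤ R R) a g)
  rw [h1, h1, inl_mul_inr, smul_eq_mul, mul_comm]

/-- The element `(1 + X) + ε` of the dual numbers over the truncated ring: the image of `ζ`. -/
def dlogGen (p : ℕ) : DualNumber (TruncRing p) :=
  inl (truncMk p (1 + X)) + inr 1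

lemma dlogGen_sub_one_pow (p : ℕ) (hp : 3 ≤ p) :
    (dlogGen p - 1) ^ (p - 1) = 0 := by
  have h : dlogGen p - 1 = inl (truncMk p X) + inr 1 := by
    unfold dlogGen
    rw [map_add, map_one, inl_add, inl_one]
    abel
  rw [h]
  ext
  · rw [fst_pow, fst_add, fst_inl, fst_inr, add_zero, fst_zero, ← map_pow]
    exact truncMk_X_pow p (by omega)
  · rw [snd_pow, fst_add, fst_inl, fst_inr, add_zero, snd_zero, ← map_pow,
      show (p - 1).pred = p - 2 by rw [Nat.pred_eq_sub_one]; omega, truncMk_X_pow p le_rfl]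
    simp

lemma aeval_dlogGen_cyclotomic (p : ℕ) [hp : Fact p.Prime] (hp3 : 3 ≤ p) :
    aeval (dlogGen p) (cyclotomic p ℤ) = 0 := by
  have h1 : cyclotomic p (ZMod p) = (X - 1) ^ (p - 1) := by
    have := cyclotomic_mul_prime_eq_pow_of_not_dvd (ZMod p) (p := p) (n := 1)
      (by simpa using hp.out.one_lt.ne')
    rwa [one_mul, cyclotomic_one] at this
  have h2 : aeval (dlogGen p) (cyclotomic p ℤ) = aeval (dlogGen p) (cyclotomic p (ZMod p)) := by
    rw [← map_cyclotomic_int p (ZMod p), aeval_def, aeval_def, eval₂_map]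
    congr 1
  rw [h2, h1, map_pow, map_sub, aeval_X, map_one, dlogGen_sub_one_pow p hp3]


/-! ### The jet homomorphism `𝓞 K → 𝔽_p[X]/(X^(p-2))[ε]` -/

section Cyclotomic

variable {p : ℕ} [hp : Fact p.Prime] {K : Type*} [Field K] [NumberField K]
  [IsCyclotomicExtension {p} ℚ K] {ζ : K}

omit [IsCyclotomicExtension {p} ℚ K] in
lemma minpoly_toInteger_eq_cyclotomic (hζ : IsPrimitiveRoot ζ p) :
    minpoly ℤ hζ.toInteger = cyclotomic p ℤ := by
  rw [cyclotomic_eq_minpoly hζ hp.out.pos,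
    ← minpoly.algebraMap_eq (RingOfIntegers.coe_injective (K := K)) hζ.toInteger]
  rfl

/-- The "1-jet at `ζ = 1` modulo `p`" homomorphism: `ζ ↦ (1 + X) + ε`. -/
def jetHom (hζ : IsPrimitiveRoot ζ p) (hp3 : 3 ≤ p) : 𝓞 K →ₐ[ℤ] DualNumber (TruncRing p) :=
  hζ.integralPowerBasis.lift (dlogGen p) (by
    rw [hζ.integralPowerBasis_gen, minpoly_toInteger_eq_cyclotomic hζ,
      aeval_dlogGen_cyclotomic p hp3])

@[simp]
lemma jetHom_toInteger (hζ : IsPrimitiveRoot ζ p) (hp3 : 3 ≤ p) :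
    jetHom hζ hp3 hζ.toInteger = dlogGen p := by
  unfold jetHom
  have := hζ.integralPowerBasis.lift_gen (dlogGen p) (by
    rw [hζ.integralPowerBasis_gen, minpoly_toInteger_eq_cyclotomic hζ,
      aeval_dlogGen_cyclotomic p hp3])
  conv_lhs => rw [← hζ.integralPowerBasis_gen]
  exact this


omit hp in
lemma aeval_ringHom_int {A B : Type*} [CommRing A] [CommRing B] [Algebra ℤ A] [Algebra ℤ B]
    (φ : A →+* B) (a : A) (f : ℤ[X]) : aeval (φ a) f = φ (aeval a f) := by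
  rw [aeval_def, aeval_def, hom_eval₂]
  congr 1
  exact RingHom.ext_int _ _

/-- The jet homomorphism on a polynomial expression in `ζ`. -/
lemma jetHom_aeval_toInteger (hζ : IsPrimitiveRoot ζ p) (hp3 : 3 ≤ p) (f : ℤ[X]) :
    jetHom hζ hp3 (aeval hζ.toInteger f) =
      inl (truncMk p (aeval (1 + X : (ZMod p)[X]) f)) +
        inr (truncMk p (aeval (1 + X : (ZMod p)[X]) (derivative f))) := by
  rw [← aeval_algHom_apply, jetHom_toInteger, dlogGen]
  have := aeval_inl_add_inr (truncMk p (1 + X)) 1 f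
  rw [one_mul, aeval_ringHom_int, aeval_ringHom_int] at this
  exact this

lemma jetHom_toInteger_sub_one (hζ : IsPrimitiveRoot ζ p) (hp3 : 3 ≤ p) :
    jetHom hζ hp3 (hζ.toInteger - 1) = inl (truncMk p X) + inr 1 := by
  rw [map_sub, map_one, jetHom_toInteger, dlogGen, map_add, map_one, inl_add, inl_one]
  abel

/-- The jet homomorphism on a polynomial expression in `λ = ζ - 1`. -/
lemma jetHom_aeval_toInteger_sub_one (hζ : IsPrimitiveRoot ζ p) (hp3 : 3 ≤ p) (h : ℤ[X]) :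
    jetHom hζ hp3 (aeval (hζ.toInteger - 1) h) =
      inl (truncMk p (h.map (Int.castRingHom (ZMod p)))) +
        inr (truncMk p ((derivative h).map (Int.castRingHom (ZMod p)))) := by
  have hX : ∀ g : ℤ[X], aeval (X : (ZMod p)[X]) g = g.map (Int.castRingHom (ZMod p)) := by
    intro g
    rw [aeval_def, Polynomial.map]
    congr 1
  rw [← aeval_algHom_apply, jetHom_toInteger_sub_one]
  have := aeval_inl_add_inr (truncMk p X) 1 h
  rw [one_mul, aeval_ringHom_int, aeval_ringHom_int, hX, hX] at this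
  exact this


/-! ### The logarithmic derivative on units -/

lemma natCast_self_dualNumber_truncRing : ((p : ℕ) : DualNumber (TruncRing p)) = 0 := by
  have h1 : ((p : ℕ) : (ZMod p)[X]) = 0 := by
    rw [← C_eq_natCast, ZMod.natCast_self, C_0]
  have h2 : ((p : ℕ) : TruncRing p) = 0 := by
    rw [← map_natCast (truncMk p), h1, map_zero]
  rw [← inl_natCast, h2, inl_zero]

/-- The logarithmic derivative `u ↦ u'/u` modulo `p`, as a group homomorphism from the units
of `𝓞 K` to the additive group of the truncated polynomial ring. -/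
def dlogHom (hζ : IsPrimitiveRoot ζ p) (hp3 : 3 ≤ p) :
    (𝓞 K)ˣ →* Multiplicative (TruncRing p) where
  toFun u := Multiplicative.ofAdd
    (snd (jetHom hζ hp3 (u : 𝓞 K)) * fst (jetHom hζ hp3 ((u⁻¹ : (𝓞 K)ˣ) : 𝓞 K)))
  map_one' := by
    simp
  map_mul' u v := by
    rw [← ofAdd_add]
    congr 1
    have ha : fst (jetHom hζ hp3 (u : 𝓞 K)) * fst (jetHom hζ hp3 ((u⁻¹ : (𝓞 K)ˣ) : 𝓞 K)) = 1 := by
      rw [← fst_mul, ← map_mul, ← Units.val_mul, mul_inv_cancel, Units.val_one, map_one, fst_one]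
    have hc : fst (jetHom hζ hp3 (v : 𝓞 K)) * fst (jetHom hζ hp3 ((v⁻¹ : (𝓞 K)ˣ) : 𝓞 K)) = 1 := by
      rw [← fst_mul, ← map_mul, ← Units.val_mul, mul_inv_cancel, Units.val_one, map_one, fst_one]
    rw [mul_inv, Units.val_mul, Units.val_mul, map_mul, map_mul, snd_mul, fst_mul]
    simp only [smul_eq_mul, MulOpposite.smul_eq_mul_unop, MulOpposite.unop_op]
    linear_combination
      (snd (jetHom hζ hp3 (v : 𝓞 K)) * fst (jetHom hζ hp3 ((v⁻¹ : (𝓞 K)ˣ) : 𝓞 K))) * ha +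
      (snd (jetHom hζ hp3 (u : 𝓞 K)) * fst (jetHom hζ hp3 ((u⁻¹ : (𝓞 K)ˣ) : 𝓞 K))) * hc

lemma dlogHom_apply (hζ : IsPrimitiveRoot ζ p) (hp3 : 3 ≤ p) (u : (𝓞 K)ˣ) :
    (dlogHom hζ hp3 u).toAdd =
      snd (jetHom hζ hp3 (u : 𝓞 K)) * fst (jetHom hζ hp3 ((u⁻¹ : (𝓞 K)ˣ) : 𝓞 K)) :=
  rfl

/-- If `v` inverts the constant part of the jet of `u`, then `dlog u = u' * v`. -/
lemma dlogHom_apply_of_mul_eq_one (hζ : IsPrimitiveRoot ζ p) (hp3 : 3 ≤ p) (u : (𝓞 K)ˣ)
    (v : TruncRing p) (hv : fst (jetHom hζ hp3 (u : 𝓞 K)) * v = 1) :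
    (dlogHom hζ hp3 u).toAdd = snd (jetHom hζ hp3 (u : 𝓞 K)) * v := by
  have ha : fst (jetHom hζ hp3 (u : 𝓞 K)) * fst (jetHom hζ hp3 ((u⁻¹ : (𝓞 K)ˣ) : 𝓞 K)) = 1 := by
    rw [← fst_mul, ← map_mul, ← Units.val_mul, mul_inv_cancel, Units.val_one, map_one, fst_one]
  have : fst (jetHom hζ hp3 ((u⁻¹ : (𝓞 K)ˣ) : 𝓞 K)) = v := by
    calc fst (jetHom hζ hp3 ((u⁻¹ : (𝓞 K)ˣ) : 𝓞 K))
        = fst (jetHom hζ hp3 ((u⁻¹ : (𝓞 K)ˣ) : 𝓞 K)) * (fst (jetHom hζ hp3 (u : 𝓞 K)) * v) := by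
          rw [hv, mul_one]
      _ = (fst (jetHom hζ hp3 (u : 𝓞 K)) * fst (jetHom hζ hp3 ((u⁻¹ : (𝓞 K)ˣ) : 𝓞 K))) * v := by
          ring
      _ = v := by rw [ha, one_mul]
  rw [dlogHom_apply, this]

/-- A unit congruent to a rational integer modulo `p` has trivial logarithmic derivative. -/
lemma dlogHom_eq_one_of_dvd_sub_intCast (hζ : IsPrimitiveRoot ζ p) (hp3 : 3 ≤ p) (u : (𝓞 K)ˣ)
    (n : ℤ) (h : (p : 𝓞 K) ∣ (u : 𝓞 K) - n) : dlogHom hζ hp3 u = 1 := by
  obtain ⟨w, hw⟩ := h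
  have hu : (u : 𝓞 K) = n + (p : 𝓞 K) * w := by rw [← hw]; ring
  have hsnd : snd (jetHom hζ hp3 (u : 𝓞 K)) = 0 := by
    rw [hu, map_add, map_mul, map_intCast, map_natCast, natCast_self_dualNumber_truncRing,
      zero_mul, add_zero, snd_intCast]
  change Multiplicative.ofAdd _ = 1
  rw [hsnd, zero_mul, ofAdd_zero]

end Cyclotomic

end

end Fermat.Agent.FLTSmall
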