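/-
FLTSmall project, WP3b/c: coefficient toolkit for the logarithmic derivative `dlogHom`,
designed so that the Kummer-lemma instances reduce to `decide`-checkable finite sums in `ZMod p`.
-/
import Fermat.Agent.FLTSmall.DLog

set_option autoImplicit false

namespace Fermat.Agent.FLTSmall

open Polynomial NumberField TrivSqZeroExt Finset

noncomputable section

/-! ### Coefficient functions on the truncated ring -/

/-- The coefficient function of an element of the truncated ring (zero beyond degree `p - 3`). -/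
def tc (p : ℕ) (r : TruncRing p) (k : ℕ) : ZMod p :=
  if h : k < p - 2 then truncCoeff p k h r else 0

lemma tc_mk {p : ℕ} (f : (ZMod p)[X]) {k : ℕ} (hk : k < p - 2) :
    tc p (truncMk p f) k = f.coeff k := by
  rw [tc, dif_pos hk, truncCoeff_mk]

lemma tc_of_le {p : ℕ} (r : TruncRing p) {k : ℕ} (hk : p - 2 ≤ k) : tc p r k = 0 := by
  rw [tc, dif_neg (by omega)]

lemma tc_add {p : ℕ} (r s : TruncRing p) (k : ℕ) : tc p (r + s) k = tc p r k + tc p s k := by
  unfold tc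
  split_ifs <;> simp

lemma tc_zero {p : ℕ} (k : ℕ) : tc p (0 : TruncRing p) k = 0 := by
  unfold tc
  split_ifs <;> simp

lemma tc_ext {p : ℕ} {r s : TruncRing p} (h : ∀ k < p - 2, tc p r k = tc p s k) : r = s := by
  obtain ⟨f, rfl⟩ := Ideal.Quotient.mk_surjective r
  obtain ⟨g, rfl⟩ := Ideal.Quotient.mk_surjective s
  rw [← sub_eq_zero, ← map_sub]
  change truncMk p (f - g) = 0
  rw [truncMk_eq_zero_iff, X_pow_dvd_iff]
  intro d hd
  have := h d hd
  change tc p (truncMk p f) d = tc p (truncMk p g) d at this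
  rw [tc_mk f hd, tc_mk g hd] at this
  rw [coeff_sub, this, sub_self]

lemma tc_mul {p : ℕ} (r s : TruncRing p) {k : ℕ} (hk : k < p - 2) :
    tc p (r * s) k = ∑ x ∈ antidiagonal k, tc p r x.1 * tc p s x.2 := by
  obtain ⟨f, rfl⟩ := Ideal.Quotient.mk_surjective r
  obtain ⟨g, rfl⟩ := Ideal.Quotient.mk_surjective s
  rw [← map_mul]
  change tc p (truncMk p (f * g)) k = ∑ x ∈ antidiagonal k,
    tc p (truncMk p f) x.1 * tc p (truncMk p g) x.2
  rw [tc_mk _ hk, coeff_mul]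
  refine Finset.sum_congr rfl fun x hx => ?_
  have hx' := mem_antidiagonal.mp hx
  rw [tc_mk f (by omega), tc_mk g (by omega)]

lemma tc_one {p : ℕ} {k : ℕ} (hk : k < p - 2) :
    tc p (1 : TruncRing p) k = if k = 0 then 1 else 0 := by
  have : (1 : TruncRing p) = truncMk p 1 := (map_one _).symm
  rw [this, tc_mk _ hk, coeff_one]

/-- The element of the truncated ring with prescribed coefficients. -/
def tcOf (p : ℕ) (l : ℕ → ZMod p) : TruncRing p :=
  truncMk p (∑ i ∈ range (p - 2), C (l i) * X ^ i)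

lemma tc_tcOf {p : ℕ} (l : ℕ → ZMod p) {k : ℕ} (hk : k < p - 2) : tc p (tcOf p l) k = l k := by
  rw [tcOf, tc_mk _ hk, finsetSum_coeff]
  simp only [coeff_C_mul_X_pow]
  rw [Finset.sum_eq_single k]
  · simp
  · intro b _ hb
    rw [if_neg (Ne.symm hb)]
  · intro h
    exact absurd (Finset.mem_range.mpr hk) h

/-- Criterion for `r * tcOf l = 1` by a finite computation. -/
lemma mul_tcOf_eq_one {p : ℕ} (r : TruncRing p) (l : ℕ → ZMod p)
    (h : ∀ k < p - 2, ∑ x ∈ antidiagonal k, tc p r x.1 * l x.2 = if k = 0 then 1 else 0) :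
    r * tcOf p l = 1 := by
  refine tc_ext fun k hk => ?_
  rw [tc_mul _ _ hk, tc_one hk, ← h k hk]
  refine Finset.sum_congr rfl fun x hx => ?_
  have hx' := mem_antidiagonal.mp hx
  rw [tc_tcOf l (by omega)]


/-! ### Jets of the cyclotomic units `∑ j < a, ζ ^ j` -/

section Cyclotomic

variable {p : ℕ} [hp : Fact p.Prime] {K : Type*} [Field K] [NumberField K]
  [IsCyclotomicExtension {p} ℚ K] {ζ : K}

/-- The polynomial `((1 + X) ^ a - 1) / X = ∑ k < a, C(a, k+1) X ^ k` over `ℤ`. -/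
def geomPoly (a : ℕ) : ℤ[X] := ∑ k ∈ range a, (a.choose (k + 1) : ℤ[X]) * X ^ k

lemma coeff_geomPoly (a k : ℕ) : (geomPoly a).coeff k = (a.choose (k + 1) : ℤ) := by
  unfold geomPoly
  rw [finsetSum_coeff]
  simp only [← C_eq_natCast, coeff_C_mul_X_pow]
  by_cases hk : k < a
  · rw [Finset.sum_eq_single k]
    · simp
    · intro b _ hb
      rw [if_neg (Ne.symm hb)]
    · intro h
      exact absurd (Finset.mem_range.mpr hk) h
  · rw [Nat.choose_eq_zero_of_lt (by omega), Nat.cast_zero]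
    refine Finset.sum_eq_zero fun b hb => ?_
    have := Finset.mem_range.mp hb
    rw [if_neg (by omega)]

omit [NumberField K] [IsCyclotomicExtension {p} ℚ K] in
lemma aeval_sub_one_geomPoly (hζ : IsPrimitiveRoot ζ p) (a : ℕ) :
    aeval (hζ.toInteger - 1) (geomPoly a) = ∑ j ∈ range a, hζ.toInteger ^ j := by
  unfold geomPoly
  rw [← geom_sum_X_comp_X_add_one_eq_sum, aeval_comp]
  simp

lemma jetHom_geom_sum (hζ : IsPrimitiveRoot ζ p) (hp3 : 3 ≤ p) (a : ℕ) :
    jetHom hζ hp3 (∑ j ∈ range a, hζ.toInteger ^ j) =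
      inl (truncMk p ((geomPoly a).map (Int.castRingHom (ZMod p)))) +
        inr (truncMk p ((derivative (geomPoly a)).map (Int.castRingHom (ZMod p)))) := by
  rw [← aeval_sub_one_geomPoly, jetHom_aeval_toInteger_sub_one]

lemma tc_fst_jetHom_geom_sum (hζ : IsPrimitiveRoot ζ p) (hp3 : 3 ≤ p) (a : ℕ) {k : ℕ}
    (hk : k < p - 2) :
    tc p (fst (jetHom hζ hp3 (∑ j ∈ range a, hζ.toInteger ^ j))) k =
      (a.choose (k + 1) : ZMod p) := by
  rw [jetHom_geom_sum, fst_add, fst_inl, fst_inr, add_zero, tc_mk _ hk, coeff_map,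
    coeff_geomPoly]
  simp

lemma tc_snd_jetHom_geom_sum (hζ : IsPrimitiveRoot ζ p) (hp3 : 3 ≤ p) (a : ℕ) {k : ℕ}
    (hk : k < p - 2) :
    tc p (snd (jetHom hζ hp3 (∑ j ∈ range a, hζ.toInteger ^ j))) k =
      (a.choose (k + 2) : ZMod p) * ((k : ZMod p) + 1) := by
  rw [jetHom_geom_sum, snd_add, snd_inl, snd_inr, zero_add, tc_mk _ hk, coeff_map,
    coeff_derivative, coeff_geomPoly]
  simp

lemma tc_fst_jetHom_toInteger (hζ : IsPrimitiveRoot ζ p) (hp3 : 3 ≤ p) {k : ℕ}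
    (hk : k < p - 2) :
    tc p (fst (jetHom hζ hp3 hζ.toInteger)) k = if k = 0 then 1 else if k = 1 then 1 else 0 := by
  rw [jetHom_toInteger, dlogGen, fst_add, fst_inl, fst_inr, add_zero, tc_mk _ hk, coeff_add,
    coeff_one, coeff_X]
  rcases k with _ | _ | k <;> simp

lemma tc_snd_jetHom_toInteger (hζ : IsPrimitiveRoot ζ p) (hp3 : 3 ≤ p) {k : ℕ}
    (hk : k < p - 2) :
    tc p (snd (jetHom hζ hp3 hζ.toInteger)) k = if k = 0 then 1 else 0 := by
  rw [jetHom_toInteger, dlogGen, snd_add, snd_inl, snd_inr, zero_add, tc_one hk]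


/-! ### Units and the coefficient homomorphism `ψ` -/

/-- `ζ` as a unit of `𝓞 K`. -/
def zetaUnit (hζ : IsPrimitiveRoot ζ p) : (𝓞 K)ˣ :=
  (hζ.toInteger_isPrimitiveRoot.isUnit hp.out.ne_zero).unit

omit [NumberField K] [IsCyclotomicExtension {p} ℚ K] in
@[simp]
lemma coe_zetaUnit (hζ : IsPrimitiveRoot ζ p) : ((zetaUnit hζ : (𝓞 K)ˣ) : 𝓞 K) = hζ.toInteger :=
  IsUnit.unit_spec _

/-- The cyclotomic unit `∑ j < a, ζ ^ j = (ζ ^ a - 1) / (ζ - 1)` for `a` prime to `p`. -/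
def cycloUnit (hζ : IsPrimitiveRoot ζ p) (a : ℕ) (ha : a.Coprime p) : (𝓞 K)ˣ :=
  (hζ.toInteger_isPrimitiveRoot.geom_sum_isUnit hp.out.two_le ha).unit

omit [NumberField K] [IsCyclotomicExtension {p} ℚ K] in
@[simp]
lemma coe_cycloUnit (hζ : IsPrimitiveRoot ζ p) (a : ℕ) (ha : a.Coprime p) :
    ((cycloUnit hζ a ha : (𝓞 K)ˣ) : 𝓞 K) = ∑ j ∈ range a, hζ.toInteger ^ j :=
  IsUnit.unit_spec _

/-- Computing the coefficients of `dlog u` from the coefficient functions of the jet of `u` and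
a (finitely checked) inverse power series. -/
lemma tc_dlogHom_of_inv (hζ : IsPrimitiveRoot ζ p) (hp3 : 3 ≤ p) (u : (𝓞 K)ˣ)
    (lf ls lv : ℕ → ZMod p)
    (hf : ∀ k < p - 2, tc p (fst (jetHom hζ hp3 (u : 𝓞 K))) k = lf k)
    (hs : ∀ k < p - 2, tc p (snd (jetHom hζ hp3 (u : 𝓞 K))) k = ls k)
    (hinv : ∀ k < p - 2, ∑ x ∈ antidiagonal k, lf x.1 * lv x.2 = if k = 0 then 1 else 0)
    {k : ℕ} (hk : k < p - 2) :
    tc p (dlogHom hζ hp3 u).toAdd k = ∑ x ∈ antidiagonal k, ls x.1 * lv x.2 := by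
  have hv : fst (jetHom hζ hp3 (u : 𝓞 K)) * tcOf p lv = 1 := by
    refine mul_tcOf_eq_one _ _ fun j hj => ?_
    rw [← hinv j hj]
    refine Finset.sum_congr rfl fun x hx => ?_
    have hx' := mem_antidiagonal.mp hx
    rw [hf x.1 (by omega)]
  rw [dlogHom_apply_of_mul_eq_one hζ hp3 u _ hv, tc_mul _ _ hk]
  refine Finset.sum_congr rfl fun x hx => ?_
  have hx' := mem_antidiagonal.mp hx
  rw [hs x.1 (by omega), tc_tcOf lv (by omega)]

/-- Coefficients of `dlog` of the cyclotomic unit `∑ j < a, ζ ^ j`. -/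
lemma tc_dlogHom_cycloUnit (hζ : IsPrimitiveRoot ζ p) (hp3 : 3 ≤ p) (a : ℕ) (ha : a.Coprime p)
    (lv : ℕ → ZMod p)
    (hinv : ∀ k < p - 2, ∑ x ∈ antidiagonal k, (a.choose (x.1 + 1) : ZMod p) * lv x.2 =
      if k = 0 then 1 else 0)
    {k : ℕ} (hk : k < p - 2) :
    tc p (dlogHom hζ hp3 (cycloUnit hζ a ha)).toAdd k =
      ∑ x ∈ antidiagonal k, ((a.choose (x.1 + 2) : ZMod p) * ((x.1 : ZMod p) + 1)) * lv x.2 :=
  tc_dlogHom_of_inv hζ hp3 _ _ _ lv
    (fun j hj => by rw [coe_cycloUnit hζ a ha, tc_fst_jetHom_geom_sum hζ hp3 a hj])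
    (fun j hj => by rw [coe_cycloUnit hζ a ha, tc_snd_jetHom_geom_sum hζ hp3 a hj]) hinv hk

/-- Coefficients of `dlog ζ = 1 / (1 + X)`. -/
lemma tc_dlogHom_zetaUnit (hζ : IsPrimitiveRoot ζ p) (hp3 : 3 ≤ p) {k : ℕ} (hk : k < p - 2) :
    tc p (dlogHom hζ hp3 (zetaUnit hζ)).toAdd k = (-1) ^ k := by
  have h := tc_dlogHom_of_inv hζ hp3 (zetaUnit hζ)
    (fun k => if k = 0 then 1 else if k = 1 then 1 else 0) (fun k => if k = 0 then 1 else 0)
    (fun k => (-1) ^ k)
    (fun j hj => by rw [coe_zetaUnit hζ, tc_fst_jetHom_toInteger hζ hp3 hj])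
    (fun j hj => by rw [coe_zetaUnit hζ, tc_snd_jetHom_toInteger hζ hp3 hj])
    (by
      intro j _
      rcases j with _ | j
      · simp
      · rw [Finset.Nat.antidiagonal_succ, Finset.sum_cons, Finset.sum_map]
        rcases j with _ | j
        · simp
        · rw [Finset.Nat.antidiagonal_succ, Finset.sum_cons, Finset.sum_map]
          simp [pow_succ]) hk
  rw [h]
  rcases k with _ | k
  · simp
  · rw [Finset.Nat.antidiagonal_succ, Finset.sum_cons, Finset.sum_map]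
    simp

/-- Extraction of finitely many coefficients, as an additive homomorphism. -/
def tcVecHom (p : ℕ) {m : ℕ} (ks : Fin m → ℕ) : TruncRing p →+ (Fin m → ZMod p) where
  toFun r i := tc p r (ks i)
  map_zero' := funext fun _ => tc_zero _
  map_add' r s := funext fun _ => tc_add r s _

/-- The homomorphism `ψ`: selected coefficients of the logarithmic derivative. -/
def psiHom (hζ : IsPrimitiveRoot ζ p) (hp3 : 3 ≤ p) {m : ℕ} (ks : Fin m → ℕ) :
    (𝓞 K)ˣ →* Multiplicative (Fin m → ZMod p) :=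
  (tcVecHom p ks).toMultiplicative.comp (dlogHom hζ hp3)

lemma toAdd_psiHom_apply (hζ : IsPrimitiveRoot ζ p) (hp3 : 3 ≤ p) {m : ℕ} (ks : Fin m → ℕ)
    (u : (𝓞 K)ˣ) (i : Fin m) :
    Multiplicative.toAdd (psiHom hζ hp3 ks u) i = tc p (dlogHom hζ hp3 u).toAdd (ks i) :=
  rfl

lemma psiHom_eq_one_of_dvd_sub_intCast (hζ : IsPrimitiveRoot ζ p) (hp3 : 3 ≤ p) {m : ℕ}
    (ks : Fin m → ℕ) (u : (𝓞 K)ˣ) (h : ∃ n : ℤ, (p : 𝓞 K) ∣ (u : 𝓞 K) - n) :
    psiHom hζ hp3 ks u = 1 := by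
  obtain ⟨n, hn⟩ := h
  rw [psiHom, MonoidHom.comp_apply, dlogHom_eq_one_of_dvd_sub_intCast hζ hp3 u n hn, map_one]

end Cyclotomic

end

end Fermat.Agent.FLTSmall
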