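/-
FLTSmall project (towards S10, S11), work package WP2c:
reduction of the second case of Fermat's Last Theorem for an odd prime exponent `p` over `ℤ`
to the generalised equation `a ^ p + b ^ p = u * c ^ p` in the ring of integers of the `p`-th
cyclotomic field (the shape of Mathlib's `FermatLastTheoremForThreeGen`).
-/
import Mathlib

set_option autoImplicit false

namespace Fermat.Agent.FLTSmall.IntToGen

open NumberField IsCyclotomicExtension

/-- If `a ^ n + b ^ n = c ^ n` with `a`, `b` coprime, then `c`, `b` are coprime. -/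
theorem isCoprime_right_of_eq {a b c : ℤ} {n : ℕ} (hn : 0 < n) (hab : IsCoprime a b)
    (h : a ^ n + b ^ n = c ^ n) : IsCoprime c b := by
  rw [← IsCoprime.pow_left_iff hn, ← h]
  have h1 : IsCoprime (a ^ n) b := hab.pow_left
  have h2 : b ^ n = b * b ^ (n - 1) := by
    rw [← pow_succ', Nat.sub_add_cancel hn]
  rw [h2]
  exact h1.add_mul_left_left _

/-- If `a ^ n + b ^ n = c ^ n` with `a`, `b` coprime, then `c`, `a` are coprime. -/
theorem isCoprime_left_of_eq {a b c : ℤ} {n : ℕ} (hn : 0 < n) (hab : IsCoprime a b)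
    (h : a ^ n + b ^ n = c ^ n) : IsCoprime c a :=
  isCoprime_right_of_eq hn hab.symm (by rw [add_comm]; exact h)

/-- A prime cannot divide two coprime integers. -/
theorem not_dvd_of_isCoprime_of_dvd {q a b : ℤ} (hq : Prime q) (hab : IsCoprime a b)
    (ha : q ∣ a) : ¬ q ∣ b := fun hb =>
  hq.not_isUnit (hab.isUnit_of_dvd' ha hb)

/-- Second case of Fermat's Last Theorem over `ℤ` for an odd prime `p`: it suffices to treat the
situation where `p` divides only `c`. -/
theorem caseII_of_dvd_only_c {p : ℕ} (hp : p.Prime) (hp2 : p ≠ 2)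
    (H : ∀ a b c : ℤ, c ≠ 0 → ¬ (p : ℤ) ∣ a → ¬ (p : ℤ) ∣ b → (p : ℤ) ∣ c → IsCoprime a b →
      a ^ p + b ^ p ≠ c ^ p)
    {a b c : ℤ} (h0 : a * b * c ≠ 0) (hab : IsCoprime a b) (hdvd : (p : ℤ) ∣ a * b * c) :
    a ^ p + b ^ p ≠ c ^ p := by
  intro h
  have hpZ : Prime (p : ℤ) := Nat.prime_iff_prime_int.mp hp
  have hodd : Odd p := hp.odd_of_ne_two hp2
  have ha0 : a ≠ 0 := fun h' => h0 (by simp [h'])
  have hb0 : b ≠ 0 := fun h' => h0 (by simp [h'])
  have hc0 : c ≠ 0 := fun h' => h0 (by simp [h'])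
  have hcb : IsCoprime c b := isCoprime_right_of_eq hp.pos hab h
  have hca : IsCoprime c a := isCoprime_left_of_eq hp.pos hab h
  rcases (hpZ.dvd_mul.mp hdvd) with hdab | hdc
  · rcases (hpZ.dvd_mul.mp hdab) with hda | hdb
    · -- `p ∣ a`: use `c ^ p + (-b) ^ p = a ^ p`
      refine H c (-b) a ha0 (not_dvd_of_isCoprime_of_dvd hpZ hca.symm hda)
        (by rw [dvd_neg]; exact not_dvd_of_isCoprime_of_dvd hpZ hab hda) hda hcb.neg_right ?_
      rw [hodd.neg_pow, ← h]; ring
    · -- `p ∣ b`: use `c ^ p + (-a) ^ p = b ^ p`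
      refine H c (-a) b hb0 (not_dvd_of_isCoprime_of_dvd hpZ hcb.symm hdb)
        (by rw [dvd_neg]; exact not_dvd_of_isCoprime_of_dvd hpZ hab.symm hdb) hdb hca.neg_right ?_
      rw [hodd.neg_pow, ← h]; ring
  · -- `p ∣ c`
    exact H a b c hc0 (not_dvd_of_isCoprime_of_dvd hpZ hca hdc)
      (not_dvd_of_isCoprime_of_dvd hpZ hcb hdc) hdc hab h

variable {p : ℕ} [hp : Fact p.Prime] {K : Type*} [Field K] [NumberField K]
  [IsCyclotomicExtension {p} ℚ K] {ζ : K} (hζ : IsPrimitiveRoot ζ p)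

include hζ in
/-- Second case of Fermat's Last Theorem for an odd prime `p`: it follows from the generalised
statement in the ring of integers of the `p`-th cyclotomic field. -/
theorem caseII_of_gen (hp2 : p ≠ 2)
    (hgen : ∀ a b c : 𝓞 K, ∀ u : (𝓞 K)ˣ, c ≠ 0 → ¬ hζ.toInteger - 1 ∣ a →
      ¬ hζ.toInteger - 1 ∣ b → hζ.toInteger - 1 ∣ c → IsCoprime a b →
      a ^ p + b ^ p ≠ u * c ^ p)
    {a b c : ℤ} (h0 : a * b * c ≠ 0) (hab : IsCoprime a b) (hdvd : (p : ℤ) ∣ a * b * c) :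
    a ^ p + b ^ p ≠ c ^ p := by
  refine caseII_of_dvd_only_c hp.out hp2 (fun a b c hc ha hb hpc hcop h => ?_) h0 hab hdvd
  refine hgen a b c 1 (by exact_mod_cast hc) (fun hd => ha ?_) (fun hd => hb ?_) ?_ ?_ ?_
  · exact (Rat.zeta_sub_one_dvd_intCast_iff' p hζ).mp hd
  · exact (Rat.zeta_sub_one_dvd_intCast_iff' p hζ).mp hd
  · exact (Rat.zeta_sub_one_dvd_intCast_iff' p hζ).mpr hpc
  · exact IsCoprime.intCast hcop
  · rw [Units.val_one, one_mul]
    exact_mod_cast h

end Fermat.Agent.FLTSmall.IntToGen
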