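import Fermat.Agent.FLTSmall.CycloLocal

set_option autoImplicit false
set_option linter.unusedSectionVars false

/-!
The "mod `p`" step of the descent: a unit `η` with `ρ₁ ^ p + η * ρ₂ ^ p ≡ 0 mod p`
(`ρ₂` prime to `ζ - 1`) is congruent to a rational integer modulo `p`.
-/

namespace Fermat.Agent.FLTSmall

open NumberField

variable {p : ℕ} [hp : Fact p.Prime] {K : Type*} [Field K] [NumberField K]
  [IsCyclotomicExtension {p} ℚ K] {ζ : K} (hζ : IsPrimitiveRoot ζ p)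

/-- If `ρ` is prime to `ζ - 1` it is invertible modulo `p`. -/
theorem exists_mul_sub_one_dvd_of_not_dvd {ρ : 𝓞 K} (hρ : ¬ hζ.toInteger - 1 ∣ ρ) :
    ∃ v : 𝓞 K, (p : 𝓞 K) ∣ v * ρ - 1 := by
  obtain ⟨u, v, huv⟩ := IsCyclotomicExtension.Rat.isCoprime_of_not_zeta_sub_one_dvd p hζ hρ
  refine ⟨v, ⟨-u, ?_⟩⟩
  linear_combination huv

/-- If `p ∣ a - 1` then `p ∣ a ^ n - 1`. -/
theorem dvd_pow_sub_one_of_dvd_sub_one {R : Type*} [CommRing R] {q a : R} (h : q ∣ a - 1) (n : ℕ) :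
    q ∣ a ^ n - 1 := by
  have := sub_dvd_pow_sub_pow a 1 n
  rw [one_pow] at this
  exact h.trans this

/-- The mod `p` step: `η` is congruent to a rational integer modulo `p`. -/
theorem exists_int_dvd_unit_sub_of_dvd {ρ₁ ρ₂ : 𝓞 K} {η : 𝓞 K} (hρ₂ : ¬ hζ.toInteger - 1 ∣ ρ₂)
    (h : (p : 𝓞 K) ∣ ρ₁ ^ p + η * ρ₂ ^ p) : ∃ n : ℤ, (p : 𝓞 K) ∣ η - (n : 𝓞 K) := by
  obtain ⟨v, hv⟩ := exists_mul_sub_one_dvd_of_not_dvd hζ hρ₂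
  have hvp : (p : 𝓞 K) ∣ (v * ρ₂) ^ p - 1 := dvd_pow_sub_one_of_dvd_sub_one hv p
  obtain ⟨n, hn⟩ := exists_int_dvd_pow_sub hζ (v * ρ₁)
  refine ⟨-n, ?_⟩
  have key : η - ((-n : ℤ) : 𝓞 K) =
      v ^ p * (ρ₁ ^ p + η * ρ₂ ^ p) - η * ((v * ρ₂) ^ p - 1) - ((v * ρ₁) ^ p - n) := by
    push_cast; ring
  rw [key]
  exact dvd_sub (dvd_sub (Dvd.dvd.mul_left h _) (Dvd.dvd.mul_left hvp _)) hn

/-- Variant with divisibility by a high power of `ζ - 1`. -/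
theorem exists_int_dvd_unit_sub_of_pow_dvd {ρ₁ ρ₂ : 𝓞 K} {η : 𝓞 K} {n : ℕ} (hn : p - 1 ≤ n)
    (hρ₂ : ¬ hζ.toInteger - 1 ∣ ρ₂)
    (h : (hζ.toInteger - 1) ^ n ∣ ρ₁ ^ p + η * ρ₂ ^ p) : ∃ m : ℤ, (p : 𝓞 K) ∣ η - (m : 𝓞 K) :=
  exists_int_dvd_unit_sub_of_dvd hζ hρ₂ ((prime_dvd_toInteger_sub_one_pow_of_le hζ hn).trans h)

end Fermat.Agent.FLTSmall
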