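import Fermat.Agent.FLTSmall.Defs
import Fermat.Agent.FLTSmall.CycloLocal
import Fermat.Agent.FLTSmall.UnitCongr
import Fermat.Agent.FLTSmall.IntToGen

/-!
# Kummer's descent (second case) in the `p`-th cyclotomic ring, assuming class number one
and Kummer's lemma.

Independent backup implementation (namespace `Fermat.Agent.FLTSmall.DescentB`).
Main result: `gen_of_pid_of_kummer`.
-/

set_option autoImplicit false
set_option linter.unusedSectionVars false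
set_option linter.unusedVariables false

namespace Fermat.Agent.FLTSmall.DescentB

open NumberField Polynomial Finset

variable {p : ℕ} [hp : Fact p.Prime] {K : Type*} [Field K] [NumberField K]
  [IsCyclotomicExtension {p} ℚ K] {ζ : K} (hζ : IsPrimitiveRoot ζ p)

/-- Two distinct `p`-th roots of unity differ by a unit times `ζ - 1`. -/
theorem exists_unit_mul_eq_sub {η₁ η₂ : 𝓞 K} (h₁ : η₁ ∈ nthRootsFinset p (1 : 𝓞 K))
    (h₂ : η₂ ∈ nthRootsFinset p (1 : 𝓞 K)) (hne : η₁ ≠ η₂) :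
    ∃ u : (𝓞 K)ˣ, η₁ - η₂ = (hζ.toInteger - 1) * u := by
  obtain ⟨u, hu⟩ :=
    hζ.toInteger_isPrimitiveRoot.nthRootsFinset_pairwise_associated_sub_one_sub_of_prime hp.out
      h₁ h₂ hne
  exact ⟨u, hu.symm⟩

/-- The descent step. -/
theorem descent_step [IsPrincipalIdealRing (𝓞 K)] (hKL : KummerLemma p K) (hp2 : p ≠ 2)
    {x y w : 𝓞 K} {ε : (𝓞 K)ˣ} {m : ℕ} (hm : 1 ≤ m)
    (hy : ¬ hζ.toInteger - 1 ∣ y) (hw : ¬ hζ.toInteger - 1 ∣ w) (hxy : IsCoprime x y)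
    (h : x ^ p + y ^ p = ε * ((hζ.toInteger - 1) ^ m * w) ^ p) :
    2 ≤ m ∧ ∃ x' y' w' : 𝓞 K, ∃ ε' : (𝓞 K)ˣ, ¬ hζ.toInteger - 1 ∣ y' ∧
      ¬ hζ.toInteger - 1 ∣ w' ∧ IsCoprime x' y' ∧
      x' ^ p + y' ^ p = ε' * ((hζ.toInteger - 1) ^ (m - 1) * w') ^ p := by
  classical
  set l := hζ.toInteger - 1 with hl
  have hlprime : Prime l := prime_toInteger_sub_one hζ
  have hl0 : l ≠ 0 := hlprime.ne_zero
  have hodd : Odd p := hp.out.odd_of_ne_two hp2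
  have hppos : 0 < p := hp.out.pos
  set μ := nthRootsFinset p (1 : 𝓞 K) with hμ
  have hcard : μ.card = p := hζ.toInteger_isPrimitiveRoot.card_nthRootsFinset
  have hprod : x ^ p + y ^ p = ∏ η ∈ μ, (x + η * y) :=
    hζ.toInteger_isPrimitiveRoot.pow_add_pow_eq_prod_add_mul x y hodd
  have hdiff : ∀ η₁ ∈ μ, ∀ η₂ ∈ μ, η₁ ≠ η₂ → ∃ u : (𝓞 K)ˣ, η₁ - η₂ = l * u :=
    fun η₁ h₁ η₂ h₂ hne => exists_unit_mul_eq_sub hζ h₁ h₂ hne
  -- Step 1: `l` divides every factor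
  have hl_dvd_sum : l ∣ x ^ p + y ^ p := by
    rw [h, mul_pow, ← pow_mul]
    have hmp : m * p ≠ 0 := Nat.mul_ne_zero (by omega) hppos.ne'
    exact Dvd.dvd.mul_left (Dvd.dvd.mul_right (dvd_pow_self l hmp) _) _
  obtain ⟨η', hη'mem, hη'⟩ : ∃ η ∈ μ, l ∣ x + η * y := by
    rw [hprod] at hl_dvd_sum
    exact (Prime.dvd_finsetProd_iff hlprime _).mp hl_dvd_sum
  have hall : ∀ η ∈ μ, ∃ g : 𝓞 K, x + η * y = l * g := by
    intro η hη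
    by_cases hne : η = η'
    · rw [hne]; exact hη'
    · obtain ⟨u, hu⟩ := hdiff η hη η' hη'mem hne
      obtain ⟨g', hg'⟩ := hη'
      exact ⟨g' + u * y, by linear_combination hg' + y * hu⟩
  choose! G hG using hall
  -- differences of the quotients
  have hGdiff : ∀ η₁ ∈ μ, ∀ η₂ ∈ μ, η₁ ≠ η₂ → ∃ u : (𝓞 K)ˣ,
      G η₁ - G η₂ = u * y ∧ η₂ * G η₁ - η₁ * G η₂ = -(u * x) := by
    intro η₁ h₁ η₂ h₂ hne
    obtain ⟨u, hu⟩ := hdiff η₁ h₁ η₂ h₂ hne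
    refine ⟨u, mul_left_cancel₀ hl0 ?_, mul_left_cancel₀ hl0 ?_⟩
    · linear_combination (-1 : 𝓞 K) * hG η₁ h₁ + hG η₂ h₂ + y * hu
    · linear_combination (-η₂) * hG η₁ h₁ + η₁ * hG η₂ h₂ - x * hu
  have hGcop : ∀ η₁ ∈ μ, ∀ η₂ ∈ μ, η₁ ≠ η₂ → IsCoprime (G η₁) (G η₂) := by
    intro η₁ h₁ η₂ h₂ hne
    obtain ⟨u, hu1, hu2⟩ := hGdiff η₁ h₁ η₂ h₂ hne
    obtain ⟨a, b, hab⟩ := hxy
    have hui : ((u⁻¹ : (𝓞 K)ˣ) : 𝓞 K) * u = 1 := by simp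
    refine ⟨-a * ((u⁻¹ : (𝓞 K)ˣ) : 𝓞 K) * η₂ + b * ((u⁻¹ : (𝓞 K)ˣ) : 𝓞 K),
      a * ((u⁻¹ : (𝓞 K)ˣ) : 𝓞 K) * η₁ - b * ((u⁻¹ : (𝓞 K)ˣ) : 𝓞 K), ?_⟩
    linear_combination hab + (b * ((u⁻¹ : (𝓞 K)ˣ) : 𝓞 K)) * hu1 -
      (a * ((u⁻¹ : (𝓞 K)ˣ) : 𝓞 K)) * hu2 + (a * x + b * y) * hui
  have hGnd : ∀ η₁ ∈ μ, ∀ η₂ ∈ μ, η₁ ≠ η₂ → ¬ l ∣ G η₁ - G η₂ := by
    intro η₁ h₁ η₂ h₂ hne hd
    obtain ⟨u, hu1, -⟩ := hGdiff η₁ h₁ η₂ h₂ hne
    rw [hu1, Units.dvd_mul_left] at hd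
    exact hy hd
  -- Step 2: pigeonhole
  obtain ⟨η₀, hη₀mem, hη₀⟩ : ∃ η ∈ μ, l ∣ G η := by
    let e := μ.equivFinOfCardEq hcard
    obtain ⟨i, hi⟩ := exists_dvd_of_pairwise_not_dvd_sub hζ (fun i => G (e.symm i))
      (fun i j hij => hGnd _ (e.symm i).2 _ (e.symm j).2
        (fun h => hij (e.symm.injective (Subtype.ext h))))
    exact ⟨e.symm i, (e.symm i).2, hi⟩
  have hGother : ∀ η ∈ μ, η ≠ η₀ → ¬ l ∣ G η := by
    intro η hη hne hd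
    exact hGnd η hη η₀ hη₀mem hne (dvd_sub hd hη₀)
  -- the product of the quotients
  have hprodG : ∏ η ∈ μ, G η = ε * (l ^ ((m - 1) * p) * w ^ p) := by
    have h1 : ∏ η ∈ μ, (x + η * y) = l ^ p * ∏ η ∈ μ, G η := by
      rw [Finset.prod_congr rfl hG, Finset.prod_mul_distrib, Finset.prod_const, hcard]
    have h2 : l ^ p * ∏ η ∈ μ, G η = l ^ p * (ε * (l ^ ((m - 1) * p) * w ^ p)) := by
      rw [← h1, ← hprod, h, mul_pow, ← pow_mul]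
      have : m * p = p + (m - 1) * p := by
        obtain ⟨k, rfl⟩ : ∃ k, m = k + 1 := ⟨m - 1, by omega⟩
        simp only [Nat.add_sub_cancel]; ring
      rw [this, pow_add]; ring
    exact mul_left_cancel₀ (pow_ne_zero _ hl0) h2
  set Q := ∏ η ∈ μ.erase η₀, G η with hQ
  have hsplit : G η₀ * Q = ε * (l ^ ((m - 1) * p) * w ^ p) := by
    rw [hQ, Finset.mul_prod_erase μ G hη₀mem, hprodG]
  have hQnd : ¬ l ∣ Q := by
    rw [hQ, Prime.dvd_finsetProd_iff hlprime]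
    rintro ⟨η, hη, hd⟩
    exact hGother η (Finset.mem_of_mem_erase hη) (Finset.ne_of_mem_erase hη) hd
  have hεw : ¬ l ∣ (ε : 𝓞 K) * w ^ p := by
    rw [Units.dvd_mul_left]
    exact fun hd => hw (hlprime.dvd_of_dvd_pow hd)
  -- `2 ≤ m`
  have hm2 : 2 ≤ m := by
    by_contra hlt
    have hm1 : m = 1 := by omega
    have hd : l ∣ G η₀ * Q := Dvd.dvd.mul_right hη₀ _
    rw [hsplit, hm1] at hd
    simp only [Nat.sub_self, zero_mul, pow_zero, one_mul] at hd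
    exact hεw hd
  refine ⟨hm2, ?_⟩
  -- exact power of `l` in `G η₀`
  obtain ⟨t₀, ht₀⟩ : l ^ ((m - 1) * p) ∣ G η₀ := by
    refine Prime.pow_dvd_of_dvd_mul_right hlprime _ hQnd ?_
    rw [hsplit]
    exact Dvd.dvd.mul_left (dvd_mul_right _ _) _
  have ht₀Q : t₀ * Q = ε * w ^ p := by
    have h3 : l ^ ((m - 1) * p) * (t₀ * Q) = l ^ ((m - 1) * p) * (ε * w ^ p) := by
      linear_combination hsplit - Q * ht₀
    exact mul_left_cancel₀ (pow_ne_zero _ hl0) h3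
  have ht₀nd : ¬ l ∣ t₀ := fun hd => hεw (ht₀Q ▸ Dvd.dvd.mul_right hd _)
  -- the coprime family
  let T : 𝓞 K → 𝓞 K := fun η => if η = η₀ then t₀ else G η
  have hT0 : T η₀ = t₀ := if_pos rfl
  have hTne : ∀ η, η ≠ η₀ → T η = G η := fun η hne => if_neg hne
  have ht₀cop : ∀ η ∈ μ, η ≠ η₀ → IsCoprime t₀ (G η) := by
    intro η hη hne
    have := hGcop η₀ hη₀mem η hη (Ne.symm hne)
    rw [ht₀] at this
    exact this.of_mul_left_right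
  have hTcop : ∀ i ∈ μ, ∀ j ∈ μ, i ≠ j → IsCoprime (T i) (T j) := by
    intro i hi j hj hij
    by_cases hi0 : i = η₀
    · have hj0 : j ≠ η₀ := fun hj0 => hij (hi0.trans hj0.symm)
      rw [hi0, hT0, hTne j hj0]
      exact ht₀cop j hj hj0
    · by_cases hj0 : j = η₀
      · rw [hj0, hT0, hTne i hi0]
        exact (ht₀cop i hi hi0).symm
      · rw [hTne i hi0, hTne j hj0]
        exact hGcop i hi j hj hij
  have hTprod : ∏ η ∈ μ, T η = ε * w ^ p := by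
    rw [← Finset.mul_prod_erase μ T hη₀mem, hT0, ← ht₀Q, hQ]
    congr 1
    exact Finset.prod_congr rfl (fun η hη => hTne η (Finset.ne_of_mem_erase hη))
  have hTassoc : Associated (w ^ p) (∏ η ∈ μ, T η) := by
    rw [hTprod]
    exact ⟨ε, by ring⟩
  have hpow := exists_associated_pow_of_prod_associated_pow hTcop hTassoc
  -- choose two further roots
  have hcard2 : 1 < (μ.erase η₀).card := by
    rw [Finset.card_erase_of_mem hη₀mem, hcard]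
    have := hp.out.two_le
    have : p ≠ 2 := hp2
    omega
  obtain ⟨η₁, hη₁, η₂, hη₂, h12⟩ := Finset.one_lt_card.mp hcard2
  have hη₁mem := Finset.mem_of_mem_erase hη₁
  have hη₁ne := Finset.ne_of_mem_erase hη₁
  have hη₂mem := Finset.mem_of_mem_erase hη₂
  have hη₂ne := Finset.ne_of_mem_erase hη₂
  obtain ⟨ρ₀, ν₀, hρ₀⟩ := hpow η₀ hη₀mem
  obtain ⟨ρ₁, ν₁, hρ₁⟩ := hpow η₁ hη₁mem
  obtain ⟨ρ₂, ν₂, hρ₂⟩ := hpow η₂ hη₂mem
  rw [hT0] at hρ₀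
  rw [hTne η₁ hη₁ne] at hρ₁
  rw [hTne η₂ hη₂ne] at hρ₂
  -- divisibility facts
  have hρ₀nd : ¬ l ∣ ρ₀ := fun hd => ht₀nd (hρ₀ ▸ Dvd.dvd.mul_right (dvd_pow hd hppos.ne') _)
  have hρ₂nd : ¬ l ∣ ρ₂ := fun hd =>
    hGother η₂ hη₂mem hη₂ne (hρ₂ ▸ Dvd.dvd.mul_right (dvd_pow hd hppos.ne') _)
  -- three term relation
  obtain ⟨u₂₀, hu₂₀⟩ := hdiff η₂ hη₂mem η₀ hη₀mem hη₂ne
  obtain ⟨u₀₁, hu₀₁⟩ := hdiff η₀ hη₀mem η₁ hη₁mem (Ne.symm hη₁ne)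
  obtain ⟨u₂₁, hu₂₁⟩ := hdiff η₂ hη₂mem η₁ hη₁mem (Ne.symm h12)
  have hrel : (u₂₀ : 𝓞 K) * G η₁ + u₀₁ * G η₂ = u₂₁ * G η₀ := by
    have h4 : l ^ 2 * ((u₂₀ : 𝓞 K) * G η₁ + u₀₁ * G η₂) = l ^ 2 * (u₂₁ * G η₀) := by
      linear_combination (-(l * (u₂₀ : 𝓞 K))) * hG η₁ hη₁mem - (l * (u₀₁ : 𝓞 K)) * hG η₂ hη₂mem +
        (l * (u₂₁ : 𝓞 K)) * hG η₀ hη₀mem - (x + η₁ * y) * hu₂₀ - (x + η₂ * y) * hu₀₁ +
        (x + η₀ * y) * hu₂₁
    exact mul_left_cancel₀ (pow_ne_zero _ hl0) h4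
  -- the new units
  set δ : (𝓞 K)ˣ := (u₂₀ * ν₁)⁻¹ with hδ
  set η'' : (𝓞 K)ˣ := u₀₁ * ν₂ * δ with hη''
  set ε' : (𝓞 K)ˣ := u₂₁ * ν₀ * δ with hε'
  have hδmul : (δ : 𝓞 K) * (u₂₀ * ν₁) = 1 := by
    rw [hδ, ← Units.val_mul, ← Units.val_mul, inv_mul_cancel, Units.val_one]
  have hnew : ρ₁ ^ p + (η'' : 𝓞 K) * ρ₂ ^ p = ε' * (l ^ (m - 1) * ρ₀) ^ p := by
    rw [hη'', hε', mul_pow, ← pow_mul]
    simp only [Units.val_mul]
    linear_combination (δ : 𝓞 K) * hrel + (δ : 𝓞 K) * u₂₀ * hρ₁ + (δ : 𝓞 K) * u₀₁ * hρ₂ -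
      (δ : 𝓞 K) * u₂₁ * l ^ ((m - 1) * p) * hρ₀ + (δ : 𝓞 K) * u₂₁ * ht₀ - ρ₁ ^ p * hδmul
  -- Kummer's lemma
  have hdvd : l ^ ((m - 1) * p) ∣ ρ₁ ^ p + (η'' : 𝓞 K) * ρ₂ ^ p := by
    rw [hnew, mul_pow, ← pow_mul]
    exact Dvd.dvd.mul_left (dvd_mul_right _ _) _
  have hle : p - 1 ≤ (m - 1) * p := by
    have : 1 ≤ m - 1 := by omega
    calc p - 1 ≤ p := Nat.sub_le _ _
      _ = 1 * p := (one_mul p).symm
      _ ≤ (m - 1) * p := Nat.mul_le_mul_right p this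
  obtain ⟨n, hn⟩ := exists_int_dvd_unit_sub_of_pow_dvd hζ hle hρ₂nd hdvd
  obtain ⟨v, hv⟩ := hKL η'' ⟨n, hn⟩
  refine ⟨ρ₁, v * ρ₂, ρ₀, ε', ?_, hρ₀nd, ?_, ?_⟩
  · rw [Units.dvd_mul_left]; exact hρ₂nd
  · rw [isCoprime_mul_unit_left_right v.isUnit]
    have h5 : IsCoprime (ρ₁ ^ p * ν₁) (ρ₂ ^ p * ν₂) := by
      rw [hρ₁, hρ₂]; exact hGcop η₁ hη₁mem η₂ hη₂mem h12
    have h6 : IsCoprime (ρ₁ ^ p) (ρ₂ ^ p) := h5.of_mul_left_left.of_mul_right_left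
    exact ((IsCoprime.pow_left_iff hppos).mp ((IsCoprime.pow_right_iff hppos).mp h6))
  · rw [mul_pow, ← Units.val_pow_eq_pow_val, ← hv]
    exact hnew

/-- No solutions of the generalised equation, by descent on the exponent of `ζ - 1`. -/
theorem no_solution [IsPrincipalIdealRing (𝓞 K)] (hKL : KummerLemma p K) (hp2 : p ≠ 2) :
    ∀ m : ℕ, 1 ≤ m → ∀ (x y w : 𝓞 K) (ε : (𝓞 K)ˣ), ¬ hζ.toInteger - 1 ∣ y →
      ¬ hζ.toInteger - 1 ∣ w → IsCoprime x y →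
      x ^ p + y ^ p ≠ ε * ((hζ.toInteger - 1) ^ m * w) ^ p := by
  intro m
  induction m using Nat.strong_induction_on with
  | _ m ih =>
    intro hm x y w ε hy hw hxy h
    obtain ⟨hm2, x', y', w', ε', hy', hw', hxy', h'⟩ :=
      descent_step hζ hKL hp2 hm hy hw hxy h
    exact ih (m - 1) (by omega) (by omega) x' y' w' ε' hy' hw' hxy' h'

/-- The generalised second case of Fermat's Last Theorem in the `p`-th cyclotomic ring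
(`p` an odd prime), assuming that the ring is a PID and Kummer's lemma. -/
theorem gen_of_pid_of_kummer [IsPrincipalIdealRing (𝓞 K)] (hKL : KummerLemma p K) (hp2 : p ≠ 2) :
    ∀ a b c : 𝓞 K, ∀ u : (𝓞 K)ˣ, c ≠ 0 → ¬ hζ.toInteger - 1 ∣ a →
      ¬ hζ.toInteger - 1 ∣ b → hζ.toInteger - 1 ∣ c → IsCoprime a b →
      a ^ p + b ^ p ≠ u * c ^ p := by
  intro a b c u hc _ hb hlc hab
  have hlprime : Prime (hζ.toInteger - 1) := prime_toInteger_sub_one hζ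
  obtain ⟨m, w, hw, hcw⟩ := WfDvdMonoid.max_power_factor hc hlprime.irreducible
  have hm : 1 ≤ m := by
    by_contra hlt
    have hm0 : m = 0 := by omega
    rw [hm0, pow_zero, one_mul] at hcw
    exact hw (hcw ▸ hlc)
  rw [hcw]
  exact no_solution hζ hKL hp2 m hm a b w u hb hw hab

include hζ in
/-- **Second case of Fermat's Last Theorem** for an odd prime `p` such that the `p`-th
cyclotomic ring is a PID and satisfies Kummer's lemma. -/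
theorem caseII [IsPrincipalIdealRing (𝓞 K)] (hKL : KummerLemma p K) (hp2 : p ≠ 2)
    {a b c : ℤ} (h0 : a * b * c ≠ 0) (hab : IsCoprime a b) (hdvd : (p : ℤ) ∣ a * b * c) :
    a ^ p + b ^ p ≠ c ^ p :=
  IntToGen.caseII_of_gen hζ hp2 (gen_of_pid_of_kummer hζ hKL hp2) h0 hab hdvd

end Fermat.Agent.FLTSmall.DescentB
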