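/-
FLTSmall project (towards S10, S11): the generic descent ("second case") for an odd prime `p`,
in the ring of integers of the `p`-th cyclotomic field, assuming that this ring is a PID and
that Kummer's lemma holds.  Independent backup version (helper6).
-/
import Fermat.Agent.FLTSmall.Defs
import Fermat.Agent.FLTSmall.CycloLocal
import Fermat.Agent.FLTSmall.UnitCongr
import Fermat.Agent.FLTSmall.IntToGen

set_option autoImplicit false
set_option linter.unusedSectionVars false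

namespace Fermat.Agent.FLTSmall.DescentH6

open NumberField IsCyclotomicExtension Finset Polynomial

/-! ### Generic ring lemmas -/

section Generic

variable {R : Type*} [CommRing R] [IsDomain R]

/-- Uniqueness of the exponent of a prime. -/
theorem pow_mul_eq_pow_mul_imp {q A B : R} (hq : Prime q) {s t : ℕ} (hA : ¬ q ∣ A) (hB : ¬ q ∣ B)
    (h : q ^ s * A = q ^ t * B) : s = t := by
  wlog hst : s ≤ t generalizing s t A B
  · exact (this hB hA h.symm (le_of_not_ge hst)).symm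
  by_contra hne
  have hlt : s < t := lt_of_le_of_ne hst hne
  obtain ⟨k, rfl⟩ := Nat.exists_eq_add_of_lt hlt
  have h2 : q ^ s * A = q ^ s * (q ^ (k + 1) * B) := by
    rw [h]; ring
  have h3 := mul_left_cancel₀ (pow_ne_zero s hq.ne_zero) h2
  exact hA ⟨q ^ k * B, by rw [h3]; ring⟩

/-- `(1 + x) ^ a = 1 + a * x + x ^ 2 * s` for some `s`. -/
theorem exists_one_add_pow_eq {S : Type*} [CommRing S] (x : S) (a : ℕ) :
    ∃ s : S, (1 + x) ^ a = 1 + a * x + x ^ 2 * s := by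
  induction a with
  | zero => exact ⟨0, by simp⟩
  | succ a ih =>
    obtain ⟨s, hs⟩ := ih
    refine ⟨s + a + x * s, ?_⟩
    rw [pow_succ, hs]
    push_cast
    ring

/-- A prime not dividing a finite product of elements it does not divide. -/
theorem not_dvd_prod_of_forall_not_dvd {ι : Type*} {q : R} (hq : Prime q) (s : Finset ι)
    (f : ι → R) (h : ∀ i ∈ s, ¬ q ∣ f i) : ¬ q ∣ ∏ i ∈ s, f i := by
  intro hd
  obtain ⟨i, hi, hdi⟩ := (Prime.dvd_finsetProd_iff hq f).mp hd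
  exact h i hi hdi

theorem aux_id1 {S : Type*} [CommRing S] (L w u : S) (k p : ℕ) :
    u * (L ^ (k + 1) * w) ^ p = L ^ p * (u * (L ^ k * w) ^ p) := by ring

theorem aux_id2 {S : Type*} [CommRing S] (L w v Y : S) (k p : ℕ) :
    L ^ (k * p) * (w ^ p * v * Y) = ((L ^ k * w) ^ p * v) * Y := by ring

theorem aux_id3 {S : Type*} [CommRing S] (L u w : S) (m p : ℕ) :
    u * (L ^ m * w) ^ p = L ^ (m * p) * (u * w ^ p) := by ring

end Generic

/-! ### Cyclotomic lemmas -/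

variable {p : ℕ} [hp : Fact p.Prime] {K : Type*} [Field K] [NumberField K]
  [IsCyclotomicExtension {p} ℚ K] {ζ : K} (hζ : IsPrimitiveRoot ζ p)

local notation3 "η" => hζ.toInteger
local notation3 "λ" => hζ.toInteger - 1

/-- `x ^ p + y ^ p = ∏ i ∈ range p, (x + ζ ^ i * y)` for odd `p`. -/
theorem pow_add_pow_eq_prod_range (hp2 : p ≠ 2) (x y : 𝓞 K) :
    x ^ p + y ^ p = ∏ i ∈ range p, (x + η ^ i * y) := by
  classical
  have hz := hζ.toInteger_isPrimitiveRoot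
  have hodd : Odd p := hp.out.odd_of_ne_two hp2
  rw [hz.pow_add_pow_eq_prod_add_mul x y hodd]
  have himg : nthRootsFinset p (1 : 𝓞 K) = (range p).image (fun i => η ^ i) := by
    ext z
    simp only [mem_nthRootsFinset hp.out.pos, mem_image, mem_range]
    constructor
    · intro hzp
      obtain ⟨i, hi, rfl⟩ := hz.eq_pow_of_pow_eq_one hzp
      exact ⟨i, hi, rfl⟩
    · rintro ⟨i, -, rfl⟩
      rw [← pow_mul, mul_comm, pow_mul, hz.pow_eq_one, one_pow]
  rw [himg, Finset.prod_image]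
  intro i hi j hj hij
  exact hz.injOn_pow hi hj hij

/-- `ζ ^ a - 1 = (ζ - 1) * (a + (ζ - 1) * s)` for some `s`. -/
theorem exists_zeta_pow_sub_one_eq (a : ℕ) :
    ∃ s : 𝓞 K, η ^ a - 1 = λ * ((a : 𝓞 K) + λ * s) := by
  obtain ⟨s, hs⟩ := exists_one_add_pow_eq (λ) a
  refine ⟨s, ?_⟩
  have : η = 1 + (λ) := by ring
  conv_lhs => rw [this, hs]
  ring

/-- If `ζ - 1 ∣ x + y` then `ζ - 1 ∣ x + ζ ^ a * y` for every `a`. -/
theorem lam_dvd_add_zeta_pow_mul {x y : 𝓞 K} (hxy : λ ∣ x + y) (a : ℕ) :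
    λ ∣ x + η ^ a * y := by
  have h1 : λ ∣ η ^ a - 1 := by
    simpa using sub_dvd_pow_sub_pow η 1 a
  have : x + η ^ a * y = (x + y) + (η ^ a - 1) * y := by ring
  rw [this]
  exact dvd_add hxy (Dvd.dvd.mul_right h1 _)

/-- If `ζ - 1 ∣ x + ζ ^ a * y` for some `a` then `ζ - 1 ∣ x + y`. -/
theorem lam_dvd_add_of_dvd_add_zeta_pow_mul {x y : 𝓞 K} {a : ℕ} (h : λ ∣ x + η ^ a * y) :
    λ ∣ x + y := by
  have h1 : λ ∣ η ^ a - 1 := by
    simpa using sub_dvd_pow_sub_pow η 1 a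
  have : x + y = (x + η ^ a * y) - (η ^ a - 1) * y := by ring
  rw [this]
  exact dvd_sub h (Dvd.dvd.mul_right h1 _)

/-- If `ζ - 1 ∣ x + y` and `ζ - 1 ∤ y`, then `(ζ - 1) ^ 2 ∣ x + ζ ^ a * y` for some `a < p`. -/
theorem exists_lam_sq_dvd_add_zeta_pow_mul {x y : 𝓞 K}
    (hxy : λ ∣ x + y) (hy : ¬ λ ∣ y) :
    ∃ a < p, (λ) ^ 2 ∣ x + η ^ a * y := by
  obtain ⟨t, ht⟩ := hxy
  obtain ⟨nt, hnt⟩ := exists_int_sub_dvd hζ t
  obtain ⟨ny, hny⟩ := exists_int_sub_dvd hζ y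
  have hpny : ¬ (p : ℤ) ∣ ny := fun h => hy <| by
    have h2 : λ ∣ (ny : 𝓞 K) := (Rat.zeta_sub_one_dvd_intCast_iff' p hζ).mpr h
    have : y = (y - ny) + ny := by ring
    rw [this]
    exact dvd_add hny h2
  have hny0 : (ny : ZMod p) ≠ 0 := fun h => hpny ((ZMod.intCast_zmod_eq_zero_iff_dvd ny p).mp h)
  set a : ℕ := (-(nt : ZMod p) * (ny : ZMod p)⁻¹).val with ha
  have hap : a < p := ZMod.val_lt _
  have hdiv : (p : ℤ) ∣ nt + a * ny := by
    rw [← ZMod.intCast_zmod_eq_zero_iff_dvd]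
    push_cast
    rw [ha, ZMod.natCast_val, ZMod.cast_id', id, mul_assoc, inv_mul_cancel₀ hny0]
    ring
  refine ⟨a, hap, ?_⟩
  obtain ⟨s, hs⟩ := exists_zeta_pow_sub_one_eq hζ a
  have key : x + η ^ a * y = (λ) ^ 2 * (s * y) + (λ) * (t + a * y) := by
    have : x + η ^ a * y = (x + y) + (η ^ a - 1) * y := by ring
    rw [this, ht, hs]
    ring
  rw [key]
  refine dvd_add (Dvd.intro _ rfl) ?_
  rw [pow_two]
  refine mul_dvd_mul_left _ ?_
  have h3 : λ ∣ ((nt + a * ny : ℤ) : 𝓞 K) :=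
    (Rat.zeta_sub_one_dvd_intCast_iff' p hζ).mpr hdiv
  have : t + a * y = (t - nt) + a * (y - ny) + ((nt + a * ny : ℤ) : 𝓞 K) := by
    push_cast; ring
  rw [this]
  exact dvd_add (dvd_add hnt (Dvd.dvd.mul_left hny _)) h3

/-- If `ζ - 1 ∤ y`, then `(ζ - 1) ^ 2` divides `x + ζ ^ a * y` for at most one `a < p`. -/
theorem not_lam_sq_dvd_of_ne {x y : 𝓞 K} (hy : ¬ λ ∣ y) {a b : ℕ}
    (ha : a < p) (hb : b < p) (hab : a ≠ b)
    (h1 : (λ) ^ 2 ∣ x + η ^ a * y) :
    ¬ (λ) ^ 2 ∣ x + η ^ b * y := by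
  intro h2
  obtain ⟨u, hu⟩ := associated_sub_one_pow_sub_pow hζ ha hb hab
  have h3 : (λ) ^ 2 ∣ (λ) * (u * y) := by
    have : (λ) * (u * y) = (x + η ^ a * y) - (x + η ^ b * y) := by
      rw [← mul_assoc, hu]; ring
    rw [this]
    exact dvd_sub h1 h2
  rw [pow_two] at h3
  have h4 : λ ∣ (u : 𝓞 K) * y :=
    (mul_dvd_mul_iff_left hζ.zeta_sub_one_prime'.ne_zero).mp h3
  exact hy ((Units.dvd_mul_left).mp h4)

/-! ### The descent step -/

/-- The descent step, under the normalisation `(ζ - 1) ^ 2 ∣ a + b`. -/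
theorem descent_aux (hp2 : p ≠ 2) [IsPrincipalIdealRing (𝓞 K)] (hKL : KummerLemma p K)
    {m : ℕ} (hm : 1 ≤ m) {a b w : 𝓞 K} {u : (𝓞 K)ˣ} (hb : ¬ λ ∣ b)
    (hw : ¬ λ ∣ w) (hab : IsCoprime a b) (hsq : (λ) ^ 2 ∣ a + b)
    (h : a ^ p + b ^ p = u * ((λ) ^ m * w) ^ p) :
    2 ≤ m ∧ ∃ (a' b' w' : 𝓞 K) (u' : (𝓞 K)ˣ), ¬ λ ∣ a' ∧ ¬ λ ∣ b' ∧ ¬ λ ∣ w' ∧
      IsCoprime a' b' ∧ a' ^ p + b' ^ p = u' * ((λ) ^ (m - 1) * w') ^ p := by
  classical
  have hlam : Prime (λ) := hζ.zeta_sub_one_prime'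
  have hlam0 : (λ) ≠ 0 := hlam.ne_zero
  have hz := hζ.toInteger_isPrimitiveRoot
  have hppos : 0 < p := hp.out.pos
  have hp3 : 3 ≤ p := by
    have := hp.out.two_le
    omega
  have hηp : η ^ p = 1 := hz.pow_eq_one
  have hw0 : w ≠ 0 := fun h => hw (h ▸ dvd_zero _)
  set f : ℕ → 𝓞 K := fun i => a + η ^ i * b with hf
  have hf0 : f 0 = a + b := by simp [hf]
  have hlamab : λ ∣ a + b := dvd_trans (dvd_pow_self _ two_ne_zero) hsq
  have hlamf : ∀ i, λ ∣ f i := fun i => lam_dvd_add_zeta_pow_mul hζ hlamab i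
  choose x hx using hlamf
  have hprod : ∏ i ∈ range p, f i = u * ((λ) ^ m * w) ^ p := by
    rw [← pow_add_pow_eq_prod_range hζ hp2, h]
  -- `x i` is prime to `λ` for `0 < i < p`
  have hxi : ∀ i, 0 < i → i < p → ¬ λ ∣ x i := by
    intro i hi0 hip hd
    have h0 : (λ) ^ 2 ∣ a + η ^ 0 * b := by simpa using hsq
    refine not_lam_sq_dvd_of_ne hζ hb hppos hip (Nat.ne_of_lt hi0) h0 ?_
    show (λ) ^ 2 ∣ f i
    rw [hx i, pow_two]
    exact mul_dvd_mul_left _ hd
  have hx0 : λ ∣ x 0 := by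
    have : (λ) ^ 2 ∣ (λ) * x 0 := by
      rw [← hx 0, hf0]
      exact hsq
    rw [pow_two] at this
    exact (mul_dvd_mul_iff_left hlam0).mp this
  -- the product of the `x i`
  have hprodx : ∏ i ∈ range p, x i = u * ((λ) ^ (m - 1) * w) ^ p := by
    have h1 : ∏ i ∈ range p, f i = (λ) ^ p * ∏ i ∈ range p, x i := by
      rw [Finset.prod_congr rfl (fun i _ => hx i), Finset.prod_mul_distrib, Finset.prod_const,
        card_range]
    have h2 : (u : 𝓞 K) * ((λ) ^ m * w) ^ p = (λ) ^ p * (u * ((λ) ^ (m - 1) * w) ^ p) := by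
      obtain ⟨k, rfl⟩ : ∃ k, m = k + 1 := ⟨m - 1, by omega⟩
      simp only [Nat.add_sub_cancel]
      exact aux_id1 _ _ _ _ _
    exact mul_left_cancel₀ (pow_ne_zero p hlam0) (by rw [← h1, hprod, h2])
  have hBlam : ¬ λ ∣ (u : 𝓞 K) * w ^ p := by
    intro hd
    rcases hlam.dvd_or_dvd hd with h' | h'
    · exact hlam.not_isUnit (isUnit_of_dvd_unit h' u.isUnit)
    · exact hw (hlam.dvd_of_dvd_pow h')
  -- `2 ≤ m`
  have hm2 : 2 ≤ m := by
    by_contra hlt
    have hm1 : m = 1 := by omega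
    have hd : λ ∣ ∏ i ∈ range p, x i :=
      dvd_trans hx0 (Finset.dvd_prod_of_mem x (mem_range.mpr hppos))
    rw [hprodx, hm1] at hd
    simp only [Nat.sub_self, pow_zero, one_mul] at hd
    exact hBlam hd
  -- pairwise coprimality
  have hcop : ∀ i ∈ range p, ∀ j ∈ range p, i ≠ j → IsCoprime (x i) (x j) := by
    intro i hi j hj hij
    rw [mem_range] at hi hj
    refine isCoprime_of_prime_dvd ?_ ?_
    · rintro ⟨hxi0, hxj0⟩
      rcases Nat.eq_zero_or_pos i with rfl | hi0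
      · have hj0 : 0 < j := Nat.pos_of_ne_zero (Ne.symm hij)
        exact hxi j hj0 hj (hxj0 ▸ dvd_zero _)
      · exact hxi i hi0 hi (hxi0 ▸ dvd_zero _)
    · intro π hπ hπi hπj
      have hfi : π ∣ f i := by
        rw [hx i]
        exact Dvd.dvd.mul_left hπi _
      have hfj : π ∣ f j := by
        rw [hx j]
        exact Dvd.dvd.mul_left hπj _
      obtain ⟨v, hv⟩ := associated_sub_one_pow_sub_pow hζ hi hj hij
      have h1 : π ∣ (λ) * (v * b) := by
        have : (λ) * (v * b) = f i - f j := by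
          simp only [hf]
          rw [← mul_assoc, hv]
          ring
        rw [this]
        exact dvd_sub hfi hfj
      have h2 : π ∣ (λ) * (v * a) := by
        have : (λ) * (v * a) = η ^ i * f j - η ^ j * f i := by
          simp only [hf]
          rw [← mul_assoc, hv]
          ring
        rw [this]
        exact dvd_sub (Dvd.dvd.mul_left hfj _) (Dvd.dvd.mul_left hfi _)
      by_cases hπlam : π ∣ (λ)
      · have hass : Associated π (λ) := hπ.associated_of_dvd hlam hπlam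
        have hlami : λ ∣ x i := hass.symm.dvd.trans hπi
        have hlamj : λ ∣ x j := hass.symm.dvd.trans hπj
        rcases Nat.eq_zero_or_pos i with rfl | hi0
        · exact hxi j (Nat.pos_of_ne_zero (Ne.symm hij)) hj hlamj
        · exact hxi i hi0 hi hlami
      · have hπb : π ∣ b := by
          rcases hπ.dvd_or_dvd h1 with h' | h'
          · exact absurd h' hπlam
          · exact (Units.dvd_mul_left).mp h'
        have hπa : π ∣ a := by
          rcases hπ.dvd_or_dvd h2 with h' | h'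
          · exact absurd h' hπlam
          · exact (Units.dvd_mul_left).mp h'
        exact hπ.not_isUnit (hab.isUnit_of_dvd' hπa hπb)
  -- extraction of `p`-th powers
  have hass : Associated (((λ) ^ (m - 1) * w) ^ p) (∏ i ∈ range p, x i) := by
    rw [hprodx]
    exact (associated_unit_mul_left _ _ u.isUnit).symm
  have hext := exists_associated_pow_of_prod_associated_pow hcop hass
  obtain ⟨d0, v0, hv0⟩ := hext 0 (mem_range.mpr hppos)
  obtain ⟨d1, v1, hv1⟩ := hext 1 (mem_range.mpr (by omega))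
  obtain ⟨d2, v2, hv2⟩ := hext (p - 1) (mem_range.mpr (by omega))
  -- the linear relation
  have hid : x 1 + η * x (p - 1) = (1 + η) * x 0 := by
    have hpow : η * η ^ (p - 1) = 1 := by
      rw [← pow_succ', Nat.sub_add_cancel (by omega), hηp]
    have e1 := hx 1
    have e2 := hx (p - 1)
    have e0 := hx 0
    simp only [hf] at e1 e2 e0
    have : (λ) * (x 1 + η * x (p - 1)) = (λ) * ((1 + η) * x 0) := by
      linear_combination (-1 : 𝓞 K) * e1 - η * e2 + (1 + η) * e0 + b * hpow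
    exact mul_left_cancel₀ hlam0 this
  have hd1lam : ¬ λ ∣ d1 := fun hd => hxi 1 one_pos (by omega) (by
    rw [← hv1]
    exact Dvd.dvd.mul_right (dvd_pow hd hp.out.ne_zero) _)
  have hd2lam : ¬ λ ∣ d2 := fun hd => hxi (p - 1) (by omega) (by omega) (by
    rw [← hv2]
    exact Dvd.dvd.mul_right (dvd_pow hd hp.out.ne_zero) _)
  have hx0ne : x 0 ≠ 0 := by
    intro h0
    have h1 : ∏ i ∈ range p, x i = 0 := Finset.prod_eq_zero (mem_range.mpr hppos) h0
    rw [hprodx] at h1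
    exact (mul_ne_zero u.ne_zero (pow_ne_zero _ (mul_ne_zero (pow_ne_zero _ hlam0) hw0))) h1
  have hd0ne : d0 ≠ 0 := by
    rintro rfl
    apply hx0ne
    rw [← hv0, zero_pow hp.out.ne_zero, zero_mul]
  obtain ⟨k, w', hw', hd0eq⟩ := WfDvdMonoid.max_power_factor hd0ne hlam.irreducible
  have hk : k = m - 1 := by
    have hsplit : ∏ i ∈ range p, x i = x 0 * ∏ i ∈ (range p).erase 0, x i :=
      (Finset.mul_prod_erase _ _ (mem_range.mpr hppos)).symm
    have hY : ¬ λ ∣ ∏ i ∈ (range p).erase 0, x i :=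
      not_dvd_prod_of_forall_not_dvd hlam _ _ (fun i hi =>
        hxi i (Nat.pos_of_ne_zero (Finset.ne_of_mem_erase hi))
          (mem_range.mp (Finset.mem_of_mem_erase hi)))
    have hA : ¬ λ ∣ w' ^ p * v0 * ∏ i ∈ (range p).erase 0, x i := by
      intro hd
      rcases hlam.dvd_or_dvd hd with h' | h'
      · rcases hlam.dvd_or_dvd h' with h'' | h''
        · exact hw' (hlam.dvd_of_dvd_pow h'')
        · exact hlam.not_isUnit (isUnit_of_dvd_unit h'' v0.isUnit)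
      · exact hY h'
    have heq : (λ) ^ (k * p) * (w' ^ p * v0 * ∏ i ∈ (range p).erase 0, x i) =
        (λ) ^ ((m - 1) * p) * (u * w ^ p) := by
      calc (λ) ^ (k * p) * (w' ^ p * v0 * ∏ i ∈ (range p).erase 0, x i)
          = (d0 ^ p * v0) * ∏ i ∈ (range p).erase 0, x i := by
            rw [hd0eq]
            exact aux_id2 _ _ _ _ _ _
        _ = ∏ i ∈ range p, x i := by rw [hv0, hsplit]
        _ = (λ) ^ ((m - 1) * p) * (u * w ^ p) := by
            rw [hprodx]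
            exact aux_id3 _ _ _ _ _
    have := pow_mul_eq_pow_mul_imp hlam hA hBlam heq
    exact Nat.eq_of_mul_eq_mul_right hppos this
  -- the new equation
  have heq1 : d1 ^ p * v1 + η * (d2 ^ p * v2) = (1 + η) * (d0 ^ p * v0) := by
    rw [hv1, hv2, hv0]
    exact hid
  obtain ⟨e, he⟩ := isUnit_one_add_toInteger hζ hp2
  set ηu : (𝓞 K)ˣ := (hz.isUnit hp.out.ne_zero).unit with hηu
  have hηu' : (ηu : 𝓞 K) = η := rfl
  set ε : (𝓞 K)ˣ := ηu * v2 * v1⁻¹ with hε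
  set u' : (𝓞 K)ˣ := e * v0 * v1⁻¹ with hu'
  have hV : (v1 : 𝓞 K) * ((v1⁻¹ : (𝓞 K)ˣ) : 𝓞 K) = 1 := Units.mul_inv v1
  have heq2 : d1 ^ p + ε * d2 ^ p = u' * d0 ^ p := by
    simp only [hε, hu', Units.val_mul, hηu', he]
    linear_combination ((v1⁻¹ : (𝓞 K)ˣ) : 𝓞 K) * heq1 - d1 ^ p * hV
  have hdiv : (λ) ^ ((m - 1) * p) ∣ d1 ^ p + ε * d2 ^ p := by
    rw [heq2, hd0eq, hk]
    exact ⟨u' * w' ^ p, aux_id3 _ _ _ _ _⟩
  have hn : p - 1 ≤ (m - 1) * p := by
    have h1 : 1 ≤ m - 1 := by omega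
    calc p - 1 ≤ p := Nat.sub_le _ _
      _ = 1 * p := (one_mul p).symm
      _ ≤ (m - 1) * p := Nat.mul_le_mul_right p h1
  obtain ⟨n, hn'⟩ := exists_int_dvd_unit_sub_of_pow_dvd hζ hn hd2lam hdiv
  obtain ⟨v, hv⟩ := hKL ε ⟨n, hn'⟩
  refine ⟨hm2, d1, v * d2, w', u', hd1lam, ?_, hw', ?_, ?_⟩
  · intro hd
    exact hd2lam ((Units.dvd_mul_left).mp hd)
  · have h12 : IsCoprime (x 1) (x (p - 1)) :=
      hcop 1 (mem_range.mpr (by omega)) (p - 1) (mem_range.mpr (by omega)) (by omega)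
    rw [← hv1, ← hv2] at h12
    have h' : IsCoprime (d1 ^ p) (d2 ^ p) := (h12.of_mul_left_left).of_mul_right_left
    have h'' : IsCoprime d1 d2 := (IsCoprime.pow_iff hppos hppos).mp h'
    exact (isCoprime_mul_unit_left_right v.isUnit d1 d2).mpr h''
  · rw [mul_pow, ← Units.val_pow_eq_pow_val, ← hv, heq2, hd0eq, hk]

/-- The descent step: a solution of multiplicity `m ≥ 1` has `m ≥ 2` and yields a solution of
multiplicity `m - 1`. -/
theorem descent_step (hp2 : p ≠ 2) [IsPrincipalIdealRing (𝓞 K)] (hKL : KummerLemma p K)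
    {m : ℕ} (hm : 1 ≤ m) {a b w : 𝓞 K} {u : (𝓞 K)ˣ} (hb : ¬ λ ∣ b)
    (hw : ¬ λ ∣ w) (hab : IsCoprime a b)
    (h : a ^ p + b ^ p = u * ((λ) ^ m * w) ^ p) :
    2 ≤ m ∧ ∃ (a' b' w' : 𝓞 K) (u' : (𝓞 K)ˣ), ¬ λ ∣ a' ∧ ¬ λ ∣ b' ∧ ¬ λ ∣ w' ∧
      IsCoprime a' b' ∧ a' ^ p + b' ^ p = u' * ((λ) ^ (m - 1) * w') ^ p := by
  have hlam : Prime (λ) := hζ.zeta_sub_one_prime'
  have hz := hζ.toInteger_isPrimitiveRoot
  have hηp : η ^ p = 1 := hz.pow_eq_one
  have hηu : IsUnit η := hz.isUnit hp.out.ne_zero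
  have hd : λ ∣ a ^ p + b ^ p := by
    rw [h]
    refine Dvd.dvd.mul_left (dvd_pow ?_ hp.out.ne_zero) _
    exact Dvd.dvd.mul_right (dvd_pow_self _ (by omega)) _
  rw [pow_add_pow_eq_prod_range hζ hp2] at hd
  obtain ⟨i, -, hdi⟩ := (Prime.dvd_finsetProd_iff hlam _).mp hd
  have hlamab : λ ∣ a + b := lam_dvd_add_of_dvd_add_zeta_pow_mul hζ hdi
  obtain ⟨i0, -, hsq⟩ := exists_lam_sq_dvd_add_zeta_pow_mul hζ hlamab hb
  have hb0 : ¬ λ ∣ η ^ i0 * b := fun hd' => hb (((hηu.pow i0).dvd_mul_left).mp hd')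
  have hab0 : IsCoprime a (η ^ i0 * b) :=
    (isCoprime_mul_unit_left_right (hηu.pow i0) a b).mpr hab
  have h0 : a ^ p + (η ^ i0 * b) ^ p = u * ((λ) ^ m * w) ^ p := by
    rw [mul_pow, ← pow_mul, mul_comm i0 p, pow_mul, hηp, one_pow, one_mul, h]
  exact descent_aux hζ hp2 hKL hm hb0 hw hab0 hsq h0

/-- There is no solution of any multiplicity `m ≥ 1`. -/
theorem no_solution (hp2 : p ≠ 2) [IsPrincipalIdealRing (𝓞 K)] (hKL : KummerLemma p K) :
    ∀ m, 1 ≤ m → ∀ (a b w : 𝓞 K) (u : (𝓞 K)ˣ), ¬ λ ∣ b → ¬ λ ∣ w → IsCoprime a b →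
      a ^ p + b ^ p ≠ u * ((λ) ^ m * w) ^ p := by
  intro m hm
  induction m, hm using Nat.le_induction with
  | base =>
    intro a b w u hb hw hab h
    have := (descent_step hζ hp2 hKL le_rfl hb hw hab h).1
    omega
  | succ m hm ih =>
    intro a b w u hb hw hab h
    obtain ⟨-, a', b', w', u', -, hb', hw', hab', h'⟩ :=
      descent_step hζ hp2 hKL (by omega) hb hw hab h
    exact ih a' b' w' u' hb' hw' hab' (by simpa using h')

/-- The generalised Fermat equation `a ^ p + b ^ p = u * c ^ p` with `ζ - 1 ∣ c`, `ζ - 1 ∤ a * b`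
has no solution in `𝓞 K`, provided `𝓞 K` is a PID and Kummer's lemma holds. -/
theorem gen (hp2 : p ≠ 2) [IsPrincipalIdealRing (𝓞 K)] (hKL : KummerLemma p K) :
    ∀ a b c : 𝓞 K, ∀ u : (𝓞 K)ˣ, c ≠ 0 → ¬ λ ∣ a → ¬ λ ∣ b → λ ∣ c → IsCoprime a b →
      a ^ p + b ^ p ≠ u * c ^ p := by
  intro a b c u hc _ hb hlc hab h
  have hlam : Prime (λ) := hζ.zeta_sub_one_prime'
  obtain ⟨m, w, hw, rfl⟩ := WfDvdMonoid.max_power_factor hc hlam.irreducible
  have hm : 1 ≤ m := by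
    by_contra hlt
    have hm0 : m = 0 := by omega
    subst hm0
    rw [pow_zero, one_mul] at hlc
    exact hw hlc
  exact no_solution hζ hp2 hKL m hm a b w u hb hw hab h

omit hζ in
/-- Second case of Fermat's Last Theorem for an odd prime `p` such that the ring of integers of
the `p`-th cyclotomic field is a PID and satisfies Kummer's lemma. -/
theorem caseII (K : Type*) [Field K] [NumberField K] [IsCyclotomicExtension {p} ℚ K]
    (hp2 : p ≠ 2) [IsPrincipalIdealRing (𝓞 K)] (hKL : KummerLemma p K)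
    {a b c : ℤ} (h0 : a * b * c ≠ 0) (hab : IsCoprime a b) (hdvd : (p : ℤ) ∣ a * b * c) :
    a ^ p + b ^ p ≠ c ^ p := by
  have : NeZero p := ⟨hp.out.ne_zero⟩
  have hζ := IsCyclotomicExtension.zeta_spec p ℚ K
  exact IntToGen.caseII_of_gen hζ hp2 (gen hζ hp2 hKL) h0 hab hdvd

end Fermat.Agent.FLTSmall.DescentH6
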