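import Fermat.Agent.FLTSmall.CycloLocal

set_option autoImplicit false
set_option linter.unusedSectionVars false

/-!
Analysis of the factors `x + ζ ^ a * y` of `x ^ p + y ^ p` in the ring of integers of the
`p`-th cyclotomic field.
-/

namespace Fermat.Agent.FLTSmall

open NumberField Polynomial Finset

variable {p : ℕ} [hp : Fact p.Prime] {K : Type*} [Field K] [NumberField K]
  [IsCyclotomicExtension {p} ℚ K] {ζ : K} (hζ : IsPrimitiveRoot ζ p)

/-- The `p`-th roots of unity of `𝓞 K` are the powers `ζ ^ a`, `a < p`. -/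
theorem nthRootsFinset_eq_image_pow [DecidableEq (𝓞 K)] :
    nthRootsFinset p (1 : 𝓞 K) = (range p).image (fun a => hζ.toInteger ^ a) := by
  have hz := hζ.toInteger_isPrimitiveRoot
  symm
  refine eq_of_subset_of_card_le ?_ ?_
  · intro η hη
    obtain ⟨a, -, rfl⟩ := mem_image.mp hη
    rw [mem_nthRootsFinset hp.out.pos, ← pow_mul, mul_comm, pow_mul, hz.pow_eq_one, one_pow]
  · rw [hz.card_nthRootsFinset, card_image_of_injOn, card_range]
    intro a ha b hb hab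
    exact hz.pow_inj (mem_range.mp ha) (mem_range.mp hb) hab

/-- `x ^ p + y ^ p = ∏_{a < p} (x + ζ ^ a * y)` for odd `p`. -/
theorem pow_add_pow_eq_prod_range (hp2 : p ≠ 2) (x y : 𝓞 K) :
    x ^ p + y ^ p = ∏ a ∈ range p, (x + hζ.toInteger ^ a * y) := by
  classical
  have hz := hζ.toInteger_isPrimitiveRoot
  rw [hz.pow_add_pow_eq_prod_add_mul x y (hp.out.odd_of_ne_two hp2),
    nthRootsFinset_eq_image_pow hζ, prod_image]
  intro a ha b hb hab
  exact hz.pow_inj (mem_range.mp ha) (mem_range.mp hb) hab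

/-- `ζ - 1 ∣ ζ ^ a - 1`. -/
theorem toInteger_sub_one_dvd_pow_sub_one (a : ℕ) :
    hζ.toInteger - 1 ∣ hζ.toInteger ^ a - 1 := by
  simpa using sub_dvd_pow_sub_pow hζ.toInteger 1 a

/-- All the factors are congruent modulo `ζ - 1`. -/
theorem dvd_add_pow_mul_iff (x y : 𝓞 K) (a : ℕ) :
    hζ.toInteger - 1 ∣ x + hζ.toInteger ^ a * y ↔ hζ.toInteger - 1 ∣ x + y := by
  have h : x + hζ.toInteger ^ a * y = (x + y) + (hζ.toInteger ^ a - 1) * y := by ring
  rw [h]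
  exact dvd_add_left (Dvd.dvd.mul_right (toInteger_sub_one_dvd_pow_sub_one hζ a) y)

/-- If `ζ - 1` divides `x ^ p + y ^ p` it divides `x + y`. -/
theorem dvd_add_of_dvd_pow_add_pow (hp2 : p ≠ 2) {x y : 𝓞 K}
    (h : hζ.toInteger - 1 ∣ x ^ p + y ^ p) : hζ.toInteger - 1 ∣ x + y := by
  rw [pow_add_pow_eq_prod_range hζ hp2] at h
  obtain ⟨a, -, ha⟩ := (prime_toInteger_sub_one hζ).exists_mem_finset_dvd h
  exact (dvd_add_pow_mul_iff hζ x y a).mp ha

/-- The difference of two factors. -/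
theorem exists_unit_factor_sub {a b : ℕ} (ha : a < p) (hb : b < p) (hab : a ≠ b) (x y : 𝓞 K) :
    ∃ u : (𝓞 K)ˣ, (x + hζ.toInteger ^ a * y) - (x + hζ.toInteger ^ b * y) =
      (hζ.toInteger - 1) * u * y := by
  obtain ⟨u, hu⟩ := associated_sub_one_pow_sub_pow hζ ha hb hab
  exact ⟨u, by rw [hu]; ring⟩

/-- Some factor is divisible by `(ζ - 1) ^ 2`. -/
theorem exists_sq_dvd_factor {x y : 𝓞 K} (hy : ¬ hζ.toInteger - 1 ∣ y)
    (hxy : hζ.toInteger - 1 ∣ x + y) :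
    ∃ a, a < p ∧ (hζ.toInteger - 1) ^ 2 ∣ x + hζ.toInteger ^ a * y := by
  have hlam := prime_toInteger_sub_one hζ
  have hdiv : ∀ a : ℕ, hζ.toInteger - 1 ∣ x + hζ.toInteger ^ a * y :=
    fun a => (dvd_add_pow_mul_iff hζ x y a).mpr hxy
  choose f hf using hdiv
  obtain ⟨i, hi⟩ := exists_dvd_of_pairwise_not_dvd_sub hζ (fun i : Fin p => f i) (by
    intro i j hij hdvd
    have hij' : (i : ℕ) ≠ j := fun h => hij (Fin.ext h)
    obtain ⟨u, hu⟩ := exists_unit_factor_sub hζ i.2 j.2 hij' x y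
    rw [hf i, hf j, ← mul_sub, mul_assoc] at hu
    have h2 : f i - f j = u * y := mul_left_cancel₀ hlam.ne_zero hu
    rw [h2] at hdvd
    exact hy ((Units.dvd_mul_left).mp hdvd))
  refine ⟨i, i.2, ?_⟩
  rw [hf i, pow_two]
  exact mul_dvd_mul_left _ hi

/-- At most one factor is divisible by `(ζ - 1) ^ 2`. -/
theorem not_sq_dvd_factor_of_ne {x y : 𝓞 K} (hy : ¬ hζ.toInteger - 1 ∣ y) {a b : ℕ}
    (ha : a < p) (hb : b < p) (hab : a ≠ b)
    (h : (hζ.toInteger - 1) ^ 2 ∣ x + hζ.toInteger ^ a * y) :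
    ¬ (hζ.toInteger - 1) ^ 2 ∣ x + hζ.toInteger ^ b * y := by
  intro h'
  have hlam := prime_toInteger_sub_one hζ
  obtain ⟨u, hu⟩ := exists_unit_factor_sub hζ ha hb hab x y
  have hd := dvd_sub h h'
  rw [hu, pow_two, mul_assoc] at hd
  have := (mul_dvd_mul_iff_left hlam.ne_zero).mp hd
  exact hy ((Units.dvd_mul_left).mp this)

/-- The quotients of two distinct factors by `ζ - 1` are coprime when `x` and `y` are. -/
theorem isCoprime_factor_quot {x y : 𝓞 K} (hxy : IsCoprime x y) {a b : ℕ}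
    (ha : a < p) (hb : b < p) (hab : a ≠ b) {fa fb : 𝓞 K}
    (hfa : x + hζ.toInteger ^ a * y = (hζ.toInteger - 1) * fa)
    (hfb : x + hζ.toInteger ^ b * y = (hζ.toInteger - 1) * fb) : IsCoprime fa fb := by
  have hlam := prime_toInteger_sub_one hζ
  obtain ⟨u, hu⟩ := associated_sub_one_pow_sub_pow hζ ha hb hab
  -- `u * y = fa - fb`
  have h1 : (u : 𝓞 K) * y = fa - fb := by
    apply mul_left_cancel₀ hlam.ne_zero
    have : (hζ.toInteger - 1) * (fa - fb) =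
        (x + hζ.toInteger ^ a * y) - (x + hζ.toInteger ^ b * y) := by rw [hfa, hfb]; ring
    rw [this, ← mul_assoc, hu]; ring
  -- `u * x = ζ ^ a * fb - ζ ^ b * fa`
  have h2 : (u : 𝓞 K) * x = hζ.toInteger ^ a * fb - hζ.toInteger ^ b * fa := by
    apply mul_left_cancel₀ hlam.ne_zero
    have : (hζ.toInteger - 1) * (hζ.toInteger ^ a * fb - hζ.toInteger ^ b * fa) =
        hζ.toInteger ^ a * (x + hζ.toInteger ^ b * y) -
          hζ.toInteger ^ b * (x + hζ.toInteger ^ a * y) := by rw [hfa, hfb]; ring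
    rw [this, ← mul_assoc, hu]; ring
  obtain ⟨r, s, hrs⟩ := hxy
  -- `1 = r x + s y`, multiply by `u`
  refine ⟨(↑u⁻¹ : 𝓞 K) * (s - r * hζ.toInteger ^ b), (↑u⁻¹ : 𝓞 K) * (r * hζ.toInteger ^ a - s), ?_⟩
  have hu1 : (↑u⁻¹ : 𝓞 K) * (u : 𝓞 K) = 1 := by simp
  calc (↑u⁻¹ : 𝓞 K) * (s - r * hζ.toInteger ^ b) * fa +
        (↑u⁻¹ : 𝓞 K) * (r * hζ.toInteger ^ a - s) * fb
      = (↑u⁻¹ : 𝓞 K) * (r * (hζ.toInteger ^ a * fb - hζ.toInteger ^ b * fa) + s * (fa - fb)) := by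
        ring
    _ = (↑u⁻¹ : 𝓞 K) * (r * ((u : 𝓞 K) * x) + s * ((u : 𝓞 K) * y)) := by rw [h1, h2]
    _ = ((↑u⁻¹ : 𝓞 K) * (u : 𝓞 K)) * (r * x + s * y) := by ring
    _ = 1 := by rw [hu1, hrs, one_mul]

end Fermat.Agent.FLTSmall
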