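/-
Sophie Germain's theorem (Case I of Fermat's Last Theorem for a prime exponent `p` admitting an
auxiliary prime `q`), plus the instances `(p, q) = (5, 11), (7, 29), (11, 23), (13, 53)`.
Purely elementary, over `ℤ`.
-/
import Mathlib

set_option autoImplicit false

namespace Fermat.Agent.FLTSmall.SG

open Finset

/-- The cofactor `(y ^ p + z ^ p) / (y + z)` (for odd `p`). -/
def sgPhi (p : ℕ) (y z : ℤ) : ℤ := ∑ i ∈ range p, y ^ i * (-z) ^ (p - 1 - i)

theorem add_mul_sgPhi {p : ℕ} (hp : Odd p) (y z : ℤ) : (y + z) * sgPhi p y z = y ^ p + z ^ p := by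
  have h := geom_sum₂_mul y (-z) p
  rw [hp.neg_pow] at h
  rw [sgPhi, mul_comm, ← sub_neg_eq_add y z, h]
  ring

theorem add_dvd_sgPhi_sub (p : ℕ) (y z : ℤ) : y + z ∣ sgPhi p y z - p * y ^ (p - 1) := by
  rw [← geom_sum₂_self y p, sgPhi, ← Finset.sum_sub_distrib]
  refine Finset.dvd_sum fun i _ => ?_
  rw [← mul_sub]
  refine Dvd.dvd.mul_left ?_ _
  have h := sub_dvd_pow_sub_pow (-z) y (p - 1 - i)
  have h2 : y + z ∣ -z - y := ⟨-1, by ring⟩
  exact h2.trans h

theorem isCoprime_add_sgPhi {p : ℕ} (hp : p.Prime) {y z : ℤ} (hyz : IsCoprime y z)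
    (hpd : ¬ (p : ℤ) ∣ y + z) : IsCoprime (y + z) (sgPhi p y z) := by
  obtain ⟨t, ht⟩ := add_dvd_sgPhi_sub p y z
  have e : sgPhi p y z = p * y ^ (p - 1) + (y + z) * t := by rw [← ht]; ring
  rw [e]
  refine IsCoprime.add_mul_left_right ?_ t
  refine IsCoprime.mul_right ?_ (IsCoprime.pow_right ?_)
  · have hp' : Prime (p : ℤ) := Nat.prime_iff_prime_int.mp hp
    exact ((hp'.irreducible.coprime_iff_not_dvd).mpr hpd).symm
  · have : IsCoprime (z + y * 1) y := IsCoprime.add_mul_left_left hyz.symm 1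
    simpa [add_comm] using this

/-- `sgPhi p y z ≡ p * y ^ (p - 1)` modulo any `q` dividing `y + z`. -/
theorem sgPhi_cast_of_dvd_add {q : ℕ} (p : ℕ) {y z : ℤ} (h : (q : ℤ) ∣ y + z) :
    ((sgPhi p y z : ℤ) : ZMod q) = (p : ZMod q) * (y : ZMod q) ^ (p - 1) := by
  have h1 : (q : ℤ) ∣ sgPhi p y z - p * y ^ (p - 1) := h.trans (add_dvd_sgPhi_sub p y z)
  have h2 := (ZMod.intCast_zmod_eq_zero_iff_dvd _ q).mpr h1
  push_cast at h2
  exact sub_eq_zero.mp h2

/-- `sgPhi p x y ≡ y ^ (p - 1)` modulo any `q` dividing `x`, for odd `p`. -/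
theorem sgPhi_cast_of_dvd_left {q : ℕ} {p : ℕ} (hp : Odd p) {x y : ℤ} (h : (q : ℤ) ∣ x) :
    ((sgPhi p x y : ℤ) : ZMod q) = (y : ZMod q) ^ (p - 1) := by
  have hx : (x : ZMod q) = 0 := (ZMod.intCast_zmod_eq_zero_iff_dvd _ q).mpr h
  have hp0 : 0 < p := hp.pos
  rw [sgPhi]
  push_cast
  rw [Finset.sum_eq_single_of_mem 0 (Finset.mem_range.mpr hp0)]
  · have hev : Even (p - 1) := by
      obtain ⟨k, hk⟩ := hp
      exact ⟨k, by omega⟩
    simp [hev.neg_pow]
  · intro i _ hi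
    rw [hx, zero_pow hi, zero_mul]

/-- Core of Sophie Germain's argument: the auxiliary prime `q` cannot divide `x`. -/
theorem sophieGermain_aux {p q : ℕ} (hp : p.Prime) (hp2 : p ≠ 2) [Fact q.Prime]
    (h1 : ∀ u v w : ZMod q, u ^ p + v ^ p + w ^ p = 0 → u * v * w = 0)
    (h2 : ∀ t : ZMod q, t ^ p ≠ (p : ZMod q))
    {x y z : ℤ} (hxy : IsCoprime x y) (hyz : IsCoprime y z) (hzx : IsCoprime z x)
    (h : x ^ p + y ^ p + z ^ p = 0)
    (hpx : ¬ (p : ℤ) ∣ x) (hpy : ¬ (p : ℤ) ∣ y) (hpz : ¬ (p : ℤ) ∣ z)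
    (hqx : (q : ℤ) ∣ x) : False := by
  have hq : q.Prime := Fact.out
  have hodd : Odd p := hp.odd_of_ne_two hp2
  have hpZ : Prime (p : ℤ) := Nat.prime_iff_prime_int.mp hp
  have hqZ : Prime (q : ℤ) := Nat.prime_iff_prime_int.mp hq
  -- `p` does not divide the pairwise sums
  have key : ∀ {u v w : ℤ}, u ^ p + v ^ p + w ^ p = 0 → ¬ (p : ℤ) ∣ u → ¬ (p : ℤ) ∣ v + w := by
    intro u v w huvw hu hvw
    have h3 : (p : ℤ) ∣ v ^ p + w ^ p := hvw.trans (Odd.add_dvd_pow_add_pow v w hodd)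
    have h4 : (p : ℤ) ∣ u ^ p := by
      have : u ^ p = -(v ^ p + w ^ p) := by linarith
      rw [this]; exact (dvd_neg).mpr h3
    exact hu (hpZ.dvd_of_dvd_pow h4)
  have hyz' : ¬ (p : ℤ) ∣ y + z := key h hpx
  have hzx' : ¬ (p : ℤ) ∣ z + x := key (by linarith) hpy
  have hxy' : ¬ (p : ℤ) ∣ x + y := key (by linarith) hpz
  -- the three factorizations
  have eA : (y + z) * sgPhi p y z = (-x) ^ p := by
    rw [add_mul_sgPhi hodd, hodd.neg_pow]; linarith
  have eB : (z + x) * sgPhi p z x = (-y) ^ p := by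
    rw [add_mul_sgPhi hodd, hodd.neg_pow]; linarith
  have eC : (x + y) * sgPhi p x y = (-z) ^ p := by
    rw [add_mul_sgPhi hodd, hodd.neg_pow]; linarith
  obtain ⟨⟨a, ha⟩, ⟨α, hα⟩⟩ := Int.eq_pow_of_mul_eq_pow_odd (isCoprime_add_sgPhi hp hyz hyz') hodd eA
  obtain ⟨⟨b, hb⟩, -⟩ := Int.eq_pow_of_mul_eq_pow_odd (isCoprime_add_sgPhi hp hzx hzx') hodd eB
  obtain ⟨⟨c, hc⟩, ⟨γ, hγ⟩⟩ := Int.eq_pow_of_mul_eq_pow_odd (isCoprime_add_sgPhi hp hxy hxy') hodd eC
  -- reduce modulo `q`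
  have hx0 : (x : ZMod q) = 0 := (ZMod.intCast_zmod_eq_zero_iff_dvd _ q).mpr hqx
  have hqy : ¬ (q : ℤ) ∣ y := fun hy => hqZ.not_isUnit (hxy.isUnit_of_dvd' hqx hy)
  have hqz : ¬ (q : ℤ) ∣ z := fun hz => hqZ.not_isUnit (hzx.isUnit_of_dvd' hz hqx)
  have hy0 : (y : ZMod q) ≠ 0 := fun hy => hqy ((ZMod.intCast_zmod_eq_zero_iff_dvd _ q).mp hy)
  have habc : (b : ZMod q) ^ p + (c : ZMod q) ^ p + ((-a : ℤ) : ZMod q) ^ p = 0 := by
    have : b ^ p + c ^ p + (-a) ^ p = 2 * x := by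
      rw [hodd.neg_pow, ← ha, ← hb, ← hc]; ring
    have h5 := congrArg (Int.cast : ℤ → ZMod q) this
    push_cast at h5
    rw [hx0, mul_zero] at h5
    push_cast
    exact h5
  have h6 := h1 _ _ _ habc
  rcases mul_eq_zero.mp h6 with h7 | h7
  · rcases mul_eq_zero.mp h7 with h8 | h8
    · -- `q ∣ b`, so `q ∣ z + x`, so `q ∣ z`
      have : (q : ℤ) ∣ b := (ZMod.intCast_zmod_eq_zero_iff_dvd _ q).mp h8
      have h9 : (q : ℤ) ∣ z + x := hb ▸ dvd_pow this hp.ne_zero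
      exact hqz ((dvd_add_left hqx).mp h9)
    · have : (q : ℤ) ∣ c := (ZMod.intCast_zmod_eq_zero_iff_dvd _ q).mp h8
      have h9 : (q : ℤ) ∣ x + y := hc ▸ dvd_pow this hp.ne_zero
      exact hqy ((dvd_add_right hqx).mp h9)
  · -- `q ∣ a`, the main case
    have h8 : (q : ℤ) ∣ -a := (ZMod.intCast_zmod_eq_zero_iff_dvd _ q).mp h7
    have h9 : (q : ℤ) ∣ y + z := ha ▸ dvd_pow ((dvd_neg).mp h8) hp.ne_zero
    have e1 : (α : ZMod q) ^ p = (p : ZMod q) * (y : ZMod q) ^ (p - 1) := by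
      rw [← sgPhi_cast_of_dvd_add p h9, hα]; push_cast; rfl
    have e2 : (γ : ZMod q) ^ p = (y : ZMod q) ^ (p - 1) := by
      rw [← sgPhi_cast_of_dvd_left hodd hqx, hγ]; push_cast; rfl
    have hγ0 : (γ : ZMod q) ^ p ≠ 0 := by rw [e2]; exact pow_ne_zero _ hy0
    refine h2 ((α : ZMod q) / (γ : ZMod q)) ?_
    rw [div_pow, e1, e2, mul_div_assoc, div_self (by rw [← e2]; exact hγ0), mul_one]

/-- **Sophie Germain's theorem.** -/
theorem sophieGermain {p q : ℕ} (hp : p.Prime) (hp2 : p ≠ 2) [Fact q.Prime]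
    (h1 : ∀ u v w : ZMod q, u ^ p + v ^ p + w ^ p = 0 → u * v * w = 0)
    (h2 : ∀ t : ZMod q, t ^ p ≠ (p : ZMod q))
    {x y z : ℤ} (hxy : IsCoprime x y) (hyz : IsCoprime y z) (hzx : IsCoprime z x)
    (h : x ^ p + y ^ p + z ^ p = 0) : (p : ℤ) ∣ x * y * z := by
  by_contra hcon
  have hpZ : Prime (p : ℤ) := Nat.prime_iff_prime_int.mp hp
  have hpx : ¬ (p : ℤ) ∣ x := fun hd => hcon ((hd.mul_right y).mul_right z)
  have hpy : ¬ (p : ℤ) ∣ y := fun hd => hcon ((hd.mul_left x).mul_right z)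
  have hpz : ¬ (p : ℤ) ∣ z := fun hd => hcon (hd.mul_left (x * y))
  have h3 : (x : ZMod q) ^ p + (y : ZMod q) ^ p + (z : ZMod q) ^ p = 0 := by
    have := congrArg (Int.cast : ℤ → ZMod q) h
    push_cast at this
    exact this
  have h4 := h1 _ _ _ h3
  rcases mul_eq_zero.mp h4 with h5 | h5
  · rcases mul_eq_zero.mp h5 with h6 | h6
    · exact sophieGermain_aux hp hp2 h1 h2 hxy hyz hzx h hpx hpy hpz
        ((ZMod.intCast_zmod_eq_zero_iff_dvd _ q).mp h6)
    · exact sophieGermain_aux hp hp2 h1 h2 hyz hzx hxy (by linarith) hpy hpz hpx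
        ((ZMod.intCast_zmod_eq_zero_iff_dvd _ q).mp h6)
  · exact sophieGermain_aux hp hp2 h1 h2 hzx hxy hyz (by linarith) hpz hpx hpy
      ((ZMod.intCast_zmod_eq_zero_iff_dvd _ q).mp h5)

/-- Convenient way to check the first hypothesis of `sophieGermain`: the nonzero `p`-th powers
modulo `q` lie in a small set `S`, no three elements of which sum to zero. -/
theorem sg_h1_of_finset {p q : ℕ} [Fact q.Prime] (S : Finset (ZMod q))
    (hS : ∀ t : ZMod q, t ^ p = 0 ∨ t ^ p ∈ S)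
    (hsum : ∀ a ∈ S, ∀ b ∈ S, ∀ c ∈ S, a + b + c ≠ 0) :
    ∀ u v w : ZMod q, u ^ p + v ^ p + w ^ p = 0 → u * v * w = 0 := by
  intro u v w h
  by_contra hne
  have hu : u ≠ 0 := fun h0 => hne (by rw [h0, zero_mul, zero_mul])
  have hv : v ≠ 0 := fun h0 => hne (by rw [h0, mul_zero, zero_mul])
  have hw : w ≠ 0 := fun h0 => hne (by rw [h0, mul_zero])
  have hu' := (hS u).resolve_left (pow_ne_zero _ hu)
  have hv' := (hS v).resolve_left (pow_ne_zero _ hv)
  have hw' := (hS w).resolve_left (pow_ne_zero _ hw)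
  exact hsum _ hu' _ hv' _ hw' h

instance fact_prime_eleven' : Fact (Nat.Prime 11) := ⟨by norm_num⟩
instance fact_prime_twentyThree' : Fact (Nat.Prime 23) := ⟨by norm_num⟩
instance fact_prime_twentyNine' : Fact (Nat.Prime 29) := ⟨by norm_num⟩
instance fact_prime_fiftyThree' : Fact (Nat.Prime 53) := ⟨by norm_num⟩

/-- Case I of FLT for exponent `5` (auxiliary prime `11`). -/
theorem caseI_five {x y z : ℤ} (hxy : IsCoprime x y) (hyz : IsCoprime y z) (hzx : IsCoprime z x)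
    (h : x ^ 5 + y ^ 5 + z ^ 5 = 0) : (5 : ℤ) ∣ x * y * z := by
  have := sophieGermain (p := 5) (q := 11) (by norm_num) (by norm_num)
    (sg_h1_of_finset {1, -1} (by decide) (by decide)) (by decide) hxy hyz hzx h
  exact_mod_cast this

/-- Case I of FLT for exponent `7` (auxiliary prime `29`). -/
theorem caseI_seven {x y z : ℤ} (hxy : IsCoprime x y) (hyz : IsCoprime y z) (hzx : IsCoprime z x)
    (h : x ^ 7 + y ^ 7 + z ^ 7 = 0) : (7 : ℤ) ∣ x * y * z := by
  have := sophieGermain (p := 7) (q := 29) (by norm_num) (by norm_num)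
    (sg_h1_of_finset {1, -1, 12, -12} (by decide) (by decide)) (by decide) hxy hyz hzx h
  exact_mod_cast this

/-- Case I of FLT for exponent `11` (auxiliary prime `23`). -/
theorem caseI_eleven {x y z : ℤ} (hxy : IsCoprime x y) (hyz : IsCoprime y z)
    (hzx : IsCoprime z x) (h : x ^ 11 + y ^ 11 + z ^ 11 = 0) : (11 : ℤ) ∣ x * y * z := by
  have := sophieGermain (p := 11) (q := 23) (by norm_num) (by norm_num)
    (sg_h1_of_finset {1, -1} (by decide) (by decide)) (by decide) hxy hyz hzx h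
  exact_mod_cast this

set_option maxRecDepth 100000 in
/-- Case I of FLT for exponent `13` (auxiliary prime `53`). -/
theorem caseI_thirteen {x y z : ℤ} (hxy : IsCoprime x y) (hyz : IsCoprime y z)
    (hzx : IsCoprime z x) (h : x ^ 13 + y ^ 13 + z ^ 13 = 0) : (13 : ℤ) ∣ x * y * z := by
  have := sophieGermain (p := 13) (q := 53) (by norm_num) (by norm_num)
    (sg_h1_of_finset {1, -1, 23, -23} (by decide) (by decide)) (by decide) hxy hyz hzx h
  exact_mod_cast this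

/-- Pairwise coprimality from `IsCoprime a b` and `a ^ p + b ^ p = c ^ p`. -/
theorem isCoprime_of_fermat_eq {p : ℕ} (hp : 0 < p) {a b c : ℤ} (hab : IsCoprime a b)
    (h : a ^ p + b ^ p = c ^ p) : IsCoprime a c ∧ IsCoprime b c := by
  constructor
  · rw [← IsCoprime.pow_right_iff hp, ← h]
    have : IsCoprime a (b ^ p + a ^ (p - 1) * a) :=
      IsCoprime.add_mul_right_right (hab.pow_right) _
    have e : b ^ p + a ^ (p - 1) * a = a ^ p + b ^ p := by
      rw [← pow_succ, Nat.sub_add_cancel hp]; ring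
    rwa [e] at this
  · rw [← IsCoprime.pow_right_iff hp, ← h]
    have : IsCoprime b (a ^ p + b ^ (p - 1) * b) :=
      IsCoprime.add_mul_right_right (hab.symm.pow_right) _
    have e : a ^ p + b ^ (p - 1) * b = a ^ p + b ^ p := by
      rw [← pow_succ, Nat.sub_add_cancel hp]
    rwa [e] at this

/-- Sophie Germain's theorem in the form `a ^ p + b ^ p = c ^ p`, `IsCoprime a b`. -/
theorem sophieGermain' {p q : ℕ} (hp : p.Prime) (hp2 : p ≠ 2) [Fact q.Prime]
    (h1 : ∀ u v w : ZMod q, u ^ p + v ^ p + w ^ p = 0 → u * v * w = 0)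
    (h2 : ∀ t : ZMod q, t ^ p ≠ (p : ZMod q))
    {a b c : ℤ} (hab : IsCoprime a b) (h : a ^ p + b ^ p = c ^ p) : (p : ℤ) ∣ a * b * c := by
  obtain ⟨hac, hbc⟩ := isCoprime_of_fermat_eq hp.pos hab h
  have hodd : Odd p := hp.odd_of_ne_two hp2
  have hsum : a ^ p + b ^ p + (-c) ^ p = 0 := by rw [hodd.neg_pow, h]; ring
  have key := sophieGermain hp hp2 h1 h2 hab hbc.neg_right hac.symm.neg_left hsum
  rwa [mul_neg, dvd_neg] at key

theorem caseI_five' (a b c : ℤ) (hab : IsCoprime a b) (h : a ^ 5 + b ^ 5 = c ^ 5) :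
    (5 : ℤ) ∣ a * b * c := by
  have := sophieGermain' (p := 5) (q := 11) (by norm_num) (by norm_num)
    (sg_h1_of_finset {1, -1} (by decide) (by decide)) (by decide) hab h
  exact_mod_cast this

theorem caseI_seven' (a b c : ℤ) (hab : IsCoprime a b) (h : a ^ 7 + b ^ 7 = c ^ 7) :
    (7 : ℤ) ∣ a * b * c := by
  have := sophieGermain' (p := 7) (q := 29) (by norm_num) (by norm_num)
    (sg_h1_of_finset {1, -1, 12, -12} (by decide) (by decide)) (by decide) hab h
  exact_mod_cast this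

theorem caseI_eleven' (a b c : ℤ) (hab : IsCoprime a b) (h : a ^ 11 + b ^ 11 = c ^ 11) :
    (11 : ℤ) ∣ a * b * c := by
  have := sophieGermain' (p := 11) (q := 23) (by norm_num) (by norm_num)
    (sg_h1_of_finset {1, -1} (by decide) (by decide)) (by decide) hab h
  exact_mod_cast this

set_option maxRecDepth 100000 in
theorem caseI_thirteen' (a b c : ℤ) (hab : IsCoprime a b) (h : a ^ 13 + b ^ 13 = c ^ 13) :
    (13 : ℤ) ∣ a * b * c := by
  have := sophieGermain' (p := 13) (q := 53) (by norm_num) (by norm_num)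
    (sg_h1_of_finset {1, -1, 23, -23} (by decide) (by decide)) (by decide) hab h
  exact_mod_cast this

end Fermat.Agent.FLTSmall.SG
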