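/-
Case I of Fermat's Last Theorem for a Frey package with exponent `5, 7, 11, 13`:
the exponent divides `a * b * c`.
-/
import Fermat.Prelude.Def_FLTPrelim_FreyPackage
import Fermat.Agent.FLTSmall.SophieGermain

set_option autoImplicit false

namespace Fermat.Agent.FLTSmall.SG

theorem isCoprime_of_gcdMonoid_gcd_eq_one {a b : ℤ} (h : gcd a b = 1) : IsCoprime a b := by
  have h' : ((Int.gcd a b : ℕ) : ℤ) = 1 := h
  exact Int.isCoprime_iff_gcd_eq_one.mpr (by exact_mod_cast h')

theorem FreyPackage_isCoprime_ab (P : FreyPackage) : IsCoprime P.a P.b :=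
  isCoprime_of_gcdMonoid_gcd_eq_one P.hgcdab

theorem FreyPackage_isCoprime_ac (P : FreyPackage) : IsCoprime P.a P.c :=
  isCoprime_of_gcdMonoid_gcd_eq_one P.hgcdac

theorem FreyPackage_isCoprime_bc (P : FreyPackage) : IsCoprime P.b P.c :=
  isCoprime_of_gcdMonoid_gcd_eq_one P.hgcdbc

theorem FreyPackage_sum_eq_zero (P : FreyPackage) : P.a ^ P.p + P.b ^ P.p + (-P.c) ^ P.p = 0 := by
  rw [P.hp_odd.neg_pow, P.hFLT]; ring

/-- Case I is impossible for `p ∈ {5, 7, 11, 13}`: the exponent divides `a * b * c`. -/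
theorem FreyPackage_caseI (P : FreyPackage)
    (hp : P.p = 5 ∨ P.p = 7 ∨ P.p = 11 ∨ P.p = 13) : (P.p : ℤ) ∣ P.a * P.b * P.c := by
  have hab := FreyPackage_isCoprime_ab P
  have hbc : IsCoprime P.b (-P.c) := (FreyPackage_isCoprime_bc P).neg_right
  have hca : IsCoprime (-P.c) P.a := (FreyPackage_isCoprime_ac P).symm.neg_left
  have hsum := FreyPackage_sum_eq_zero P
  have key : (P.p : ℤ) ∣ P.a * P.b * (-P.c) := by
    rcases hp with h | h | h | h <;> rw [h] at hsum ⊢
    · exact_mod_cast caseI_five hab hbc hca hsum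
    · exact_mod_cast caseI_seven hab hbc hca hsum
    · exact_mod_cast caseI_eleven hab hbc hca hsum
    · exact_mod_cast caseI_thirteen hab hbc hca hsum
  rwa [mul_neg, dvd_neg] at key

end Fermat.Agent.FLTSmall.SG
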