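import Fermat.Agent.FLTSmall.PIDCrit

set_option autoImplicit false

/-!
# `ℤ[ζ₁₁]` is a principal ideal domain

`Fermat.Agent.FLTSmall.PIDTools.pid_eleven`.  Minkowski bound `< 60`; the only prime powers
`q ^ f ≤ 59` with `q ^ f ≡ 1 (mod 11)` is `23`, and `1 - ζ + ζ³` generates a prime above `23`.
-/

namespace Fermat.Agent.FLTSmall.PIDTools

open NumberField Module NumberField.InfinitePlace Nat Real Ideal IsCyclotomicExtension.Rat
open Finset Polynomial

/-- The Minkowski bound of `ℚ(ζ₁₁)` is `< 60`. -/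
theorem minkowski_bound_eleven_lt (K : Type*) [Field K] [NumberField K]
    [IsCyclotomicExtension {11} ℚ K] :
    (4 / π) ^ nrComplexPlaces K *
      ((finrank ℚ K)! / (finrank ℚ K) ^ (finrank ℚ K) * √|discr K|) < 60 := by
  have : Fact (Nat.Prime 11) := ⟨by norm_num⟩
  rw [discr_prime 11 K, IsCyclotomicExtension.finrank (n := 11) K
    (Polynomial.cyclotomic.irreducible_rat (by norm_num)), nrComplexPlaces_eq_totient_div_two 11,
    totient_prime (by norm_num)]
  have h6 : (11 - 1) / 2 = 5 := by norm_num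
  have h6' : 11 - 1 = 10 := by norm_num
  rw [h6, h6']
  have hfact : (10 ! : ℝ) = 3628800 := by
    norm_num [Nat.factorial]
  have hdisc : |(((-1 : ℤ) ^ 5 * ((11 : ℕ) : ℤ) ^ (11 - 2) : ℤ) : ℝ)| = 2357947691 := by
    norm_num
  rw [hfact, hdisc]
  have hsqrt : √(2357947691 : ℝ) < 48559 := by
    rw [Real.sqrt_lt' (by norm_num)]
    norm_num
  have hpi : (4 / π) ^ 5 < (4 / 3.14) ^ 5 := by
    gcongr
    exact pi_gt_d2
  have hpos : (0 : ℝ) < 4 / π := by positivity
  calc (4 / π) ^ 5 * (3628800 / ((10 : ℕ) : ℝ) ^ 10 * √2357947691)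
      < (4 / 3.14) ^ 5 * (3628800 / ((10 : ℕ) : ℝ) ^ 10 * 48559) := by
        gcongr
    _ < 60 := by norm_num

/-- A principal prime above `23` in `ℚ(ζ₁₁)`, generated by `1 - ζ + ζ³`. -/
theorem exists_isPrincipal_primesOver_twentyThree (K : Type*) [Field K] [NumberField K]
    [IsCyclotomicExtension {11} ℚ K] :
    ∃ P ∈ primesOver (span {((23 : ℕ) : ℤ)}) (𝓞 K), Submodule.IsPrincipal P := by
  have : Fact (Nat.Prime 23) := ⟨by norm_num⟩
  have : Fact (Nat.Prime 11) := ⟨by norm_num⟩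
  have hζ := IsCyclotomicExtension.zeta_spec 11 ℚ K
  set z : 𝓞 K := hζ.toInteger with hzdef
  have hz : ∑ i ∈ range 11, z ^ i = 0 := by
    have h1 : IsPrimitiveRoot z 11 := hζ.toInteger_isPrimitiveRoot
    exact h1.geom_sum_eq_zero (by norm_num)
  simp only [Finset.sum_range_succ, Finset.sum_range_zero] at hz
  refine exists_isPrincipal_primesOver_of_root hζ 23 13 ?_ (1 - z + z ^ 3) ?_
  · rw [Polynomial.cyclotomic_prime, Polynomial.IsRoot.def, Polynomial.eval_finsetSum]
    simp only [Polynomial.eval_pow, Polynomial.eval_X]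
    decide +revert
  · refine span_pair_eq_span_singleton
      (β := 8 - 2 * z - z ^ 2 - 8 * z ^ 3 - 5 * z ^ 4 - 3 * z ^ 5 + 6 * z ^ 6 + 12 * z ^ 7
        + 16 * z ^ 8 + 11 * z ^ 9)
      (γ := -5 + z + 4 * z ^ 3 + 2 * z ^ 4 + z ^ 5 - 4 * z ^ 6 - 7 * z ^ 7 - 9 * z ^ 8 - 6 * z ^ 9)
      (δ := 95) (ε := 168 + 13 * z + z ^ 2) ?_ ?_ ?_
    · push_cast
      linear_combination (-(-15 + 5 * z + 11 * z ^ 2)) * hz
    · push_cast
      linear_combination (-(8 - 3 * z - 6 * z ^ 2)) * hz
    · push_cast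
      ring

/-- If `IsCyclotomicExtension {11} ℚ K` then `𝓞 K` is a principal ideal domain. -/
theorem pid_eleven (K : Type*) [Field K] [NumberField K] [IsCyclotomicExtension {11} ℚ K] :
    IsPrincipalIdealRing (𝓞 K) := by
  have : Fact (Nat.Prime 11) := ⟨by norm_num⟩
  have hM := minkowski_bound_eleven_lt K
  refine isPrincipalIdealRing_of_forall_pow_le 11 K 59 ?_ ?_
  · have := Nat.floor_lt' (n := 60) (by norm_num) |>.mpr hM
    omega
  · intro q hq hq11 f hf hle hmod
    -- `n = q ^ f ≤ 59` with `n ≡ 1 (mod 11)`: `n ∈ {1, 12, 23, 34, 45, 56}`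
    obtain ⟨n, hn⟩ : ∃ n, n = q ^ f := ⟨_, rfl⟩
    rw [← hn] at hle hmod
    have hqn : q ∣ n := hn ▸ dvd_pow_self q hf.ne'
    have h1n : 1 < n := hn ▸ Nat.one_lt_pow hf.ne' hq.one_lt
    have hprime : ∀ r : ℕ, r.Prime → r ∣ n → r = q := fun r hr hrn =>
      (Nat.prime_dvd_prime_iff_eq hr hq).mp (hr.dvd_of_dvd_pow (hn ▸ hrn))
    have hcases : n = 12 ∨ n = 23 ∨ n = 34 ∨ n = 45 ∨ n = 56 := by omega
    rcases hcases with rfl | rfl | rfl | rfl | rfl
    · have h2 := hprime 2 (by norm_num) (by norm_num)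
      have h3 := hprime 3 (by norm_num) (by norm_num)
      omega
    · have h23 := hprime 23 (by norm_num) (by norm_num)
      subst h23
      exact exists_isPrincipal_primesOver_twentyThree K
    · have h2 := hprime 2 (by norm_num) (by norm_num)
      have h3 := hprime 17 (by norm_num) (by norm_num)
      omega
    · have h2 := hprime 3 (by norm_num) (by norm_num)
      have h3 := hprime 5 (by norm_num) (by norm_num)
      omega
    · have h2 := hprime 2 (by norm_num) (by norm_num)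
      have h3 := hprime 7 (by norm_num) (by norm_num)
      omega

end Fermat.Agent.FLTSmall.PIDTools
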