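import Mathlib

/-!
# `ℤ[ζ₁₃]` is a principal ideal domain

FLTSmall work package WP4b.  Method: Minkowski bound (Galois version from Mathlib) with
floor at most `307`, inertia degrees from `orderOf (q : ZMod 13)`, and explicit generators for one
prime above each of `3, 53, 79, 131, 157` (certified through Kummer--Dedekind), the prime above
`13` being `(ζ - 1)`.
-/

set_option autoImplicit false

namespace Fermat.Agent.FLTSmall.PID13

open NumberField Polynomial Ideal IsCyclotomicExtension.Rat RingOfIntegers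

theorem fact_prime_thirteen : Fact (Nat.Prime 13) := ⟨by norm_num⟩

attribute [local instance] fact_prime_thirteen

section generic

variable (K : Type*) [Field K] [NumberField K] [IsCyclotomicExtension {13} ℚ K]


/-- The chosen primitive 13-th root of unity in `𝓞 K`. -/
noncomputable def zeta13 : 𝓞 K := (IsCyclotomicExtension.zeta_spec 13 ℚ K).toInteger

theorem zeta13_isPrimitiveRoot : IsPrimitiveRoot (zeta13 K) 13 :=
  (IsCyclotomicExtension.zeta_spec 13 ℚ K).toInteger_isPrimitiveRoot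

theorem zeta13_geom_sum : ∑ i ∈ Finset.range 13, (zeta13 K) ^ i = 0 :=
  (zeta13_isPrimitiveRoot K).geom_sum_eq_zero (by norm_num)

theorem minpoly_zeta13 : minpoly ℤ (zeta13 K) = cyclotomic 13 ℤ := by
  have h := cyclotomic_eq_minpoly (IsCyclotomicExtension.zeta_spec 13 ℚ K) (by norm_num)
  rw [h, ← (IsCyclotomicExtension.zeta_spec 13 ℚ K).coe_toInteger, ← RingOfIntegers.minpoly_coe]
  rfl

theorem not_dvd_exponent_zeta13 (q : ℕ) [hq : Fact q.Prime] : ¬ q ∣ exponent (zeta13 K) := by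
  rw [zeta13, exponent_eq_one_iff.mpr <|
    adjoin_singleton_eq_top (IsCyclotomicExtension.zeta_spec 13 ℚ K)]
  exact hq.out.not_dvd_one

/-- Certificate lemma: Kummer--Dedekind gives that `(q, Q(ζ))` is a prime over `q`; if it is
generated by `α` then we have a principal prime over `q`. -/
theorem exists_principal_prime_over (q : ℕ) [hq : Fact q.Prime] (Q : ℤ[X])
    (hQirr : Irreducible (Q.map (Int.castRingHom (ZMod q))))
    (hQmonic : (Q.map (Int.castRingHom (ZMod q))).Monic)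
    (hQdvd : Q.map (Int.castRingHom (ZMod q)) ∣ cyclotomic 13 (ZMod q))
    (α : 𝓞 K) (h1 : (q : 𝓞 K) ∈ span {α}) (h2 : aeval (zeta13 K) Q ∈ span {α})
    (h3 : α ∈ span {(q : 𝓞 K), aeval (zeta13 K) Q}) :
    ∃ P ∈ primesOver (span {(q : ℤ)}) (𝓞 K), Submodule.IsPrincipal P := by
  classical
  have h₁ := not_dvd_exponent_zeta13 K q
  have hQ : Q.map (Int.castRingHom (ZMod q)) ∈ monicFactorsMod (zeta13 K) q := by
    rw [Multiset.mem_toFinset, Polynomial.mem_normalizedFactors_iff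
      (map_monic_ne_zero (minpoly.monic (zeta13 K).isIntegral))]
    refine ⟨hQirr, hQmonic, ?_⟩
    rw [minpoly_zeta13, map_cyclotomic]
    exact hQdvd
  refine ⟨_, ((NumberField.Ideal.primesOverSpanEquivMonicFactorsMod h₁).symm ⟨_, hQ⟩).prop, ?_⟩
  rw [NumberField.Ideal.primesOverSpanEquivMonicFactorsMod_symm_apply_eq_span h₁ hQ]
  have : span {(q : 𝓞 K), aeval (zeta13 K) Q} = span {α} := by
    apply le_antisymm
    · rw [span_le]
      intro x hx
      rcases hx with rfl | rfl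
      · exact h1
      · exact h2
    · rw [span_le]
      intro x hx
      rw [Set.mem_singleton_iff] at hx
      rw [hx]
      exact h3
  rw [this]
  exact ⟨⟨α, rfl⟩⟩

end generic



theorem cyclotomic13_int_eq :
    cyclotomic 13 ℤ = (X ^ 3 - X - 1) * (20 + 15 * X + 11 * X ^ 2 + 8 * X ^ 3 + 6 * X ^ 4 +
      4 * X ^ 5 + 3 * X ^ 6 + 2 * X ^ 7 + X ^ 8 + X ^ 9) + C 3 * (7 + 12 * X + 9 * X ^ 2) := by
  rw [cyclotomic_prime]
  simp only [Finset.sum_range_succ, Finset.sum_range_zero, pow_zero, pow_one, zero_add, map_ofNat]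
  ring

theorem Q3_dvd : (X ^ 3 - X - 1 : (ZMod 3)[X]) ∣ cyclotomic 13 (ZMod 3) := by
  have h := congrArg (Polynomial.map (Int.castRingHom (ZMod 3))) cyclotomic13_int_eq
  rw [map_cyclotomic] at h
  rw [h]
  simp only [Polynomial.map_add, Polynomial.map_mul, Polynomial.map_sub, Polynomial.map_pow,
    map_X, Polynomial.map_one, map_C]
  have h3 : (Int.castRingHom (ZMod 3)) 3 = 0 := by decide
  rw [h3, C_0, zero_mul, add_zero]
  exact Dvd.intro _ rfl

theorem Q3_monic : (X ^ 3 - X - 1 : (ZMod 3)[X]).Monic := by monicity!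

theorem Q3_natDegree : (X ^ 3 - X - 1 : (ZMod 3)[X]).natDegree = 3 := by compute_degree!

theorem Q3_irreducible : Irreducible (X ^ 3 - X - 1 : (ZMod 3)[X]) := by
  rw [Q3_monic.irreducible_iff_roots_eq_zero_of_degree_le_three (by rw [Q3_natDegree]; norm_num)
    (by rw [Q3_natDegree])]
  rw [Multiset.eq_zero_iff_forall_notMem]
  intro x hx
  rw [mem_roots Q3_monic.ne_zero] at hx
  simp only [IsRoot.def, eval_sub, eval_pow, eval_X, eval_one] at hx
  revert x
  decide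


theorem root_fiftyThree : ∑ i ∈ Finset.range 13, ((36 : ℤ) : ZMod 53) ^ i = 0 := by decide


theorem root_seventyNine : ∑ i ∈ Finset.range 13, ((64 : ℤ) : ZMod 79) ^ i = 0 := by decide


theorem root_oneThirtyOne : ∑ i ∈ Finset.range 13, ((80 : ℤ) : ZMod 131) ^ i = 0 := by decide


theorem root_oneFiftySeven : ∑ i ∈ Finset.range 13, ((75 : ℤ) : ZMod 157) ^ i = 0 := by decide


section instances

variable (K : Type*) [Field K] [NumberField K] [IsCyclotomicExtension {13} ℚ K]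

local notation "z" => zeta13 K

theorem aeval_X_sub_C_int (c : ℤ) : aeval (zeta13 K) (X - C c : ℤ[X]) = zeta13 K - (c : 𝓞 K) := by
  simp


theorem exists_principal_prime_over_fiftyThree :
    ∃ P ∈ primesOver (span {((53 : ℕ) : ℤ)}) (𝓞 K), Submodule.IsPrincipal P := by
  have : Fact (Nat.Prime 53) := ⟨by norm_num⟩
  have hz := zeta13_geom_sum K
  simp only [Finset.sum_range_succ, Finset.sum_range_zero, pow_zero, pow_one, zero_add] at hz
  have hmap : (X - C (36 : ℤ) : ℤ[X]).map (Int.castRingHom (ZMod 53)) =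
      X - C (((36 : ℤ) : ZMod 53)) := by
    rw [Polynomial.map_sub, Polynomial.map_X, Polynomial.map_C]; rfl
  refine exists_principal_prime_over K 53 (X - C (36 : ℤ)) ?_ ?_ ?_ (1 + z + z ^ 3) ?_ ?_ ?_
  · rw [hmap]; exact irreducible_X_sub_C _
  · rw [hmap]; exact monic_X_sub_C _
  · rw [hmap, dvd_iff_isRoot, cyclotomic_prime, IsRoot.def, eval_finsetSum]
    simp only [eval_pow, eval_X]
    exact root_fiftyThree
  · rw [Ideal.mem_span_singleton']
    refine ⟨1 - 24 * z - 35 * z ^ 2 - 25 * z ^ 3 - 10 * z ^ 4 - 14 * z ^ 5 - 20 * z ^ 6 - 29 * z ^ 7 - 16 * z ^ 8 - 23 * z ^ 9 - 7 * z ^ 10 - 36 * z ^ 11, ?_⟩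
    push_cast
    linear_combination (-52 + 29 * z - 36 * z ^ 2) * hz
  · rw [Ideal.mem_span_singleton']
    refine ⟨17 * z + 24 * z ^ 2 + 17 * z ^ 3 + 7 * z ^ 4 + 10 * z ^ 5 + 14 * z ^ 6 + 20 * z ^ 7 + 11 * z ^ 8 + 16 * z ^ 9 + 5 * z ^ 10 + 25 * z ^ 11, ?_⟩
    rw [aeval_X_sub_C_int]
    push_cast
    linear_combination (36 - 20 * z + 25 * z ^ 2) * hz
  · rw [Ideal.mem_span_pair]
    refine ⟨881, 1297 + 36 * z + z ^ 2, ?_⟩
    rw [aeval_X_sub_C_int]
    push_cast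
    ring


theorem exists_principal_prime_over_seventyNine :
    ∃ P ∈ primesOver (span {((79 : ℕ) : ℤ)}) (𝓞 K), Submodule.IsPrincipal P := by
  have : Fact (Nat.Prime 79) := ⟨by norm_num⟩
  have hz := zeta13_geom_sum K
  simp only [Finset.sum_range_succ, Finset.sum_range_zero, pow_zero, pow_one, zero_add] at hz
  have hmap : (X - C (64 : ℤ) : ℤ[X]).map (Int.castRingHom (ZMod 79)) =
      X - C (((64 : ℤ) : ZMod 79)) := by
    rw [Polynomial.map_sub, Polynomial.map_X, Polynomial.map_C]; rfl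
  refine exists_principal_prime_over K 79 (X - C (64 : ℤ)) ?_ ?_ ?_ (1 + z - z ^ 4) ?_ ?_ ?_
  · rw [hmap]; exact irreducible_X_sub_C _
  · rw [hmap]; exact monic_X_sub_C _
  · rw [hmap, dvd_iff_isRoot, cyclotomic_prime, IsRoot.def, eval_finsetSum]
    simp only [eval_pow, eval_X]
    exact root_seventyNine
  · rw [Ideal.mem_span_singleton']
    refine ⟨24 - 25 * z - 27 * z ^ 2 + 10 * z ^ 3 - 3 * z ^ 4 - 39 * z ^ 5 - 5 * z ^ 6 - 2 * z ^ 7 - 18 * z ^ 8 - 38 * z ^ 9 + 16 * z ^ 10 - 35 * z ^ 11, ?_⟩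
    push_cast
    linear_combination (-55 + 54 * z - 51 * z ^ 2 + 35 * z ^ 3) * hz
  · rw [Ideal.mem_span_singleton']
    refine ⟨-19 + 21 * z + 22 * z ^ 2 - 8 * z ^ 3 + 3 * z ^ 4 + 32 * z ^ 5 + 4 * z ^ 6 + 2 * z ^ 7 + 15 * z ^ 8 + 31 * z ^ 9 - 13 * z ^ 10 + 29 * z ^ 11, ?_⟩
    rw [aeval_X_sub_C_int]
    push_cast
    linear_combination (45 - 44 * z + 42 * z ^ 2 - 29 * z ^ 3) * hz
  · rw [Ideal.mem_span_pair]
    refine ⟨-212369, -262143 - 4096 * z - 64 * z ^ 2 - z ^ 3, ?_⟩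
    rw [aeval_X_sub_C_int]
    push_cast
    ring


theorem exists_principal_prime_over_oneThirtyOne :
    ∃ P ∈ primesOver (span {((131 : ℕ) : ℤ)}) (𝓞 K), Submodule.IsPrincipal P := by
  have : Fact (Nat.Prime 131) := ⟨by norm_num⟩
  have hz := zeta13_geom_sum K
  simp only [Finset.sum_range_succ, Finset.sum_range_zero, pow_zero, pow_one, zero_add] at hz
  have hmap : (X - C (80 : ℤ) : ℤ[X]).map (Int.castRingHom (ZMod 131)) =
      X - C (((80 : ℤ) : ZMod 131)) := by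
    rw [Polynomial.map_sub, Polynomial.map_X, Polynomial.map_C]; rfl
  refine exists_principal_prime_over K 131 (X - C (80 : ℤ)) ?_ ?_ ?_ (1 - z - z ^ 3) ?_ ?_ ?_
  · rw [hmap]; exact irreducible_X_sub_C _
  · rw [hmap]; exact monic_X_sub_C _
  · rw [hmap, dvd_iff_isRoot, cyclotomic_prime, IsRoot.def, eval_finsetSum]
    simp only [eval_pow, eval_X]
    exact root_oneThirtyOne
  · rw [Ideal.mem_span_singleton']
    refine ⟨111 + 78 * z + 17 * z ^ 2 + 67 * z ^ 3 + 84 * z ^ 4 + 40 * z ^ 5 + 46 * z ^ 6 + 69 * z ^ 7 + 48 * z ^ 8 + 33 * z ^ 9 + 41 * z ^ 10 + 28 * z ^ 11, ?_⟩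
    push_cast
    linear_combination (-20 - 13 * z - 28 * z ^ 2) * hz
  · rw [Ideal.mem_span_singleton']
    refine ⟨-68 - 47 * z - 10 * z ^ 2 - 41 * z ^ 3 - 51 * z ^ 4 - 24 * z ^ 5 - 28 * z ^ 6 - 42 * z ^ 7 - 29 * z ^ 8 - 20 * z ^ 9 - 25 * z ^ 10 - 17 * z ^ 11, ?_⟩
    rw [aeval_X_sub_C_int]
    push_cast
    linear_combination (12 + 8 * z + 17 * z ^ 2) * hz
  · rw [Ideal.mem_span_pair]
    refine ⟨-3909, -6401 - 80 * z - z ^ 2, ?_⟩
    rw [aeval_X_sub_C_int]
    push_cast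
    ring


theorem exists_principal_prime_over_oneFiftySeven :
    ∃ P ∈ primesOver (span {((157 : ℕ) : ℤ)}) (𝓞 K), Submodule.IsPrincipal P := by
  have : Fact (Nat.Prime 157) := ⟨by norm_num⟩
  have hz := zeta13_geom_sum K
  simp only [Finset.sum_range_succ, Finset.sum_range_zero, pow_zero, pow_one, zero_add] at hz
  have hmap : (X - C (75 : ℤ) : ℤ[X]).map (Int.castRingHom (ZMod 157)) =
      X - C (((75 : ℤ) : ZMod 157)) := by
    rw [Polynomial.map_sub, Polynomial.map_X, Polynomial.map_C]; rfl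
  refine exists_principal_prime_over K 157 (X - C (75 : ℤ)) ?_ ?_ ?_ (1 - z + z ^ 2 + z ^ 4) ?_ ?_ ?_
  · rw [hmap]; exact irreducible_X_sub_C _
  · rw [hmap]; exact monic_X_sub_C _
  · rw [hmap, dvd_iff_isRoot, cyclotomic_prime, IsRoot.def, eval_finsetSum]
    simp only [eval_pow, eval_X]
    exact root_oneFiftySeven
  · rw [Ideal.mem_span_singleton']
    refine ⟨89 + 86 * z + 42 * z ^ 2 + 77 * z ^ 3 + 67 * z ^ 4 + 25 * z ^ 5 + 37 * z ^ 6 + 56 * z ^ 7 + 73 * z ^ 8 + 113 * z ^ 9 + 124 * z ^ 10 + 76 * z ^ 11, ?_⟩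
    push_cast
    linear_combination (-68 + 65 * z + 48 * z ^ 2 + 76 * z ^ 3) * hz
  · rw [Ideal.mem_span_singleton']
    refine ⟨-43 - 41 * z - 20 * z ^ 2 - 37 * z ^ 3 - 32 * z ^ 4 - 12 * z ^ 5 - 18 * z ^ 6 - 27 * z ^ 7 - 35 * z ^ 8 - 54 * z ^ 9 - 59 * z ^ 10 - 36 * z ^ 11, ?_⟩
    rw [aeval_X_sub_C_int]
    push_cast
    linear_combination (32 - 31 * z - 23 * z ^ 2 - 36 * z ^ 3) * hz
  · rw [Ideal.mem_span_pair]
    refine ⟨201568, 421949 + 5626 * z + 75 * z ^ 2 + z ^ 3, ?_⟩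
    rw [aeval_X_sub_C_int]
    push_cast
    ring


theorem exists_principal_prime_over_three :
    ∃ P ∈ primesOver (span {((3 : ℕ) : ℤ)}) (𝓞 K), Submodule.IsPrincipal P := by
  have : Fact (Nat.Prime 3) := ⟨by norm_num⟩
  have hz := zeta13_geom_sum K
  simp only [Finset.sum_range_succ, Finset.sum_range_zero, pow_zero, pow_one, zero_add] at hz
  have hmap : (X ^ 3 - X - 1 : ℤ[X]).map (Int.castRingHom (ZMod 3)) = X ^ 3 - X - 1 := by
    simp
  have haeval : aeval (zeta13 K) (X ^ 3 - X - 1 : ℤ[X]) = z ^ 3 - z - 1 := by simp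
  refine exists_principal_prime_over K 3 (X ^ 3 - X - 1) ?_ ?_ ?_ (1 + z - z ^ 3) ?_ ?_ ?_
  · rw [hmap]; exact Q3_irreducible
  · rw [hmap]; exact Q3_monic
  · rw [hmap]; exact Q3_dvd
  · rw [Ideal.mem_span_singleton']
    refine ⟨-1 - z ^ 2 - z ^ 3 - 2 * z ^ 5 - z ^ 7 - 2 * z ^ 8 + z ^ 9 - 3 * z ^ 10, ?_⟩
    push_cast
    linear_combination (-4 + 3 * z) * hz
  · rw [Ideal.mem_span_singleton', haeval]
    exact ⟨-1, by ring⟩
  · rw [Ideal.mem_span_pair, haeval]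
    exact ⟨0, -1, by ring⟩

end instances



section main

variable (K : Type*) [Field K] [NumberField K] [IsCyclotomicExtension {13} ℚ K]

theorem minkowski_floor_le :
    ⌊(4 / Real.pi) ^ InfinitePlace.nrComplexPlaces K *
        ((Module.finrank ℚ K).factorial / (Module.finrank ℚ K) ^ Module.finrank ℚ K *
          √|(NumberField.discr K : ℝ)|)⌋₊ ≤ 307 := by
  rw [discr_prime 13 K, IsCyclotomicExtension.finrank (n := 13) K
    (cyclotomic.irreducible_rat (by norm_num)),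
    nrComplexPlaces_eq_totient_div_two 13, Nat.totient_prime (by norm_num)]
  refine Nat.le_of_lt_succ ((Nat.floor_lt (by positivity)).2 ?_)
  have hpi : (4 / Real.pi) ^ ((13 - 1) / 2) < (4 / 3.14 : ℝ) ^ 6 := by
    have h1 : (4 / Real.pi) < (4 / 3.14 : ℝ) := by
      apply div_lt_div_of_pos_left (by norm_num) (by norm_num) Real.pi_gt_d2
    have h0 : (0 : ℝ) ≤ 4 / Real.pi := by positivity
    show (4 / Real.pi) ^ 6 < (4 / 3.14 : ℝ) ^ 6
    exact pow_lt_pow_left₀ h1 h0 (by norm_num)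
  have hsqrt : √|(((-1) ^ ((13 - 1) / 2) * (13 : ℕ) ^ (13 - 2) : ℤ) : ℝ)| < 1338716 := by
    rw [Real.sqrt_lt' (by norm_num)]
    norm_num
  have hfac : (((13 - 1 : ℕ).factorial : ℝ) / ((13 - 1 : ℕ) : ℝ) ^ (13 - 1)) = 479001600 / 12 ^ 12 := by
    norm_num [Nat.factorial]
  rw [hfac]
  calc (4 / Real.pi) ^ ((13 - 1) / 2) * (479001600 / 12 ^ 12 *
        √|(((-1) ^ ((13 - 1) / 2) * (13 : ℕ) ^ (13 - 2) : ℤ) : ℝ)|)
      ≤ (4 / 3.14 : ℝ) ^ 6 * (479001600 / 12 ^ 12 * 1338716) := by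
        gcongr
    _ < ((307 + 1 : ℕ) : ℝ) := by norm_num


/-- Table of multiplicative orders modulo 13. -/
def ordTab : ℕ → ℕ
  | 1 => 1 | 2 => 12 | 3 => 3 | 4 => 6 | 5 => 4 | 6 => 12
  | 7 => 12 | 8 => 4 | 9 => 3 | 10 => 6 | 11 => 12 | 12 => 2
  | _ => 0

theorem orderOf_eq_ordTab (r : ℕ) (h0 : 0 < r) (h13 : r < 13) :
    orderOf ((r : ℕ) : ZMod 13) = ordTab r := by
  interval_cases r <;> exact (orderOf_eq_iff (by norm_num [ordTab])).2 (by decide)

theorem orderOf_natCast_eq (p : ℕ) (hp : ¬ 13 ∣ p) :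
    orderOf ((p : ℕ) : ZMod 13) = ordTab (p % 13) := by
  rw [← ZMod.natCast_mod p 13]
  exact orderOf_eq_ordTab _ (Nat.pos_of_ne_zero fun h => hp (Nat.dvd_of_mod_eq_zero h))
    (Nat.mod_lt _ (by norm_num))

set_option maxRecDepth 100000 in
theorem prime_cases : ∀ p ∈ Finset.Icc 1 307, p.Prime →
    p = 3 ∨ p = 13 ∨ p = 53 ∨ p = 79 ∨ p = 131 ∨ p = 157 ∨ 307 < p ^ ordTab (p % 13) := by
  decide

/-- The ring of integers of the 13-th cyclotomic field is a principal ideal domain. -/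
theorem pid_thirteen_aux : IsPrincipalIdealRing (𝓞 K) := by
  have : IsGalois ℚ K := IsCyclotomicExtension.isGalois {13} ℚ K
  apply RingOfIntegers.isPrincipalIdealRing_of_isPrincipal_of_lt_or_isPrincipal_of_mem_primesOver_of_mem_Icc
  intro p hp hpp
  have hB := minkowski_floor_le K
  have hp307 : p ∈ Finset.Icc 1 307 := by
    rw [Finset.mem_Icc] at hp ⊢
    exact ⟨hp.1, hp.2.trans hB⟩
  rcases prime_cases p hp307 hpp with rfl | rfl | rfl | rfl | rfl | rfl | hlt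
  · obtain ⟨P, hP, hprin⟩ := exists_principal_prime_over_three K
    exact ⟨P, hP, Or.inr hprin⟩
  · obtain ⟨⟨P, hP1, hP2⟩⟩ := (span {((13 : ℕ) : ℤ)}).nonempty_primesOver (S := 𝓞 K)
    refine ⟨P, ⟨hP1, hP2⟩, Or.inr ?_⟩
    rw [eq_span_zeta_sub_one_of_liesOver' 13 K (IsCyclotomicExtension.zeta_spec 13 ℚ K) P]
    exact ⟨⟨_, rfl⟩⟩
  · obtain ⟨P, hP, hprin⟩ := exists_principal_prime_over_fiftyThree K
    exact ⟨P, hP, Or.inr hprin⟩
  · obtain ⟨P, hP, hprin⟩ := exists_principal_prime_over_seventyNine K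
    exact ⟨P, hP, Or.inr hprin⟩
  · obtain ⟨P, hP, hprin⟩ := exists_principal_prime_over_oneThirtyOne K
    exact ⟨P, hP, Or.inr hprin⟩
  · obtain ⟨P, hP, hprin⟩ := exists_principal_prime_over_oneFiftySeven K
    exact ⟨P, hP, Or.inr hprin⟩
  · have hfact : Fact p.Prime := ⟨hpp⟩
    have hp13 : ¬ p ∣ 13 := by
      intro h
      have h13 : p = 13 := ((Nat.prime_dvd_prime_iff_eq hpp (by norm_num)).1 h)
      subst h13
      simp [ordTab] at hlt
    have h13p : ¬ 13 ∣ p := by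
      intro h
      have h13 : 13 = p := ((Nat.prime_dvd_prime_iff_eq (by norm_num) hpp).1 h)
      exact hp13 (h13 ▸ dvd_rfl)
    obtain ⟨⟨P, hP1, hP2⟩⟩ := (span {(p : ℤ)}).nonempty_primesOver (S := 𝓞 K)
    refine ⟨P, ⟨hP1, hP2⟩, Or.inl ?_⟩
    rw [inertiaDeg_eq_of_not_dvd p K P hp13, orderOf_natCast_eq p h13p]
    exact lt_of_le_of_lt hB hlt

end main

end Fermat.Agent.FLTSmall.PID13

namespace Fermat.Agent.FLTSmall

/-- **WP4b**: the ring of integers of the 13-th cyclotomic field is a principal ideal domain. -/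
theorem pid_thirteen (K : Type*) [Field K] [NumberField K] [IsCyclotomicExtension {13} ℚ K] :
    IsPrincipalIdealRing (NumberField.RingOfIntegers K) :=
  PID13.pid_thirteen_aux K

end Fermat.Agent.FLTSmall
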