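import Mathlib

set_option autoImplicit false

/-!
# `ℤ[ζ₇]` is a principal ideal domain

`Fermat.Agent.FLTSmall.pid_seven`.  Method: Minkowski bound `M K < 5` and the Galois criterion
`RingOfIntegers.isPrincipalIdealRing_of_isPrincipal_of_lt_or_isPrincipal_of_mem_primesOver_of_mem_Icc`,
with inertia degrees of `2` and `3` equal to `3` and `6`.
-/

namespace Fermat.Agent.FLTSmall

open NumberField Module NumberField.InfinitePlace Nat Real Ideal IsCyclotomicExtension.Rat

/-- Reusable: every prime `q ≠ m` (not dividing `m`) has a prime above it in `ℚ(ζₘ)` whose inertia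
degree is `orderOf (q : ZMod m)`. -/
theorem exists_primesOver_inertiaDeg_eq_orderOf (m : ℕ) [NeZero m] (K : Type*) [Field K]
    [NumberField K] [IsCyclotomicExtension {m} ℚ K] (q : ℕ) [Fact q.Prime] (hq : ¬ q ∣ m) :
    ∃ P ∈ primesOver (span {(q : ℤ)}) (𝓞 K), P.inertiaDeg ℤ = orderOf (q : ZMod m) := by
  obtain ⟨⟨P, hP1, hP2⟩⟩ := (span {(q : ℤ)}).nonempty_primesOver (S := 𝓞 K)
  exact ⟨P, ⟨hP1, hP2⟩, inertiaDeg_eq_of_not_dvd q K P hq⟩

theorem orderOf_two_zmod_seven : orderOf (2 : ZMod 7) = 3 := by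
  have : Fact (Nat.Prime 3) := ⟨Nat.prime_three⟩
  exact orderOf_eq_prime (by decide) (by decide)

theorem orderOf_three_zmod_seven : orderOf (3 : ZMod 7) = 6 := by
  rw [orderOf_eq_iff (by norm_num)]
  refine ⟨by decide, fun m hm hm0 => ?_⟩
  interval_cases m <;> decide

/-- The Minkowski bound of `ℚ(ζ₇)` is `< 5`. -/
theorem minkowski_bound_seven_lt (K : Type*) [Field K] [NumberField K]
    [IsCyclotomicExtension {7} ℚ K] :
    (4 / π) ^ nrComplexPlaces K *
      ((finrank ℚ K)! / (finrank ℚ K) ^ (finrank ℚ K) * √|discr K|) < 5 := by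
  have : Fact (Nat.Prime 7) := ⟨by norm_num⟩
  rw [discr_prime 7 K, IsCyclotomicExtension.finrank (n := 7) K
    (Polynomial.cyclotomic.irreducible_rat (by norm_num)), nrComplexPlaces_eq_totient_div_two 7,
    totient_prime (by norm_num)]
  have h6 : (7 - 1) / 2 = 3 := by norm_num
  have h6' : 7 - 1 = 6 := by norm_num
  rw [h6, h6']
  have hfact : (6 ! : ℝ) = 720 := by
    norm_num [Nat.factorial]
  have hdisc : |(((-1 : ℤ) ^ 3 * ((7 : ℕ) : ℤ) ^ (7 - 2) : ℤ) : ℝ)| = 16807 := by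
    norm_num
  rw [hfact, hdisc]
  have hsqrt : √(16807 : ℝ) < 130 := by
    rw [Real.sqrt_lt' (by norm_num)]
    norm_num
  have hpi : (4 / π) ^ 3 < (4 / 3) ^ 3 := by
    gcongr
    exact pi_gt_three
  have hpos : (0 : ℝ) < 4 / π := by positivity
  calc (4 / π) ^ 3 * (720 / ((6 : ℕ) : ℝ) ^ 6 * √16807)
      < (4 / 3) ^ 3 * (720 / ((6 : ℕ) : ℝ) ^ 6 * 130) := by
        gcongr
    _ < 5 := by norm_num

/-- If `IsCyclotomicExtension {7} ℚ K` then `𝓞 K` is a principal ideal domain. -/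
theorem pid_seven (K : Type*) [Field K] [NumberField K] [IsCyclotomicExtension {7} ℚ K] :
    IsPrincipalIdealRing (𝓞 K) := by
  have : IsGalois ℚ K := IsCyclotomicExtension.isGalois {7} ℚ K
  have hM := minkowski_bound_seven_lt K
  have hfloor : ⌊(4 / π) ^ nrComplexPlaces K *
      ((finrank ℚ K)! / (finrank ℚ K) ^ (finrank ℚ K) * √|discr K|)⌋₊ ≤ 4 := by
    have := Nat.floor_lt' (n := 5) (by norm_num) |>.mpr hM
    omega
  refine RingOfIntegers.isPrincipalIdealRing_of_isPrincipal_of_lt_or_isPrincipal_of_mem_primesOver_of_mem_Icc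
    (fun p hpmem hp => ?_)
  have hp4 : p ≤ 4 := (Finset.mem_Icc.mp hpmem).2.trans hfloor
  have hp23 : p = 2 ∨ p = 3 := by
    interval_cases p
    · exact absurd hp (by decide)
    · exact absurd hp (by decide)
    · exact Or.inl rfl
    · exact Or.inr rfl
    · exact absurd hp (by decide)
  rcases hp23 with rfl | rfl
  · have : Fact (Nat.Prime 2) := ⟨Nat.prime_two⟩
    obtain ⟨P, hP, hdeg⟩ := exists_primesOver_inertiaDeg_eq_orderOf 7 K 2 (by norm_num)
    refine ⟨P, hP, Or.inl ?_⟩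
    have h2 : ((2 : ℕ) : ZMod 7) = 2 := by norm_num
    rw [hdeg, h2, orderOf_two_zmod_seven]
    exact lt_of_le_of_lt hfloor (by norm_num)
  · have : Fact (Nat.Prime 3) := ⟨Nat.prime_three⟩
    obtain ⟨P, hP, hdeg⟩ := exists_primesOver_inertiaDeg_eq_orderOf 7 K 3 (by norm_num)
    refine ⟨P, hP, Or.inl ?_⟩
    have h3 : ((3 : ℕ) : ZMod 7) = 3 := by norm_num
    rw [hdeg, h3, orderOf_three_zmod_seven]
    exact lt_of_le_of_lt hfloor (by norm_num)

end Fermat.Agent.FLTSmall
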