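/-
FLTSmall project (towards S10, S11): glue.
There is no Frey package with exponent `p`, as soon as Case I holds for it, `𝓞 ℚ(ζ_p)` is a PID
and Kummer's lemma holds for `p`.
-/
import Mathlib
import Fermat.Prelude.Def_FLTPrelim_FreyPackage
import Fermat.Agent.FLTSmall.CaseII
import Fermat.Agent.FLTSmall.FreyCaseI
import Fermat.Agent.FLTSmall.PID7
import Fermat.Agent.FLTSmall.PID11
import Fermat.Agent.FLTSmall.PID13

set_option autoImplicit false

namespace Fermat.Agent.FLTSmall

open NumberField

/-- Generic glue: no Frey package with exponent `p` if `p ∣ a * b * c` (Case I excluded),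
`𝓞 K` is a PID for `K = ℚ(ζ_p)` and Kummer's lemma holds. -/
theorem FreyPackage.false_of_caseII {p : ℕ} [Fact p.Prime] (hodd : p ≠ 2) (K : Type*) [Field K]
    [NumberField K] [IsCyclotomicExtension {p} ℚ K] [IsPrincipalIdealRing (𝓞 K)]
    (hKL : KummerLemma p K) (P : FreyPackage) (hP : P.p = p)
    (hI : (P.p : ℤ) ∣ P.a * P.b * P.c) : False := by
  subst hP
  exact caseII hodd K hKL P.a P.b P.c P.habc0 (SG.FreyPackage_isCoprime_ab P) hI P.hFLT

theorem fact_prime_five : Fact (Nat.Prime 5) := ⟨by norm_num⟩
theorem fact_prime_seven : Fact (Nat.Prime 7) := ⟨by norm_num⟩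
theorem fact_prime_eleven : Fact (Nat.Prime 11) := ⟨by norm_num⟩
theorem fact_prime_thirteen : Fact (Nat.Prime 13) := ⟨by norm_num⟩

attribute [local instance] fact_prime_five fact_prime_seven fact_prime_eleven fact_prime_thirteen

theorem isCyclotomicExtension_five : IsCyclotomicExtension {5} ℚ (CyclotomicField 5 ℚ) :=
  CyclotomicField.isCyclotomicExtension 5 ℚ
theorem isCyclotomicExtension_seven : IsCyclotomicExtension {7} ℚ (CyclotomicField 7 ℚ) :=
  CyclotomicField.isCyclotomicExtension 7 ℚ
theorem isCyclotomicExtension_eleven : IsCyclotomicExtension {11} ℚ (CyclotomicField 11 ℚ) :=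
  CyclotomicField.isCyclotomicExtension 11 ℚ
theorem isCyclotomicExtension_thirteen : IsCyclotomicExtension {13} ℚ (CyclotomicField 13 ℚ) :=
  CyclotomicField.isCyclotomicExtension 13 ℚ

attribute [local instance] isCyclotomicExtension_five isCyclotomicExtension_seven
  isCyclotomicExtension_eleven isCyclotomicExtension_thirteen

/-- No Frey package with exponent `11`, given Kummer's lemma for `11`. -/
theorem FreyPackage.false_of_eleven (hKL : KummerLemma 11 (CyclotomicField 11 ℚ))
    (P : FreyPackage) (hp : P.p = 11) : False := by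
  have : IsPrincipalIdealRing (𝓞 (CyclotomicField 11 ℚ)) := PIDTools.pid_eleven _
  exact FreyPackage.false_of_caseII (p := 11) (by norm_num) (CyclotomicField 11 ℚ) hKL P hp
    (SG.FreyPackage_caseI P (Or.inr (Or.inr (Or.inl hp))))

/-- No Frey package with exponent `5`, `7` or `13`, given Kummer's lemma for these primes. -/
theorem FreyPackage.false_of_small (hKL5 : KummerLemma 5 (CyclotomicField 5 ℚ))
    (hKL7 : KummerLemma 7 (CyclotomicField 7 ℚ))
    (hKL13 : KummerLemma 13 (CyclotomicField 13 ℚ))
    (P : FreyPackage) (hp : P.p = 5 ∨ P.p = 7 ∨ P.p = 13) : False := by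
  rcases hp with hp | hp | hp
  · have : IsPrincipalIdealRing (𝓞 (CyclotomicField 5 ℚ)) :=
      IsCyclotomicExtension.Rat.five_pid _
    exact FreyPackage.false_of_caseII (p := 5) (by norm_num) (CyclotomicField 5 ℚ) hKL5 P hp
      (SG.FreyPackage_caseI P (Or.inl hp))
  · have : IsPrincipalIdealRing (𝓞 (CyclotomicField 7 ℚ)) := pid_seven _
    exact FreyPackage.false_of_caseII (p := 7) (by norm_num) (CyclotomicField 7 ℚ) hKL7 P hp
      (SG.FreyPackage_caseI P (Or.inr (Or.inl hp)))
  · have : IsPrincipalIdealRing (𝓞 (CyclotomicField 13 ℚ)) := pid_thirteen _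
    exact FreyPackage.false_of_caseII (p := 13) (by norm_num) (CyclotomicField 13 ℚ) hKL13 P hp
      (SG.FreyPackage_caseI P (Or.inr (Or.inr (Or.inr hp))))

end Fermat.Agent.FLTSmall
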