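/-
FLTSmall project, WP3a: a criterion for a unit to be a `p`-th power.

If a commutative group `E` is generated by `n` elements and `ψ : E →* (ZMod p)^n` is a surjective
homomorphism, then the kernel of `ψ` consists exactly of `p`-th powers.  Applied to the unit group
of a number field via Dirichlet's unit theorem (`n = rank K + 1`).
-/
import Mathlib
import Fermat.Agent.FLTSmall.Defs

set_option autoImplicit false

namespace Fermat.Agent.FLTSmall

open NumberField

section Abstract

variable {E : Type*} [CommGroup E] {n : ℕ}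

/-- The homomorphism `ℤ^n → E`, `e ↦ ∏ g_i ^ e_i`. -/
def genHom (g : Fin n → E) : Multiplicative (Fin n → ℤ) →* E where
  toFun e := ∏ i, g i ^ (Multiplicative.toAdd e i)
  map_one' := by simp
  map_mul' a b := by simp [zpow_add, Finset.prod_mul_distrib]

lemma genHom_apply (g : Fin n → E) (e : Fin n → ℤ) :
    genHom g (Multiplicative.ofAdd e) = ∏ i, g i ^ e i := rfl

lemma genHom_single (g : Fin n → E) (i : Fin n) :
    genHom g (Multiplicative.ofAdd (Pi.single i 1)) = g i := by
  rw [genHom_apply, Finset.prod_eq_single i]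
  · simp
  · intro j _ hj
    simp [Pi.single_eq_of_ne hj]
  · intro h; exact absurd (Finset.mem_univ i) h

lemma genHom_surjective (g : Fin n → E) (hg : Subgroup.closure (Set.range g) = ⊤) :
    Function.Surjective (genHom g) := by
  rw [← MonoidHom.range_eq_top, eq_top_iff, ← hg, Subgroup.closure_le]
  rintro _ ⟨i, rfl⟩
  exact ⟨_, genHom_single g i⟩

lemma genHom_smul (g : Fin n → E) (p : ℕ) (e : Fin n → ℤ) :
    genHom g (Multiplicative.ofAdd ((p : ℤ) • e)) = (genHom g (Multiplicative.ofAdd e)) ^ p := by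
  rw [genHom_apply, genHom_apply, ← Finset.prod_pow]
  refine Finset.prod_congr rfl fun i _ => ?_
  rw [Pi.smul_apply, smul_eq_mul, mul_comm, zpow_mul, zpow_natCast]

/-- **Criterion for `p`-th powers.**  If the commutative group `E` is generated by `n` elements
`g 0, …, g (n-1)` and `ψ : E →* (ZMod p)^ι` is surjective with `|ι| = n`, then every element of the
kernel of `ψ` is a `p`-th power. -/
theorem exists_pow_eq_of_map_eq_one (g : Fin n → E) (hg : Subgroup.closure (Set.range g) = ⊤)
    {ι : Type*} [Fintype ι] (hι : Fintype.card ι = n) {p : ℕ} [Fact p.Prime]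
    (ψ : E →* Multiplicative (ι → ZMod p)) (hψ : Function.Surjective ψ)
    {u : E} (hu : ψ u = 1) : ∃ v : E, u = v ^ p := by
  classical
  -- the additive map `f : ℤ^n → (ZMod p)^ι`
  let f : (Fin n → ℤ) →+ (ι → ZMod p) :=
    AddMonoidHom.mk' (fun e => Multiplicative.toAdd (ψ (genHom g (Multiplicative.ofAdd e))))
      (fun a b => by
        rw [ofAdd_add, map_mul, map_mul, toAdd_mul])
  have hf_surj : Function.Surjective f := by
    intro t
    obtain ⟨x, hx⟩ := hψ (Multiplicative.ofAdd t)
    obtain ⟨e, he⟩ := genHom_surjective g hg x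
    refine ⟨Multiplicative.toAdd e, ?_⟩
    show Multiplicative.toAdd (ψ (genHom g (Multiplicative.ofAdd (Multiplicative.toAdd e)))) = t
    rw [ofAdd_toAdd, he, hx, toAdd_ofAdd]
  -- the `ZMod p`-linear map `L`
  let w : Fin n → (ι → ZMod p) := fun i => f (Pi.single i 1)
  let L : (Fin n → ZMod p) →ₗ[ZMod p] (ι → ZMod p) := Fintype.linearCombination (ZMod p) w
  have hfL : ∀ e : Fin n → ℤ, f e = L (fun i => (e i : ZMod p)) := by
    intro e
    have h1 := LinearMap.pi_apply_eq_sum_univ f.toIntLinearMap e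
    have h2 : ∀ i : Fin n, (fun j => if i = j then (1 : ℤ) else 0) = Pi.single i 1 := by
      intro i; funext j
      by_cases hij : i = j
      · subst hij; simp
      · simp [hij]
    simp only [AddMonoidHom.coe_toIntLinearMap, h2] at h1
    rw [h1, Fintype.linearCombination_apply]
    refine Finset.sum_congr rfl fun i _ => ?_
    rw [Int.cast_smul_eq_zsmul]
  have hL_surj : Function.Surjective L := by
    intro t
    obtain ⟨e, he⟩ := hf_surj t
    exact ⟨_, (hfL e).symm.trans he⟩
  have hrank : Module.finrank (ZMod p) (Fin n → ZMod p) = Module.finrank (ZMod p) (ι → ZMod p) := by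
    rw [Module.finrank_fintype_fun_eq_card, Module.finrank_fintype_fun_eq_card, Fintype.card_fin, hι]
  have hL_inj : Function.Injective L :=
    (LinearMap.injective_iff_surjective_of_finrank_eq_finrank hrank).mpr hL_surj
  -- now use it
  obtain ⟨e, he⟩ := genHom_surjective g hg u
  have hfe : f (Multiplicative.toAdd e) = 0 := by
    show Multiplicative.toAdd (ψ (genHom g (Multiplicative.ofAdd (Multiplicative.toAdd e)))) = 0
    rw [ofAdd_toAdd, he, hu, toAdd_one]
  have hzero : (fun i => ((Multiplicative.toAdd e i : ℤ) : ZMod p)) = 0 := by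
    apply hL_inj
    rw [← hfL, hfe, map_zero]
  have hdvd : ∀ i, (p : ℤ) ∣ Multiplicative.toAdd e i := fun i =>
    (ZMod.intCast_zmod_eq_zero_iff_dvd _ p).mp (congrFun hzero i)
  choose e' he' using hdvd
  refine ⟨genHom g (Multiplicative.ofAdd e'), ?_⟩
  rw [← genHom_smul, ← he]
  congr 1
  apply Multiplicative.toAdd.injective
  funext i
  simp [he' i]

/-- Surjectivity of `ψ : E →* (ZMod p)^n` from a family of elements whose images form an
invertible matrix. -/
theorem surjective_of_matrix {ι : Type*} [Fintype ι] [DecidableEq ι] {p : ℕ} [Fact p.Prime]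
    (ψ : E →* Multiplicative (ι → ZMod p)) (u : ι → E)
    (M N : Matrix ι ι (ZMod p)) (hM : ∀ i j, Multiplicative.toAdd (ψ (u i)) j = M i j)
    (hNM : N * M = 1) : Function.Surjective ψ := by
  intro t
  -- coefficients `c = t ᵥ* N`, so that `c ᵥ* M = t`
  let c : ι → ZMod p := Matrix.vecMul (Multiplicative.toAdd t) N
  refine ⟨∏ i, u i ^ (c i).val, ?_⟩
  apply Multiplicative.toAdd.injective
  rw [map_prod, toAdd_prod]
  funext j
  rw [Finset.sum_apply]
  have h1 : ∀ i, Multiplicative.toAdd (ψ (u i ^ (c i).val)) j = c i * M i j := by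
    intro i
    rw [map_pow, toAdd_pow, Pi.smul_apply, hM, nsmul_eq_mul, ZMod.natCast_val, ZMod.cast_id]
  simp only [h1]
  have h2 : Matrix.vecMul c M = Multiplicative.toAdd t := by
    show Matrix.vecMul (Matrix.vecMul (Multiplicative.toAdd t) N) M = _
    rw [Matrix.vecMul_vecMul, hNM, Matrix.vecMul_one]
  have h3 := congrFun h2 j
  simpa [Matrix.vecMul, dotProduct] using h3

end Abstract

section NumberField

variable (K : Type*) [Field K] [NumberField K]

/-- Dirichlet's unit theorem: the unit group of `𝓞 K` is generated by `rank K + 1` elements. -/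
theorem exists_units_generators :
    ∃ g : Fin (Units.rank K + 1) → (𝓞 K)ˣ, Subgroup.closure (Set.range g) = ⊤ := by
  obtain ⟨ζ, hζ⟩ := IsCyclic.exists_generator (α := Units.torsion K)
  refine ⟨Fin.cons (ζ : (𝓞 K)ˣ) (Units.fundSystem K), ?_⟩
  rw [eq_top_iff, ← Units.closure_fundSystem_sup_torsion_eq_top K, sup_le_iff]
  constructor
  · apply Subgroup.closure_mono
    rintro _ ⟨i, rfl⟩
    exact ⟨i.succ, by simp⟩
  · intro x hx
    obtain ⟨k, hk⟩ := Subgroup.mem_zpowers_iff.mp (hζ ⟨x, hx⟩)
    have hx' : x = (ζ : (𝓞 K)ˣ) ^ k := by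
      have := congrArg (Subtype.val) hk
      simpa using this.symm
    rw [hx']
    exact Subgroup.zpow_mem _ (Subgroup.subset_closure (Set.mem_range.mpr ⟨0, by simp⟩)) k

/-- **Kummer-type criterion.**  If `ψ : (𝓞 K)ˣ →* (ZMod p)^ι` is surjective with
`|ι| = rank K + 1`, then every unit in the kernel of `ψ` is a `p`-th power. -/
theorem unit_exists_pow_eq_of_map_eq_one {ι : Type*} [Fintype ι]
    (hι : Fintype.card ι = Units.rank K + 1) {p : ℕ} [Fact p.Prime]
    (ψ : (𝓞 K)ˣ →* Multiplicative (ι → ZMod p)) (hψ : Function.Surjective ψ)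
    {u : (𝓞 K)ˣ} (hu : ψ u = 1) : ∃ v : (𝓞 K)ˣ, u = v ^ p := by
  obtain ⟨g, hg⟩ := exists_units_generators K
  exact exists_pow_eq_of_map_eq_one g hg hι ψ hψ hu

/-- The version with `ι = Fin (rank K + 1)`. -/
theorem unit_exists_pow_eq_of_map_eq_one' {p : ℕ} [Fact p.Prime]
    (ψ : (𝓞 K)ˣ →* Multiplicative (Fin (Units.rank K + 1) → ZMod p)) (hψ : Function.Surjective ψ)
    {u : (𝓞 K)ˣ} (hu : ψ u = 1) : ∃ v : (𝓞 K)ˣ, u = v ^ p :=
  unit_exists_pow_eq_of_map_eq_one K (by simp) ψ hψ hu

/-- For the `p`-th cyclotomic field (`p` an odd prime), `rank K + 1 = (p - 1) / 2`. -/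
theorem rank_add_one_cyclotomic {p : ℕ} [Fact p.Prime] (hp : p ≠ 2)
    [IsCyclotomicExtension {p} ℚ K] : Units.rank K + 1 = (p - 1) / 2 := by
  have hp' : p.Prime := Fact.out
  have h2 : 2 < p := lt_of_le_of_ne hp'.two_le (Ne.symm hp)
  have : NeZero p := ⟨hp'.ne_zero⟩
  have hcard : Fintype.card (InfinitePlace K) = (p - 1) / 2 := by
    rw [InfinitePlace.card_eq_nrRealPlaces_add_nrComplexPlaces,
      IsCyclotomicExtension.Rat.nrRealPlaces_eq_zero K h2,
      IsCyclotomicExtension.Rat.nrComplexPlaces_eq_totient_div_two p K, zero_add,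
      Nat.totient_prime hp']
  have hpos : 0 < (p - 1) / 2 := by
    have : 5 ≤ p ∨ p = 3 := by
      rcases Nat.lt_or_ge p 5 with h | h
      · right
        interval_cases p
        · rfl
        · exact absurd hp' (by norm_num)
      · left; exact h
    omega
  rw [Units.rank, hcard]
  omega

/-- Kummer's lemma from a homomorphism `ψ : (𝓞 K)ˣ →* (ZMod p)^ι`, `|ι| = rank K + 1`, which is
surjective and kills the units congruent to a rational integer modulo `p`. -/
theorem kummerLemma_of_hom {ι : Type*} [Fintype ι]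
    (hι : Fintype.card ι = Units.rank K + 1) {p : ℕ} [Fact p.Prime]
    (ψ : (𝓞 K)ˣ →* Multiplicative (ι → ZMod p)) (hψ : Function.Surjective ψ)
    (hker : ∀ u : (𝓞 K)ˣ, (∃ n : ℤ, (p : 𝓞 K) ∣ (u : 𝓞 K) - n) → ψ u = 1) :
    KummerLemma p K :=
  fun _ hu => unit_exists_pow_eq_of_map_eq_one K hι ψ hψ (hker _ hu)

/-- Kummer's lemma for the `p`-th cyclotomic field from a homomorphism
`ψ : (𝓞 K)ˣ →* (ZMod p)^ι`, `|ι| = (p-1)/2`, which is surjective and kills the units congruent
to a rational integer modulo `p`. -/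
theorem kummerLemma_of_hom_cyclotomic {ι : Type*} [Fintype ι] {p : ℕ} [Fact p.Prime] (hp : p ≠ 2)
    [IsCyclotomicExtension {p} ℚ K] (hι : Fintype.card ι = (p - 1) / 2)
    (ψ : (𝓞 K)ˣ →* Multiplicative (ι → ZMod p)) (hψ : Function.Surjective ψ)
    (hker : ∀ u : (𝓞 K)ˣ, (∃ n : ℤ, (p : 𝓞 K) ∣ (u : 𝓞 K) - n) → ψ u = 1) :
    KummerLemma p K :=
  kummerLemma_of_hom K (hι.trans (rank_add_one_cyclotomic K hp).symm) ψ hψ hker

end NumberField

end Fermat.Agent.FLTSmall
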