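/-
FLTSmall project: Kummer's lemma for `p = 11` via the `dlog` coefficient toolkit (backup route).
-/
import Fermat.Agent.FLTSmall.DLogCoeff
import Fermat.Agent.FLTSmall.UnitsGen

set_option autoImplicit false

namespace Fermat.Agent.FLTSmall.KLB

open Fermat.Agent.FLTSmall NumberField Finset

instance fact_prime_eleven : Fact (Nat.Prime 11) := ⟨by norm_num⟩

theorem kummerLemma_eleven (K : Type*) [Field K] [NumberField K]
    [IsCyclotomicExtension {11} ℚ K] : KummerLemma 11 K := by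
  obtain ⟨ζ, hζ⟩ := IsCyclotomicExtension.exists_isPrimitiveRoot ℚ K (Set.mem_singleton 11)
    (by norm_num)
  have hp3 : 3 ≤ 11 := by norm_num
  refine kummerLemma_of_hom_cyclotomic K (by norm_num) (by simp)
    (psiHom hζ hp3 ![0, 1, 3, 5, 7]) ?_
    (fun u hu => psiHom_eq_one_of_dvd_sub_intCast hζ hp3 _ u hu)
  refine surjective_of_matrix _
    ![zetaUnit hζ, cycloUnit hζ 2 (by norm_num), cycloUnit hζ 3 (by norm_num), cycloUnit hζ 4 (by norm_num), cycloUnit hζ 5 (by norm_num)]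
    !![1, 10, 10, 10, 10; 6, 8, 2, 6, 7; 1, 7, 5, 7, 3; 7, 8, 8, 6, 0; 2, 0, 3, 6, 6]
    !![9, 6, 7, 0, 2; 1, 8, 7, 4, 2; 9, 0, 1, 3, 1; 0, 8, 5, 0, 1; 9, 1, 5, 4, 9]
    ?_ (by decide)
  intro i j
  rw [toAdd_psiHom_apply]
  have hks : ∀ j : Fin 5, (![0, 1, 3, 5, 7] : Fin 5 → ℕ) j < 11 - 2 := by decide
  fin_cases i
  · rw [show (![zetaUnit hζ, cycloUnit hζ 2 (by norm_num), cycloUnit hζ 3 (by norm_num), cycloUnit hζ 4 (by norm_num), cycloUnit hζ 5 (by norm_num)] : Fin 5 → (𝓞 K)ˣ)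
        ((fun i => i) ⟨0, by norm_num⟩) = zetaUnit hζ from rfl,
      tc_dlogHom_zetaUnit hζ hp3 (hks j)]
    fin_cases j <;> decide
  · rw [show (![zetaUnit hζ, cycloUnit hζ 2 (by norm_num), cycloUnit hζ 3 (by norm_num), cycloUnit hζ 4 (by norm_num), cycloUnit hζ 5 (by norm_num)] : Fin 5 → (𝓞 K)ˣ)
        ((fun i => i) ⟨1, by norm_num⟩) = cycloUnit hζ 2 (by norm_num) from rfl,
      tc_dlogHom_cycloUnit hζ hp3 2 (by norm_num)
        (fun k => ([6, 8, 7, 2, 10, 6, 8, 7, 2] : List (ZMod 11)).getD k 0) (by decide) (hks j)]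
    fin_cases j <;> decide
  · rw [show (![zetaUnit hζ, cycloUnit hζ 2 (by norm_num), cycloUnit hζ 3 (by norm_num), cycloUnit hζ 4 (by norm_num), cycloUnit hζ 5 (by norm_num)] : Fin 5 → (𝓞 K)ˣ)
        ((fun i => i) ⟨2, by norm_num⟩) = cycloUnit hζ 3 (by norm_num) from rfl,
      tc_dlogHom_cycloUnit hζ hp3 3 (by norm_num)
        (fun k => ([4, 7, 10, 6, 9, 0, 8, 3, 9] : List (ZMod 11)).getD k 0) (by decide) (hks j)]
    fin_cases j <;> decide
  · rw [show (![zetaUnit hζ, cycloUnit hζ 2 (by norm_num), cycloUnit hζ 3 (by norm_num), cycloUnit hζ 4 (by norm_num), cycloUnit hζ 5 (by norm_num)] : Fin 5 → (𝓞 K)ˣ)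
        ((fun i => i) ⟨3, by norm_num⟩) = cycloUnit hζ 4 (by norm_num) from rfl,
      tc_dlogHom_cycloUnit hζ hp3 4 (by norm_num)
        (fun k => ([3, 1, 1, 5, 5, 1, 6, 8, 1] : List (ZMod 11)).getD k 0) (by decide) (hks j)]
    fin_cases j <;> decide
  · rw [show (![zetaUnit hζ, cycloUnit hζ 2 (by norm_num), cycloUnit hζ 3 (by norm_num), cycloUnit hζ 4 (by norm_num), cycloUnit hζ 5 (by norm_num)] : Fin 5 → (𝓞 K)ˣ)
        ((fun i => i) ⟨4, by norm_num⟩) = cycloUnit hζ 5 (by norm_num) from rfl,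
      tc_dlogHom_cycloUnit hζ hp3 5 (by norm_num)
        (fun k => ([9, 4, 7, 2, 7, 5, 10, 0, 0] : List (ZMod 11)).getD k 0) (by decide) (hks j)]
    fin_cases j <;> decide

end Fermat.Agent.FLTSmall.KLB
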