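/-
FLTSmall project: Kummer's lemma for `p = 13` via the `dlog` coefficient toolkit (backup route).
-/
import Fermat.Agent.FLTSmall.DLogCoeff
import Fermat.Agent.FLTSmall.UnitsGen

set_option autoImplicit false

namespace Fermat.Agent.FLTSmall.KLB

open Fermat.Agent.FLTSmall NumberField Finset

instance fact_prime_thirteen : Fact (Nat.Prime 13) := ⟨by norm_num⟩

theorem kummerLemma_thirteen (K : Type*) [Field K] [NumberField K]
    [IsCyclotomicExtension {13} ℚ K] : KummerLemma 13 K := by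
  obtain ⟨ζ, hζ⟩ := IsCyclotomicExtension.exists_isPrimitiveRoot ℚ K (Set.mem_singleton 13)
    (by norm_num)
  have hp3 : 3 ≤ 13 := by norm_num
  refine kummerLemma_of_hom_cyclotomic K (by norm_num) (by simp)
    (psiHom hζ hp3 ![0, 1, 3, 5, 7, 9]) ?_
    (fun u hu => psiHom_eq_one_of_dvd_sub_intCast hζ hp3 _ u hu)
  refine surjective_of_matrix _
    ![zetaUnit hζ, cycloUnit hζ 2 (by norm_num), cycloUnit hζ 3 (by norm_num), cycloUnit hζ 4 (by norm_num), cycloUnit hζ 5 (by norm_num), cycloUnit hζ 6 (by norm_num)]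
    !![1, 12, 12, 12, 12, 12; 7, 3, 4, 1, 10, 9; 1, 4, 3, 2, 9, 10; 8, 3, 11, 1, 5, 9; 2, 0, 6, 2, 4, 3; 9, 8, 8, 1, 7, 7]
    !![1, 10, 12, 7, 4, 4; 3, 2, 12, 11, 2, 1; 3, 10, 2, 9, 2, 2; 9, 7, 4, 9, 7, 11; 7, 11, 0, 6, 1, 1; 4, 6, 7, 11, 5, 2]
    ?_ (by decide)
  intro i j
  rw [toAdd_psiHom_apply]
  have hks : ∀ j : Fin 6, (![0, 1, 3, 5, 7, 9] : Fin 6 → ℕ) j < 13 - 2 := by decide
  fin_cases i
  · rw [show (![zetaUnit hζ, cycloUnit hζ 2 (by norm_num), cycloUnit hζ 3 (by norm_num), cycloUnit hζ 4 (by norm_num), cycloUnit hζ 5 (by norm_num), cycloUnit hζ 6 (by norm_num)] : Fin 6 → (𝓞 K)ˣ)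
        ((fun i => i) ⟨0, by norm_num⟩) = zetaUnit hζ from rfl,
      tc_dlogHom_zetaUnit hζ hp3 (hks j)]
    fin_cases j <;> decide
  · rw [show (![zetaUnit hζ, cycloUnit hζ 2 (by norm_num), cycloUnit hζ 3 (by norm_num), cycloUnit hζ 4 (by norm_num), cycloUnit hζ 5 (by norm_num), cycloUnit hζ 6 (by norm_num)] : Fin 6 → (𝓞 K)ˣ)
        ((fun i => i) ⟨1, by norm_num⟩) = cycloUnit hζ 2 (by norm_num) from rfl,
      tc_dlogHom_cycloUnit hζ hp3 2 (by norm_num)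
        (fun k => ([7, 3, 5, 4, 11, 1, 6, 10, 8, 9, 2] : List (ZMod 13)).getD k 0) (by decide) (hks j)]
    fin_cases j <;> decide
  · rw [show (![zetaUnit hζ, cycloUnit hζ 2 (by norm_num), cycloUnit hζ 3 (by norm_num), cycloUnit hζ 4 (by norm_num), cycloUnit hζ 5 (by norm_num), cycloUnit hζ 6 (by norm_num)] : Fin 6 → (𝓞 K)ˣ)
        ((fun i => i) ⟨2, by norm_num⟩) = cycloUnit hζ 3 (by norm_num) from rfl,
      tc_dlogHom_cycloUnit hζ hp3 3 (by norm_num)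
        (fun k => ([9, 4, 6, 10, 1, 0, 4, 9, 7, 3, 12] : List (ZMod 13)).getD k 0) (by decide) (hks j)]
    fin_cases j <;> decide
  · rw [show (![zetaUnit hζ, cycloUnit hζ 2 (by norm_num), cycloUnit hζ 3 (by norm_num), cycloUnit hζ 4 (by norm_num), cycloUnit hζ 5 (by norm_num), cycloUnit hζ 6 (by norm_num)] : Fin 6 → (𝓞 K)ˣ)
        ((fun i => i) ⟨3, by norm_num⟩) = cycloUnit hζ 4 (by norm_num) from rfl,
      tc_dlogHom_cycloUnit hζ hp3 4 (by norm_num)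
        (fun k => ([10, 11, 6, 10, 12, 3, 7, 3, 4, 12, 0] : List (ZMod 13)).getD k 0) (by decide) (hks j)]
    fin_cases j <;> decide
  · rw [show (![zetaUnit hζ, cycloUnit hζ 2 (by norm_num), cycloUnit hζ 3 (by norm_num), cycloUnit hζ 4 (by norm_num), cycloUnit hζ 5 (by norm_num), cycloUnit hζ 6 (by norm_num)] : Fin 6 → (𝓞 K)ˣ)
        ((fun i => i) ⟨4, by norm_num⟩) = cycloUnit hζ 5 (by norm_num) from rfl,
      tc_dlogHom_cycloUnit hζ hp3 5 (by norm_num)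
        (fun k => ([8, 10, 3, 5, 1, 9, 3, 0, 3, 10, 2] : List (ZMod 13)).getD k 0) (by decide) (hks j)]
    fin_cases j <;> decide
  · rw [show (![zetaUnit hζ, cycloUnit hζ 2 (by norm_num), cycloUnit hζ 3 (by norm_num), cycloUnit hζ 4 (by norm_num), cycloUnit hζ 5 (by norm_num), cycloUnit hζ 6 (by norm_num)] : Fin 6 → (𝓞 K)ˣ)
        ((fun i => i) ⟨5, by norm_num⟩) = cycloUnit hζ 6 (by norm_num) from rfl,
      tc_dlogHom_cycloUnit hζ hp3 6 (by norm_num)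
        (fun k => ([11, 5, 5, 4, 4, 5, 6, 12, 0, 0, 0] : List (ZMod 13)).getD k 0) (by decide) (hks j)]
    fin_cases j <;> decide

end Fermat.Agent.FLTSmall.KLB
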