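/-
FLTSmall WP3c tools (helper2): Kummer's lemma from a "dual number" ring homomorphism
`D : 𝓞 K →+* R[ε]` (with `p = 0` in `R`), explicit units and an invertible matrix of
logarithmic-derivative coefficients.
-/
import Mathlib
import Fermat.Agent.FLTSmall.Defs
import Fermat.Agent.FLTSmall.UnitsGen
import Fermat.Agent.FLTSmall.CycloLocal

set_option autoImplicit false

namespace Fermat.Agent.FLTSmall.KL

open TrivSqZeroExt NumberField Finset

section generic

variable {S R : Type*} [CommRing S] [CommRing R]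

/-- The logarithmic derivative attached to a ring homomorphism into the dual numbers. -/
def dlogHom (D : S →+* TrivSqZeroExt R R) : Sˣ →* Multiplicative R where
  toFun u := Multiplicative.ofAdd (snd (D u) * fst (D ↑u⁻¹))
  map_one' := by simp
  map_mul' u v := by
    rw [← ofAdd_add]
    congr 1
    have hu : fst (D u) * fst (D ↑u⁻¹) = 1 := by
      rw [← fst_mul, ← map_mul, Units.mul_inv, map_one, fst_one]
    have hv : fst (D v) * fst (D ↑v⁻¹) = 1 := by
      rw [← fst_mul, ← map_mul, Units.mul_inv, map_one, fst_one]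
    simp only [Units.val_mul, mul_inv, map_mul, fst_mul, snd_mul, smul_eq_mul,
      MulOpposite.smul_eq_mul_unop, MulOpposite.unop_op]
    linear_combination (snd (D ↑v) * fst (D ↑v⁻¹)) * hu + (snd (D ↑u) * fst (D ↑u⁻¹)) * hv

lemma toAdd_dlogHom (D : S →+* TrivSqZeroExt R R) (u : Sˣ) :
    Multiplicative.toAdd (dlogHom D u) = snd (D u) * fst (D ↑u⁻¹) := rfl

/-- If `snd (D u) = c * fst (D u)` then the logarithmic derivative of `u` is `c`. -/
lemma toAdd_dlogHom_eq (D : S →+* TrivSqZeroExt R R) (u : Sˣ) (c : R)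
    (h : snd (D u) = c * fst (D u)) : Multiplicative.toAdd (dlogHom D u) = c := by
  have h1 : fst (D u) * fst (D ↑u⁻¹) = 1 := by
    rw [← fst_mul, ← map_mul, Units.mul_inv, map_one, fst_one]
  rw [toAdd_dlogHom, h, mul_assoc, h1, mul_one]

lemma fst_D_geom (D : S →+* TrivSqZeroExt R R) (x : S) (r : R) (hx : D x = inl r + inr 1)
    (a : ℕ) : fst (D (∑ j ∈ range a, x ^ j)) = ∑ j ∈ range a, r ^ j := by
  rw [map_sum, fst_sum]
  refine Finset.sum_congr rfl fun j _ => ?_
  rw [map_pow, hx, fst_pow]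
  simp

lemma snd_D_geom (D : S →+* TrivSqZeroExt R R) (x : S) (r : R) (hx : D x = inl r + inr 1)
    (a : ℕ) : snd (D (∑ j ∈ range a, x ^ j)) = ∑ j ∈ range a, (j : R) * r ^ (j - 1) := by
  rw [map_sum, snd_sum]
  refine Finset.sum_congr rfl fun j _ => ?_
  rw [map_pow, hx, snd_pow]
  simp

/-- If `p = 0` in `R` and `u ≡ n mod p` for an integer `n`, then `snd (D u) = 0`. -/
lemma snd_D_eq_zero_of_dvd (D : S →+* TrivSqZeroExt R R) {p : ℕ} (hp : (p : R) = 0) {x : S}
    {n : ℤ} (h : (p : S) ∣ x - n) : snd (D x) = 0 := by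
  obtain ⟨w, hw⟩ := h
  have hx : x = n + p * w := by rw [← hw]; ring
  rw [hx, map_add, map_mul, map_intCast, map_natCast, snd_add, snd_mul]
  simp [hp]

end generic

section cyclo

variable {p : ℕ} [Fact p.Prime] {K : Type*} [Field K] [NumberField K]
  [IsCyclotomicExtension {p} ℚ K] {R : Type*} [CommRing R]

/-- **Kummer's lemma from explicit data**: a ring hom `D : 𝓞 K →+* R[ε]` with `p = 0` in `R`,
an additive map `L : R →+ (ZMod p)^n` with `n = (p-1)/2`, units `u i` whose logarithmic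
derivatives are `c i`, and the matrix `M i j = L (c i) j` is invertible mod `p`. -/
theorem kummerLemma_of_D (hp2 : p ≠ 2) (D : 𝓞 K →+* TrivSqZeroExt R R) (hpR : (p : R) = 0)
    {n : ℕ} (hn : n = (p - 1) / 2) (L : R →+ (Fin n → ZMod p)) (u : Fin n → (𝓞 K)ˣ)
    (c : Fin n → R) (hc : ∀ i, snd (D (u i)) = c i * fst (D (u i)))
    (M N : Matrix (Fin n) (Fin n) (ZMod p)) (hM : ∀ i j, L (c i) j = M i j)
    (hNM : N * M = 1) : KummerLemma p K := by
  let ψ : (𝓞 K)ˣ →* Multiplicative (Fin n → ZMod p) :=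
    (AddMonoidHom.toMultiplicative L).comp (dlogHom D)
  have hψ : ∀ v : (𝓞 K)ˣ, Multiplicative.toAdd (ψ v) = L (Multiplicative.toAdd (dlogHom D v)) :=
    fun v => rfl
  refine kummerLemma_of_hom_cyclotomic K hp2 (by simp [hn]) ψ ?_ ?_
  · refine surjective_of_matrix ψ u M N (fun i j => ?_) hNM
    rw [hψ, toAdd_dlogHom_eq D (u i) (c i) (hc i), hM]
  · intro v hv
    obtain ⟨m, hm⟩ := hv
    have h0 : snd (D (v : 𝓞 K)) = 0 := snd_D_eq_zero_of_dvd D hpR hm
    have h1 : Multiplicative.toAdd (ψ v) = 0 := by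
      rw [hψ, toAdd_dlogHom, h0, zero_mul, map_zero]
    exact Multiplicative.toAdd.injective h1

end cyclo

end Fermat.Agent.FLTSmall.KL
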