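/-
FLTSmall WP3c (helper2): Kummer's lemma for the cyclotomic fields `ℚ(ζ_p)`, `p = 5, 7, 11, 13`.

For each `p` we exhibit the units `ζ, u_2, …, u_{(p-1)/2}` (`u_a = 1 + ζ + ⋯ + ζ^(a-1)`), the
coefficient vectors `c` of their logarithmic derivatives in `𝔽_p[X]/(X^(p-2))` (certified by
`linear_combination` with explicit cofactors) and an invertible `(p-1)/2 × (p-1)/2` minor.
Data generated by a Python script.
-/
import Mathlib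
import Fermat.Agent.FLTSmall.Defs
import Fermat.Agent.FLTSmall.UnitsGen
import Fermat.Agent.FLTSmall.CycloLocal
import Fermat.Agent.FLTSmall.DLog
import Fermat.Agent.FLTSmall.KLTools

set_option autoImplicit false

namespace Fermat.Agent.FLTSmall.KL

open TrivSqZeroExt NumberField Finset Polynomial

/-! ### Units -/

section units

variable {p : ℕ} [Fact p.Prime] {K : Type*} [Field K] [NumberField K]
  [IsCyclotomicExtension {p} ℚ K] {ζ : K} (hζ : IsPrimitiveRoot ζ p)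

lemma isUnit_geom_sum {a : ℕ} (ha : ¬ p ∣ a) :
    IsUnit (∑ j ∈ range a, hζ.toInteger ^ j) := by
  obtain ⟨v, hv⟩ := associated_sub_one_pow_sub_one hζ ha
  have h1 : (∑ j ∈ range a, hζ.toInteger ^ j) * (hζ.toInteger - 1) = hζ.toInteger ^ a - 1 :=
    geom_sum_mul _ _
  have hne : hζ.toInteger - 1 ≠ 0 := (prime_toInteger_sub_one hζ).ne_zero
  have h2 : (∑ j ∈ range a, hζ.toInteger ^ j) = v := by
    apply mul_right_cancel₀ hne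
    rw [h1, ← hv, mul_comm]
  rw [h2]
  exact v.isUnit

/-- the cyclotomic unit `1 + ζ + ⋯ + ζ^(a-1)` -/
noncomputable def cycloUnit (a : ℕ) (ha : ¬ p ∣ a) : (𝓞 K)ˣ := (isUnit_geom_sum hζ ha).unit

lemma coe_cycloUnit (a : ℕ) (ha : ¬ p ∣ a) :
    (cycloUnit hζ a ha : 𝓞 K) = ∑ j ∈ range a, hζ.toInteger ^ j := rfl

/-- `ζ` as a unit of `𝓞 K` -/
noncomputable def zetaUnit : (𝓞 K)ˣ :=
  (hζ.toInteger_isPrimitiveRoot.isUnit (NeZero.ne p)).unit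

omit [NumberField K] [IsCyclotomicExtension {p} ℚ K] in
lemma coe_zetaUnit : (zetaUnit hζ : 𝓞 K) = hζ.toInteger := rfl

end units

/-! ### The truncated ring data -/

section trunc

lemma truncRing_natCast_self (p : ℕ) : ((p : ℕ) : TruncRing p) = 0 := by
  rw [← map_natCast (truncMk p), ← map_natCast (C : ZMod p →+* (ZMod p)[X]), ZMod.natCast_self,
    map_zero, map_zero]

lemma truncXi_pow (p : ℕ) : (truncMk p X) ^ (p - 2) = 0 := by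
  rw [← map_pow]
  exact truncMk_X_pow p le_rfl

lemma truncCoeff_sum (p : ℕ) (k : Fin (p - 2)) (v : Fin (p - 2) → ℤ) :
    truncCoeff p k k.isLt (∑ m, ((v m : ℤ) : TruncRing p) * (truncMk p X) ^ (m : ℕ)) =
      ((v k : ℤ) : ZMod p) := by
  have h : (∑ m, ((v m : ℤ) : TruncRing p) * (truncMk p X) ^ (m : ℕ)) =
      truncMk p (∑ m, C ((v m : ℤ) : ZMod p) * X ^ (m : ℕ)) := by
    rw [map_sum]
    refine Finset.sum_congr rfl fun m _ => ?_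
    rw [map_mul, map_pow, map_intCast (C : ZMod p →+* (ZMod p)[X]), map_intCast (truncMk p)]
  rw [h, truncCoeff_mk, finsetSum_coeff]
  simp_rw [coeff_C_mul_X_pow]
  rw [Finset.sum_eq_single k]
  · simp
  · intro m _ hm
    rw [if_neg]
    exact fun h => hm (Fin.ext h.symm)
  · intro h
    exact absurd (Finset.mem_univ k) h

variable {p : ℕ} [Fact p.Prime] {K : Type*} [Field K] [NumberField K]
  [IsCyclotomicExtension {p} ℚ K] {ζ : K} (hζ : IsPrimitiveRoot ζ p)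

lemma jetHom_toInteger' (hp3 : 3 ≤ p) :
    (jetHom hζ hp3 : 𝓞 K →+* DualNumber (TruncRing p)) hζ.toInteger =
      inl (1 + truncMk p X) + inr 1 := by
  have h := jetHom_toInteger hζ hp3
  rw [dlogGen, map_add, map_one] at h
  exact h

end trunc

/-! ### p = 5 -/

section p5

/-- coefficient vectors of the logarithmic derivatives of `ζ, u_2, …, u_2` (p = 5) -/
def cv5 : Fin 2 → Fin 3 → ℤ :=
  ![![1, 4, 1],
    ![3, 1, 2]]

/-- the selected coefficient indices (p = 5) -/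
def sel5 : Fin 2 → Fin 3 := ![0, 1]

/-- the matrix of selected coefficients (p = 5) -/
def matM5 : Matrix (Fin 2) (Fin 2) (ZMod 5) :=
  !![1, 4; 3, 1]

/-- its inverse (p = 5) -/
def matN5 : Matrix (Fin 2) (Fin 2) (ZMod 5) :=
  !![4, 4; 3, 4]

lemma matN5_mul_matM5 : matN5 * matM5 = 1 := by decide

lemma cv5_sel5 : ∀ i j, ((cv5 i (sel5 j) : ℤ) : ZMod 5) = matM5 i j := by
  intro i j
  fin_cases i <;> fin_cases j <;> rfl

instance fact_prime_five : Fact (Nat.Prime 5) := ⟨by norm_num⟩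

variable {K : Type*} [Field K] [NumberField K] [IsCyclotomicExtension {5} ℚ K]
  {ζ : K} (hζ : IsPrimitiveRoot ζ 5) {R : Type*} [CommRing R]

theorem kummerLemma_five_of_D (D : 𝓞 K →+* TrivSqZeroExt R R) (ξ : R)
    (hD : D hζ.toInteger = inl (1 + ξ) + inr 1) (hpR : ((5 : ℕ) : R) = 0) (hξ : ξ ^ 3 = 0)
    (ℓ : Fin 3 → R →+ ZMod 5)
    (hℓ : ∀ (k : Fin 3) (v : Fin 3 → ℤ), ℓ k (∑ m, ((v m : ℤ) : R) * ξ ^ (m : ℕ)) = ((v k : ℤ) : ZMod 5)) :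
    KummerLemma 5 K := by
  have hp0 : (5 : R) = 0 := by exact_mod_cast hpR
  have d2 : ¬ 5 ∣ 2 := by norm_num
  let u : Fin 2 → (𝓞 K)ˣ := ![zetaUnit hζ, cycloUnit hζ 2 d2]
  let c : Fin 2 → R := fun i => ∑ m, ((cv5 i m : ℤ) : R) * ξ ^ (m : ℕ)
  let L : R →+ (Fin 2 → ZMod 5) := AddMonoidHom.pi fun j => ℓ (sel5 j)
  refine kummerLemma_of_D (by norm_num) D hpR (by norm_num) L u c ?_ matM5 matN5 ?_
    matN5_mul_matM5
  · intro i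
    fin_cases i
    · show snd (D (zetaUnit hζ : 𝓞 K)) = c 0 * fst (D (zetaUnit hζ : 𝓞 K))
      rw [coe_zetaUnit, hD]
      simp [c, cv5, Fin.sum_univ_succ]
      linear_combination ((-1) * ξ + (-1) * ξ ^ 2) * hp0 + ((-1)) * hξ
    · show snd (D (cycloUnit hζ 2 d2 : 𝓞 K)) = c 1 * fst (D (cycloUnit hζ 2 d2 : 𝓞 K))
      rw [coe_cycloUnit, snd_D_geom D _ _ hD, fst_D_geom D _ _ hD]
      simp [c, cv5, Fin.sum_univ_succ, Finset.sum_range_succ]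
      linear_combination ((-1) + (-1) * ξ + (-1) * ξ ^ 2) * hp0 + ((-2)) * hξ
  · intro i j
    show ℓ (sel5 j) (c i) = matM5 i j
    rw [hℓ, cv5_sel5]

end p5

/-- **Kummer's lemma** for `ℚ(ζ_5)`. -/
theorem kummerLemma_five (K : Type*) [Field K] [NumberField K] [IsCyclotomicExtension {5} ℚ K] :
    KummerLemma 5 K := by
  obtain ⟨ζ, hζ⟩ := IsCyclotomicExtension.exists_isPrimitiveRoot ℚ K (Set.mem_singleton 5)
    (by norm_num : (5 : ℕ) ≠ 0)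
  have hp3 : 3 ≤ 5 := by norm_num
  exact kummerLemma_five_of_D hζ (jetHom hζ hp3 : 𝓞 K →+* DualNumber (TruncRing 5))
    (truncMk 5 X) (jetHom_toInteger' hζ hp3) (truncRing_natCast_self 5) (truncXi_pow 5)
    (fun k => (truncCoeff 5 k k.isLt).toAddMonoidHom)
    (fun k v => truncCoeff_sum 5 k v)

/-! ### p = 7 -/

section p7

/-- coefficient vectors of the logarithmic derivatives of `ζ, u_2, …, u_3` (p = 7) -/
def cv7 : Fin 3 → Fin 5 → ℤ :=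
  ![![1, 6, 1, 6, 1],
    ![4, 5, 1, 3, 2],
    ![1, 2, 0, 4, 3]]

/-- the selected coefficient indices (p = 7) -/
def sel7 : Fin 3 → Fin 5 := ![0, 1, 3]

/-- the matrix of selected coefficients (p = 7) -/
def matM7 : Matrix (Fin 3) (Fin 3) (ZMod 7) :=
  !![1, 6, 6; 4, 5, 3; 1, 2, 4]

/-- its inverse (p = 7) -/
def matN7 : Matrix (Fin 3) (Fin 3) (ZMod 7) :=
  !![0, 3, 3; 5, 4, 0; 1, 6, 3]

lemma matN7_mul_matM7 : matN7 * matM7 = 1 := by decide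

lemma cv7_sel7 : ∀ i j, ((cv7 i (sel7 j) : ℤ) : ZMod 7) = matM7 i j := by
  intro i j
  fin_cases i <;> fin_cases j <;> rfl

instance fact_prime_seven : Fact (Nat.Prime 7) := ⟨by norm_num⟩

variable {K : Type*} [Field K] [NumberField K] [IsCyclotomicExtension {7} ℚ K]
  {ζ : K} (hζ : IsPrimitiveRoot ζ 7) {R : Type*} [CommRing R]

theorem kummerLemma_seven_of_D (D : 𝓞 K →+* TrivSqZeroExt R R) (ξ : R)
    (hD : D hζ.toInteger = inl (1 + ξ) + inr 1) (hpR : ((7 : ℕ) : R) = 0) (hξ : ξ ^ 5 = 0)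
    (ℓ : Fin 5 → R →+ ZMod 7)
    (hℓ : ∀ (k : Fin 5) (v : Fin 5 → ℤ), ℓ k (∑ m, ((v m : ℤ) : R) * ξ ^ (m : ℕ)) = ((v k : ℤ) : ZMod 7)) :
    KummerLemma 7 K := by
  have hp0 : (7 : R) = 0 := by exact_mod_cast hpR
  have d2 : ¬ 7 ∣ 2 := by norm_num
  have d3 : ¬ 7 ∣ 3 := by norm_num
  let u : Fin 3 → (𝓞 K)ˣ := ![zetaUnit hζ, cycloUnit hζ 2 d2, cycloUnit hζ 3 d3]
  let c : Fin 3 → R := fun i => ∑ m, ((cv7 i m : ℤ) : R) * ξ ^ (m : ℕ)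
  let L : R →+ (Fin 3 → ZMod 7) := AddMonoidHom.pi fun j => ℓ (sel7 j)
  refine kummerLemma_of_D (by norm_num) D hpR (by norm_num) L u c ?_ matM7 matN7 ?_
    matN7_mul_matM7
  · intro i
    fin_cases i
    · show snd (D (zetaUnit hζ : 𝓞 K)) = c 0 * fst (D (zetaUnit hζ : 𝓞 K))
      rw [coe_zetaUnit, hD]
      simp [c, cv7, Fin.sum_univ_succ]
      linear_combination ((-1) * ξ + (-1) * ξ ^ 2 + (-1) * ξ ^ 3 + (-1) * ξ ^ 4) * hp0 + ((-1)) * hξ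
    · show snd (D (cycloUnit hζ 2 d2 : 𝓞 K)) = c 1 * fst (D (cycloUnit hζ 2 d2 : 𝓞 K))
      rw [coe_cycloUnit, snd_D_geom D _ _ hD, fst_D_geom D _ _ hD]
      simp [c, cv7, Fin.sum_univ_succ, Finset.sum_range_succ]
      linear_combination ((-1) + (-2) * ξ + (-1) * ξ ^ 2 + (-1) * ξ ^ 3 + (-1) * ξ ^ 4) * hp0 + ((-2)) * hξ
    · show snd (D (cycloUnit hζ 3 d3 : 𝓞 K)) = c 2 * fst (D (cycloUnit hζ 3 d3 : 𝓞 K))
      rw [coe_cycloUnit, snd_D_geom D _ _ hD, fst_D_geom D _ _ hD]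
      simp [c, cv7, Fin.sum_univ_succ, Finset.sum_range_succ]
      linear_combination ((-1) * ξ + (-1) * ξ ^ 2 + (-2) * ξ ^ 3 + (-3) * ξ ^ 4) * hp0 + ((-13) + (-3) * ξ) * hξ
  · intro i j
    show ℓ (sel7 j) (c i) = matM7 i j
    rw [hℓ, cv7_sel7]

end p7

/-- **Kummer's lemma** for `ℚ(ζ_7)`. -/
theorem kummerLemma_seven (K : Type*) [Field K] [NumberField K] [IsCyclotomicExtension {7} ℚ K] :
    KummerLemma 7 K := by
  obtain ⟨ζ, hζ⟩ := IsCyclotomicExtension.exists_isPrimitiveRoot ℚ K (Set.mem_singleton 7)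
    (by norm_num : (7 : ℕ) ≠ 0)
  have hp3 : 3 ≤ 7 := by norm_num
  exact kummerLemma_seven_of_D hζ (jetHom hζ hp3 : 𝓞 K →+* DualNumber (TruncRing 7))
    (truncMk 7 X) (jetHom_toInteger' hζ hp3) (truncRing_natCast_self 7) (truncXi_pow 7)
    (fun k => (truncCoeff 7 k k.isLt).toAddMonoidHom)
    (fun k v => truncCoeff_sum 7 k v)

/-! ### p = 11 -/

section p11

/-- coefficient vectors of the logarithmic derivatives of `ζ, u_2, …, u_5` (p = 11) -/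
def cv11 : Fin 5 → Fin 9 → ℤ :=
  ![![1, 10, 1, 10, 1, 10, 1, 10, 1],
    ![6, 8, 7, 2, 10, 6, 8, 7, 2],
    ![1, 7, 0, 5, 6, 7, 2, 3, 0],
    ![7, 8, 1, 8, 7, 6, 4, 0, 0],
    ![2, 0, 10, 3, 0, 6, 5, 6, 5]]

/-- the selected coefficient indices (p = 11) -/
def sel11 : Fin 5 → Fin 9 := ![0, 1, 3, 5, 7]

/-- the matrix of selected coefficients (p = 11) -/
def matM11 : Matrix (Fin 5) (Fin 5) (ZMod 11) :=
  !![1, 10, 10, 10, 10; 6, 8, 2, 6, 7; 1, 7, 5, 7, 3; 7, 8, 8, 6, 0; 2, 0, 3, 6, 6]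

/-- its inverse (p = 11) -/
def matN11 : Matrix (Fin 5) (Fin 5) (ZMod 11) :=
  !![9, 6, 7, 0, 2; 1, 8, 7, 4, 2; 9, 0, 1, 3, 1; 0, 8, 5, 0, 1; 9, 1, 5, 4, 9]

lemma matN11_mul_matM11 : matN11 * matM11 = 1 := by decide

lemma cv11_sel11 : ∀ i j, ((cv11 i (sel11 j) : ℤ) : ZMod 11) = matM11 i j := by
  intro i j
  fin_cases i <;> fin_cases j <;> rfl

instance fact_prime_eleven : Fact (Nat.Prime 11) := ⟨by norm_num⟩

variable {K : Type*} [Field K] [NumberField K] [IsCyclotomicExtension {11} ℚ K]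
  {ζ : K} (hζ : IsPrimitiveRoot ζ 11) {R : Type*} [CommRing R]

theorem kummerLemma_eleven_of_D (D : 𝓞 K →+* TrivSqZeroExt R R) (ξ : R)
    (hD : D hζ.toInteger = inl (1 + ξ) + inr 1) (hpR : ((11 : ℕ) : R) = 0) (hξ : ξ ^ 9 = 0)
    (ℓ : Fin 9 → R →+ ZMod 11)
    (hℓ : ∀ (k : Fin 9) (v : Fin 9 → ℤ), ℓ k (∑ m, ((v m : ℤ) : R) * ξ ^ (m : ℕ)) = ((v k : ℤ) : ZMod 11)) :
    KummerLemma 11 K := by
  have hp0 : (11 : R) = 0 := by exact_mod_cast hpR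
  have d2 : ¬ 11 ∣ 2 := by norm_num
  have d3 : ¬ 11 ∣ 3 := by norm_num
  have d4 : ¬ 11 ∣ 4 := by norm_num
  have d5 : ¬ 11 ∣ 5 := by norm_num
  let u : Fin 5 → (𝓞 K)ˣ := ![zetaUnit hζ, cycloUnit hζ 2 d2, cycloUnit hζ 3 d3, cycloUnit hζ 4 d4, cycloUnit hζ 5 d5]
  let c : Fin 5 → R := fun i => ∑ m, ((cv11 i m : ℤ) : R) * ξ ^ (m : ℕ)
  let L : R →+ (Fin 5 → ZMod 11) := AddMonoidHom.pi fun j => ℓ (sel11 j)
  refine kummerLemma_of_D (by norm_num) D hpR (by norm_num) L u c ?_ matM11 matN11 ?_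
    matN11_mul_matM11
  · intro i
    fin_cases i
    · show snd (D (zetaUnit hζ : 𝓞 K)) = c 0 * fst (D (zetaUnit hζ : 𝓞 K))
      rw [coe_zetaUnit, hD]
      simp [c, cv11, Fin.sum_univ_succ]
      linear_combination ((-1) * ξ + (-1) * ξ ^ 2 + (-1) * ξ ^ 3 + (-1) * ξ ^ 4 + (-1) * ξ ^ 5 + (-1) * ξ ^ 6 + (-1) * ξ ^ 7 + (-1) * ξ ^ 8) * hp0 + ((-1)) * hξ
    · show snd (D (cycloUnit hζ 2 d2 : 𝓞 K)) = c 1 * fst (D (cycloUnit hζ 2 d2 : 𝓞 K))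
      rw [coe_cycloUnit, snd_D_geom D _ _ hD, fst_D_geom D _ _ hD]
      simp [c, cv11, Fin.sum_univ_succ, Finset.sum_range_succ]
      linear_combination ((-1) + (-2) * ξ + (-2) * ξ ^ 2 + (-1) * ξ ^ 3 + (-2) * ξ ^ 4 + (-2) * ξ ^ 5 + (-2) * ξ ^ 6 + (-2) * ξ ^ 7 + (-1) * ξ ^ 8) * hp0 + ((-2)) * hξ
    · show snd (D (cycloUnit hζ 3 d3 : 𝓞 K)) = c 2 * fst (D (cycloUnit hζ 3 d3 : 𝓞 K))
      rw [coe_cycloUnit, snd_D_geom D _ _ hD, fst_D_geom D _ _ hD]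
      simp [c, cv11, Fin.sum_univ_succ, Finset.sum_range_succ]
      linear_combination ((-2) * ξ + (-2) * ξ ^ 2 + (-2) * ξ ^ 3 + (-3) * ξ ^ 4 + (-4) * ξ ^ 5 + (-3) * ξ ^ 6 + (-2) * ξ ^ 7 + (-1) * ξ ^ 8) * hp0 + ((-3)) * hξ
    · show snd (D (cycloUnit hζ 4 d4 : 𝓞 K)) = c 3 * fst (D (cycloUnit hζ 4 d4 : 𝓞 K))
      rw [coe_cycloUnit, snd_D_geom D _ _ hD, fst_D_geom D _ _ hD]
      simp [c, cv11, Fin.sum_univ_succ, Finset.sum_range_succ]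
      linear_combination ((-2) + (-6) * ξ + (-7) * ξ ^ 2 + (-7) * ξ ^ 3 + (-8) * ξ ^ 4 + (-9) * ξ ^ 5 + (-8) * ξ ^ 6 + (-5) * ξ ^ 7 + (-2) * ξ ^ 8) * hp0 + ((-4)) * hξ
    · show snd (D (cycloUnit hζ 5 d5 : 𝓞 K)) = c 4 * fst (D (cycloUnit hζ 5 d5 : 𝓞 K))
      rw [coe_cycloUnit, snd_D_geom D _ _ hD, fst_D_geom D _ _ hD]
      simp [c, cv11, Fin.sum_univ_succ, Finset.sum_range_succ]
      linear_combination ((-5) * ξ ^ 2 + (-11) * ξ ^ 3 + (-12) * ξ ^ 4 + (-10) * ξ ^ 5 + (-10) * ξ ^ 6 + (-13) * ξ ^ 7 + (-15) * ξ ^ 8) * hp0 + ((-141) + (-85) * ξ + (-31) * ξ ^ 2 + (-5) * ξ ^ 3) * hξ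
  · intro i j
    show ℓ (sel11 j) (c i) = matM11 i j
    rw [hℓ, cv11_sel11]

end p11

/-- **Kummer's lemma** for `ℚ(ζ_11)`. -/
theorem kummerLemma_eleven (K : Type*) [Field K] [NumberField K] [IsCyclotomicExtension {11} ℚ K] :
    KummerLemma 11 K := by
  obtain ⟨ζ, hζ⟩ := IsCyclotomicExtension.exists_isPrimitiveRoot ℚ K (Set.mem_singleton 11)
    (by norm_num : (11 : ℕ) ≠ 0)
  have hp3 : 3 ≤ 11 := by norm_num
  exact kummerLemma_eleven_of_D hζ (jetHom hζ hp3 : 𝓞 K →+* DualNumber (TruncRing 11))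
    (truncMk 11 X) (jetHom_toInteger' hζ hp3) (truncRing_natCast_self 11) (truncXi_pow 11)
    (fun k => (truncCoeff 11 k k.isLt).toAddMonoidHom)
    (fun k v => truncCoeff_sum 11 k v)

/-! ### p = 13 -/

section p13

/-- coefficient vectors of the logarithmic derivatives of `ζ, u_2, …, u_6` (p = 13) -/
def cv13 : Fin 6 → Fin 11 → ℤ :=
  ![![1, 12, 1, 12, 1, 12, 1, 12, 1, 12, 1],
    ![7, 3, 5, 4, 11, 1, 6, 10, 8, 9, 2],
    ![1, 4, 0, 3, 10, 2, 12, 9, 0, 10, 3],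
    ![8, 3, 11, 11, 1, 1, 11, 5, 4, 9, 4],
    ![2, 0, 12, 6, 0, 2, 11, 4, 7, 3, 5],
    ![9, 8, 3, 8, 9, 1, 6, 7, 6, 7, 6]]

/-- the selected coefficient indices (p = 13) -/
def sel13 : Fin 6 → Fin 11 := ![0, 1, 3, 5, 7, 9]

/-- the matrix of selected coefficients (p = 13) -/
def matM13 : Matrix (Fin 6) (Fin 6) (ZMod 13) :=
  !![1, 12, 12, 12, 12, 12; 7, 3, 4, 1, 10, 9; 1, 4, 3, 2, 9, 10; 8, 3, 11, 1, 5, 9; 2, 0, 6, 2, 4, 3; 9, 8, 8, 1, 7, 7]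

/-- its inverse (p = 13) -/
def matN13 : Matrix (Fin 6) (Fin 6) (ZMod 13) :=
  !![1, 10, 12, 7, 4, 4; 3, 2, 12, 11, 2, 1; 3, 10, 2, 9, 2, 2; 9, 7, 4, 9, 7, 11; 7, 11, 0, 6, 1, 1; 4, 6, 7, 11, 5, 2]

lemma matN13_mul_matM13 : matN13 * matM13 = 1 := by decide

lemma cv13_sel13 : ∀ i j, ((cv13 i (sel13 j) : ℤ) : ZMod 13) = matM13 i j := by
  intro i j
  fin_cases i <;> fin_cases j <;> rfl

instance fact_prime_thirteen : Fact (Nat.Prime 13) := ⟨by norm_num⟩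

variable {K : Type*} [Field K] [NumberField K] [IsCyclotomicExtension {13} ℚ K]
  {ζ : K} (hζ : IsPrimitiveRoot ζ 13) {R : Type*} [CommRing R]

theorem kummerLemma_thirteen_of_D (D : 𝓞 K →+* TrivSqZeroExt R R) (ξ : R)
    (hD : D hζ.toInteger = inl (1 + ξ) + inr 1) (hpR : ((13 : ℕ) : R) = 0) (hξ : ξ ^ 11 = 0)
    (ℓ : Fin 11 → R →+ ZMod 13)
    (hℓ : ∀ (k : Fin 11) (v : Fin 11 → ℤ), ℓ k (∑ m, ((v m : ℤ) : R) * ξ ^ (m : ℕ)) = ((v k : ℤ) : ZMod 13)) :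
    KummerLemma 13 K := by
  have hp0 : (13 : R) = 0 := by exact_mod_cast hpR
  have d2 : ¬ 13 ∣ 2 := by norm_num
  have d3 : ¬ 13 ∣ 3 := by norm_num
  have d4 : ¬ 13 ∣ 4 := by norm_num
  have d5 : ¬ 13 ∣ 5 := by norm_num
  have d6 : ¬ 13 ∣ 6 := by norm_num
  let u : Fin 6 → (𝓞 K)ˣ := ![zetaUnit hζ, cycloUnit hζ 2 d2, cycloUnit hζ 3 d3, cycloUnit hζ 4 d4, cycloUnit hζ 5 d5, cycloUnit hζ 6 d6]
  let c : Fin 6 → R := fun i => ∑ m, ((cv13 i m : ℤ) : R) * ξ ^ (m : ℕ)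
  let L : R →+ (Fin 6 → ZMod 13) := AddMonoidHom.pi fun j => ℓ (sel13 j)
  refine kummerLemma_of_D (by norm_num) D hpR (by norm_num) L u c ?_ matM13 matN13 ?_
    matN13_mul_matM13
  · intro i
    fin_cases i
    · show snd (D (zetaUnit hζ : 𝓞 K)) = c 0 * fst (D (zetaUnit hζ : 𝓞 K))
      rw [coe_zetaUnit, hD]
      simp [c, cv13, Fin.sum_univ_succ]
      linear_combination ((-1) * ξ + (-1) * ξ ^ 2 + (-1) * ξ ^ 3 + (-1) * ξ ^ 4 + (-1) * ξ ^ 5 + (-1) * ξ ^ 6 + (-1) * ξ ^ 7 + (-1) * ξ ^ 8 + (-1) * ξ ^ 9 + (-1) * ξ ^ 10) * hp0 + ((-1)) * hξ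
    · show snd (D (cycloUnit hζ 2 d2 : 𝓞 K)) = c 1 * fst (D (cycloUnit hζ 2 d2 : 𝓞 K))
      rw [coe_cycloUnit, snd_D_geom D _ _ hD, fst_D_geom D _ _ hD]
      simp [c, cv13, Fin.sum_univ_succ, Finset.sum_range_succ]
      linear_combination ((-1) + (-1) * ξ + (-1) * ξ ^ 2 + (-1) * ξ ^ 3 + (-2) * ξ ^ 4 + (-1) * ξ ^ 5 + (-1) * ξ ^ 6 + (-2) * ξ ^ 7 + (-2) * ξ ^ 8 + (-2) * ξ ^ 9 + (-1) * ξ ^ 10) * hp0 + ((-2)) * hξ
    · show snd (D (cycloUnit hζ 3 d3 : 𝓞 K)) = c 2 * fst (D (cycloUnit hζ 3 d3 : 𝓞 K))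
      rw [coe_cycloUnit, snd_D_geom D _ _ hD, fst_D_geom D _ _ hD]
      simp [c, cv13, Fin.sum_univ_succ, Finset.sum_range_succ]
      linear_combination ((-1) * ξ + (-1) * ξ ^ 2 + (-1) * ξ ^ 3 + (-3) * ξ ^ 4 + (-3) * ξ ^ 5 + (-4) * ξ ^ 6 + (-5) * ξ ^ 7 + (-3) * ξ ^ 8 + (-3) * ξ ^ 9 + (-3) * ξ ^ 10) * hp0 + ((-19) + (-3) * ξ) * hξ
    · show snd (D (cycloUnit hζ 4 d4 : 𝓞 K)) = c 3 * fst (D (cycloUnit hζ 4 d4 : 𝓞 K))
      rw [coe_cycloUnit, snd_D_geom D _ _ hD, fst_D_geom D _ _ hD]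
      simp [c, cv13, Fin.sum_univ_succ, Finset.sum_range_succ]
      linear_combination ((-2) + (-4) * ξ + (-7) * ξ ^ 2 + (-10) * ξ ^ 3 + (-9) * ξ ^ 4 + (-5) * ξ ^ 5 + (-5) * ξ ^ 6 + (-7) * ξ ^ 7 + (-7) * ξ ^ 8 + (-7) * ξ ^ 9 + (-7) * ξ ^ 10) * hp0 + ((-64) + (-25) * ξ + (-4) * ξ ^ 2) * hξ
    · show snd (D (cycloUnit hζ 5 d5 : 𝓞 K)) = c 4 * fst (D (cycloUnit hζ 5 d5 : 𝓞 K))
      rw [coe_cycloUnit, snd_D_geom D _ _ hD, fst_D_geom D _ _ hD]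
      simp [c, cv13, Fin.sum_univ_succ, Finset.sum_range_succ]
      linear_combination ((-5) * ξ ^ 2 + (-12) * ξ ^ 3 + (-14) * ξ ^ 4 + (-10) * ξ ^ 5 + (-9) * ξ ^ 6 + (-12) * ξ ^ 7 + (-15) * ξ ^ 8 + (-14) * ξ ^ 9 + (-12) * ξ ^ 10) * hp0 + ((-119) + (-72) * ξ + (-28) * ξ ^ 2 + (-5) * ξ ^ 3) * hξ
    · show snd (D (cycloUnit hζ 6 d6 : 𝓞 K)) = c 5 * fst (D (cycloUnit hζ 6 d6 : 𝓞 K))
      rw [coe_cycloUnit, snd_D_geom D _ _ hD, fst_D_geom D _ _ hD]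
      simp [c, cv13, Fin.sum_univ_succ, Finset.sum_range_succ]
      linear_combination ((-3) + (-11) * ξ + (-21) * ξ ^ 2 + (-28) * ξ ^ 3 + (-31) * ξ ^ 4 + (-31) * ξ ^ 5 + (-29) * ξ ^ 6 + (-26) * ξ ^ 7 + (-26) * ξ ^ 8 + (-29) * ξ ^ 9 + (-31) * ξ ^ 10) * hp0 + ((-368) + (-268) * ξ + (-138) * ξ ^ 2 + (-43) * ξ ^ 3 + (-6) * ξ ^ 4) * hξ
  · intro i j
    show ℓ (sel13 j) (c i) = matM13 i j
    rw [hℓ, cv13_sel13]

end p13

/-- **Kummer's lemma** for `ℚ(ζ_13)`. -/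
theorem kummerLemma_thirteen (K : Type*) [Field K] [NumberField K] [IsCyclotomicExtension {13} ℚ K] :
    KummerLemma 13 K := by
  obtain ⟨ζ, hζ⟩ := IsCyclotomicExtension.exists_isPrimitiveRoot ℚ K (Set.mem_singleton 13)
    (by norm_num : (13 : ℕ) ≠ 0)
  have hp3 : 3 ≤ 13 := by norm_num
  exact kummerLemma_thirteen_of_D hζ (jetHom hζ hp3 : 𝓞 K →+* DualNumber (TruncRing 13))
    (truncMk 13 X) (jetHom_toInteger' hζ hp3) (truncRing_natCast_self 13) (truncXi_pow 13)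
    (fun k => (truncCoeff 13 k k.isLt).toAddMonoidHom)
    (fun k v => truncCoeff_sum 13 k v)

end Fermat.Agent.FLTSmall.KL
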