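import Fermat.Agent.FLTSmall.PIDTools

set_option autoImplicit false

/-!
# A packaged Minkowski criterion for `ℤ[ζ_p]`

`PIDTools.isPrincipalIdealRing_of_forall_pow_le` : for `K = ℚ(ζ_p)` with Minkowski bound `≤ B`, to
show that `𝓞 K` is a PID it suffices to find a principal prime over every prime `q ≠ p` that has a
power `q ^ f ≤ B` with `q ^ f ≡ 1 (mod p)`.
-/

namespace Fermat.Agent.FLTSmall.PIDTools

open NumberField Module NumberField.InfinitePlace Nat Real Ideal IsCyclotomicExtension.Rat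

theorem isPrincipalIdealRing_of_forall_pow_le (p : ℕ) [Fact p.Prime] (K : Type*) [Field K]
    [NumberField K] [IsCyclotomicExtension {p} ℚ K] (B : ℕ)
    (hB : ⌊(4 / π) ^ nrComplexPlaces K *
      ((finrank ℚ K)! / (finrank ℚ K) ^ (finrank ℚ K) * √|discr K|)⌋₊ ≤ B)
    (h : ∀ q : ℕ, q.Prime → q ≠ p → ∀ f : ℕ, 0 < f → q ^ f ≤ B → q ^ f % p = 1 →
      ∃ P ∈ primesOver (span {(q : ℤ)}) (𝓞 K), Submodule.IsPrincipal P) :
    IsPrincipalIdealRing (𝓞 K) := by
  have hp : p.Prime := Fact.out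
  have : IsGalois ℚ K := IsCyclotomicExtension.isGalois {p} ℚ K
  refine RingOfIntegers.isPrincipalIdealRing_of_isPrincipal_of_lt_or_isPrincipal_of_mem_primesOver_of_mem_Icc
    (fun q _ hq => ?_)
  have : Fact q.Prime := ⟨hq⟩
  by_cases hqp : q = p
  · subst hqp
    obtain ⟨P, hP, hprin⟩ := exists_isPrincipal_primesOver_self (K := K) q
    exact ⟨P, hP, Or.inr hprin⟩
  have hndvd : ¬ q ∣ p := fun hd => hqp ((Nat.prime_dvd_prime_iff_eq hq hp).mp hd)
  obtain ⟨⟨P, hP1, hP2⟩⟩ := (span {(q : ℤ)}).nonempty_primesOver (S := 𝓞 K)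
  have hdeg : P.inertiaDeg ℤ = orderOf (q : ZMod p) := inertiaDeg_eq_of_not_dvd q K P hndvd
  by_cases hlt : B < q ^ P.inertiaDeg ℤ
  · exact ⟨P, ⟨hP1, hP2⟩, Or.inl (lt_of_le_of_lt hB hlt)⟩
  · push Not at hlt
    have hq0 : (q : ZMod p) ≠ 0 := by
      rw [Ne, ZMod.natCast_eq_zero_iff]
      exact fun hd => hqp ((Nat.prime_dvd_prime_iff_eq hp hq).mp hd).symm
    have hfin : IsOfFinOrder (q : ZMod p) :=
      isOfFinOrder_iff_pow_eq_one.mpr ⟨p - 1, by have := hp.two_le; omega,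
        ZMod.pow_card_sub_one_eq_one hq0⟩
    have hfpos : 0 < P.inertiaDeg ℤ := by rw [hdeg]; exact hfin.orderOf_pos
    have hmod : q ^ P.inertiaDeg ℤ % p = 1 := by
      have h1 : ((q ^ P.inertiaDeg ℤ : ℕ) : ZMod p) = ((1 : ℕ) : ZMod p) := by
        rw [Nat.cast_pow, hdeg, pow_orderOf_eq_one, Nat.cast_one]
      have h2 := (ZMod.natCast_eq_natCast_iff' _ _ _).mp h1
      rw [h2, Nat.one_mod_eq_one.mpr hp.ne_one]
    obtain ⟨P', hP', hprin⟩ := h q hq hqp _ hfpos hlt hmod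
    exact ⟨P', hP', Or.inr hprin⟩

end Fermat.Agent.FLTSmall.PIDTools
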