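import Mathlib

set_option autoImplicit false

/-!
# Tools for proving that `ℤ[ζₘ]` is a PID via explicit generators of small primes

* `PIDTools.span_pair_eq_span_singleton` : `span {q, t} = span {α}` from three cofactor identities.
* `PIDTools.exists_isPrincipal_primesOver_of_factor` : Kummer–Dedekind: if `Q mod q` is a monic
  irreducible factor of the minimal polynomial of a generator `θ` of `𝓞 K` and
  `span {q, Q(θ)} = span {α}` then some prime over `q` is principal.
* `PIDTools.exists_isPrincipal_primesOver_of_root` : the degree one (split prime) special case for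
  cyclotomic fields: `r` a root of `Φₘ` mod `q`, `span {q, ζ - r} = span {α}`.
* `PIDTools.exists_isPrincipal_primesOver_self` : the ramified prime `p` in `ℚ(ζ_p)`.
-/

namespace Fermat.Agent.FLTSmall.PIDTools

open NumberField Ideal Polynomial RingOfIntegers NumberField.Ideal

theorem span_pair_eq_span_singleton {R : Type*} [CommRing R] {q t α β γ δ ε : R}
    (h1 : q = α * β) (h2 : t = α * γ) (h3 : α = q * δ + t * ε) :
    span ({q, t} : Set R) = span {α} := by
  apply le_antisymm
  · rw [span_le]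
    rintro x (rfl | rfl)
    · exact mem_span_singleton.mpr ⟨β, h1⟩
    · exact mem_span_singleton.mpr ⟨γ, h2⟩
  · rw [span_le, Set.singleton_subset_iff, SetLike.mem_coe, mem_span_pair]
    exact ⟨δ, ε, by rw [h3]; ring⟩

variable {K : Type*} [Field K] [NumberField K]

/-- Kummer–Dedekind criterion for the existence of a principal prime above `q`. -/
theorem exists_isPrincipal_primesOver_of_factor {θ : 𝓞 K} (hθ : Algebra.adjoin ℤ {θ} = ⊤)
    (q : ℕ) [Fact q.Prime] (Q : ℤ[X]) (hmonic : Q.Monic)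
    (hirr : Irreducible (Q.map (Int.castRingHom (ZMod q))))
    (hdvd : Q.map (Int.castRingHom (ZMod q)) ∣ (minpoly ℤ θ).map (Int.castRingHom (ZMod q)))
    (α : 𝓞 K) (hα : span ({(q : 𝓞 K), aeval θ Q} : Set (𝓞 K)) = span {α}) :
    ∃ P ∈ primesOver (span {(q : ℤ)}) (𝓞 K), Submodule.IsPrincipal P := by
  have h₁ : ¬ q ∣ exponent θ := by
    rw [exponent_eq_one_iff.mpr hθ]
    exact (Fact.out : q.Prime).not_dvd_one
  have hQ : Q.map (Int.castRingHom (ZMod q)) ∈ monicFactorsMod θ q := by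
    rw [Multiset.mem_toFinset, Polynomial.mem_normalizedFactors_iff
      (map_monic_ne_zero (minpoly.monic θ.isIntegral))]
    exact ⟨hirr, hmonic.map _, hdvd⟩
  refine ⟨((primesOverSpanEquivMonicFactorsMod h₁).symm ⟨_, hQ⟩ : Ideal (𝓞 K)),
    ((primesOverSpanEquivMonicFactorsMod h₁).symm ⟨_, hQ⟩).prop, ?_⟩
  rw [primesOverSpanEquivMonicFactorsMod_symm_apply_eq_span h₁ hQ, hα]
  exact ⟨⟨α, rfl⟩⟩

/-- Split primes in cyclotomic fields: `r` is a root of `Φₘ` modulo `q` and
`span {q, ζ - r} = span {α}`. -/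
theorem exists_isPrincipal_primesOver_of_root {m : ℕ} [NeZero m] [IsCyclotomicExtension {m} ℚ K]
    {ζ : K} (hζ : IsPrimitiveRoot ζ m) (q : ℕ) [Fact q.Prime] (r : ℤ)
    (hr : (cyclotomic m (ZMod q)).IsRoot (r : ZMod q))
    (α : 𝓞 K) (hα : span ({(q : 𝓞 K), hζ.toInteger - (r : 𝓞 K)} : Set (𝓞 K)) = span {α}) :
    ∃ P ∈ primesOver (span {(q : ℤ)}) (𝓞 K), Submodule.IsPrincipal P := by
  have hmin : minpoly ℤ hζ.toInteger = cyclotomic m ℤ := by
    rw [← RingOfIntegers.minpoly_coe, cyclotomic_eq_minpoly hζ (NeZero.pos m)]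
    rfl
  refine exists_isPrincipal_primesOver_of_factor
    (IsCyclotomicExtension.Rat.adjoin_singleton_eq_top hζ) q (X - C r) (monic_X_sub_C r) ?_ ?_ α ?_
  · rw [Polynomial.map_sub, map_X, map_C]
    exact irreducible_X_sub_C _
  · rw [hmin, map_cyclotomic, Polynomial.map_sub, map_X, map_C, eq_intCast, dvd_iff_isRoot]
    exact hr
  · rw [← hα]
    simp

/-- The ramified prime: the unique prime over `p` in `ℚ(ζ_p)` is principal. -/
theorem exists_isPrincipal_primesOver_self (p : ℕ) [Fact p.Prime]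
    [IsCyclotomicExtension {p} ℚ K] :
    ∃ P ∈ primesOver (span {(p : ℤ)}) (𝓞 K), Submodule.IsPrincipal P := by
  obtain ⟨⟨P, hP1, hP2⟩⟩ := (span {(p : ℤ)}).nonempty_primesOver (S := 𝓞 K)
  refine ⟨P, ⟨hP1, hP2⟩, ?_⟩
  rw [IsCyclotomicExtension.Rat.eq_span_zeta_sub_one_of_liesOver' p K
    (IsCyclotomicExtension.zeta_spec p ℚ K) P]
  exact ⟨⟨_, rfl⟩⟩

end Fermat.Agent.FLTSmall.PIDTools
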